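import Mathlib
import Fermat.Prelude.Def_CuspForm_HeckeLocal
import Fermat.Prelude.Def_CuspForm_HeckeEvalForms
import Fermat.Prelude.Def_HeckeGalois_EichlerShimura
import Fermat.Prelude.Def_ModularCurve_ModularUnit
import Fermat.Agent.S49.QCoeff

set_option autoImplicit false
set_option linter.unusedSectionVars false

namespace Fermat.Agent.S16.Duality

open ModularCurve CuspForm CongruenceSubgroup ModularFormClass

/-! ### The arithmetic function `σ'` -/

/-- Sum of the divisors of `j` that are prime to `p`. -/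
def sigmaP (p j : ℕ) : ℤ := ∑ d ∈ j.divisors with ¬ p ∣ d, (d : ℤ)

/-- the completely multiplicative function `d ↦ d` if `p ∤ d`, `0` otherwise -/
def gP (p : ℕ) : ArithmeticFunction ℤ := ⟨fun d => if p ∣ d then 0 else (d : ℤ), by simp⟩

theorem gP_apply (p d : ℕ) : gP p d = if p ∣ d then 0 else (d : ℤ) := rfl

theorem sigmaP_eq (p j : ℕ) : sigmaP p j = (gP p * ArithmeticFunction.zeta) j := by
  rw [ArithmeticFunction.coe_mul_zeta_apply, sigmaP, Finset.sum_filter]
  refine Finset.sum_congr rfl fun d _ => ?_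
  rw [gP_apply]
  split_ifs <;> simp_all

theorem gP_isMultiplicative {p : ℕ} (hp : p.Prime) : (gP p).IsMultiplicative := by
  refine ⟨?_, ?_⟩
  · rw [gP_apply, if_neg (by simpa using hp.one_lt.ne')]; simp
  · intro m n _
    simp only [gP_apply, hp.dvd_mul]
    split_ifs <;> simp_all

theorem sigmaP_mul_of_coprime {p : ℕ} (hp : p.Prime) {m n : ℕ} (h : m.Coprime n) :
    sigmaP p (m * n) = sigmaP p m * sigmaP p n := by
  simp only [sigmaP_eq]
  exact ((gP_isMultiplicative hp).mul
    ArithmeticFunction.isMultiplicative_zeta.natCast).map_mul_of_coprime h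

theorem sigmaP_one (p : ℕ) (hp : p.Prime) : sigmaP p 1 = 1 := by
  have : ¬ p ∣ 1 := by simpa using hp.one_lt.ne'
  simp [sigmaP, Finset.sum_filter, this]

theorem sigmaP_prime_pow {p l : ℕ} (hp : p.Prime) (hl : l.Prime) (hne : l ≠ p) (a : ℕ) :
    sigmaP p (l ^ a) = ∑ i ∈ Finset.range (a + 1), (l : ℤ) ^ i := by
  rw [sigmaP, Finset.sum_filter, Nat.divisors_prime_pow hl, Finset.sum_map]
  refine Finset.sum_congr rfl fun i _ => ?_
  have : ¬ p ∣ l ^ i := fun h => hne ((Nat.prime_dvd_prime_iff_eq hp hl).1 (hp.dvd_of_dvd_pow h)).symm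
  simp [this]

theorem sigmaP_self_pow {p : ℕ} (hp : p.Prime) (a : ℕ) : sigmaP p (p ^ a) = 1 := by
  rw [sigmaP, Finset.sum_filter, Nat.divisors_prime_pow hp, Finset.sum_map,
    Finset.sum_range_succ']
  have : ¬ p ∣ 1 := by simpa using hp.one_lt.ne'
  simp [this, pow_succ]

/-- `σ'` is a `U_p`-eigenvector with eigenvalue `1`. -/
theorem sigmaP_mul_self {p : ℕ} (hp : p.Prime) {j : ℕ} (hj : j ≠ 0) :
    sigmaP p (j * p) = sigmaP p j := by
  obtain ⟨a, m, hm, rfl⟩ := Nat.exists_eq_pow_mul_and_not_dvd hj p hp.ne_one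
  have hc : ∀ b, (p ^ b).Coprime m := fun b => Nat.Coprime.pow_left b ((hp.coprime_iff_not_dvd).2 hm)
  rw [show p ^ a * m * p = p ^ (a + 1) * m by ring, sigmaP_mul_of_coprime hp (hc _),
    sigmaP_mul_of_coprime hp (hc _), sigmaP_self_pow hp, sigmaP_self_pow hp]

/-- `σ'` is a `T_l`-eigenvector with eigenvalue `1 + l`. -/
theorem sigmaP_mul_prime {p l : ℕ} (hp : p.Prime) (hl : l.Prime) (hne : l ≠ p) {j : ℕ}
    (hj : j ≠ 0) :
    sigmaP p (j * l) + (if l ∣ j then (l : ℤ) * sigmaP p (j / l) else 0) =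
      (1 + (l : ℤ)) * sigmaP p j := by
  obtain ⟨a, m, hm, rfl⟩ := Nat.exists_eq_pow_mul_and_not_dvd hj l hl.ne_one
  have hc : ∀ b, (l ^ b).Coprime m := fun b => Nat.Coprime.pow_left b ((hl.coprime_iff_not_dvd).2 hm)
  rw [show l ^ a * m * l = l ^ (a + 1) * m by ring, sigmaP_mul_of_coprime hp (hc _),
    sigmaP_mul_of_coprime hp (hc _), sigmaP_prime_pow hp hl hne, sigmaP_prime_pow hp hl hne]
  rcases a with _ | a
  · have : ¬ l ∣ l ^ 0 * m := by simpa using hm
    rw [if_neg this]
    simp [Finset.sum_range_succ]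
  · have h1 : l ∣ l ^ (a + 1) * m := Dvd.dvd.mul_right (dvd_pow_self l (Nat.succ_ne_zero a)) m
    have h2 : l ^ (a + 1) * m / l = l ^ a * m := by
      rw [pow_succ, mul_assoc, mul_comm l m, ← mul_assoc, Nat.mul_div_cancel _ hl.pos]
    rw [if_pos h1, h2, sigmaP_mul_of_coprime hp (hc _), sigmaP_prime_pow hp hl hne]
    rw [Finset.sum_range_succ _ (a + 1 + 1), Finset.sum_range_succ _ (a + 1)]
    ring

/-! ### An abstract rank lemma -/

theorem exists_smul_mem_range {R L D : Type*} [CommRing R] [IsDomain R] [AddCommGroup L]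
    [Module R L] [AddCommGroup D] [Module R D] [Module.Finite R D]
    (ι : L →ₗ[R] D) (hι : Function.Injective ι)
    (hr : Module.finrank R D ≤ Module.finrank R L) (φ : D) :
    ∃ N : R, N ≠ 0 ∧ ∃ f, ι f = N • φ := by
  have h1 := Submodule.finrank_quotient_add_finrank (LinearMap.range ι)
  rw [LinearMap.finrank_range_of_inj hι] at h1
  have h2 : Module.finrank R (D ⧸ LinearMap.range ι) = 0 := by
    omega
  obtain ⟨N, hN, h3⟩ := Module.finrank_eq_zero_iff.1 h2 (Submodule.Quotient.mk φ)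
  rw [← Submodule.Quotient.mk_smul, Submodule.Quotient.mk_eq_zero] at h3
  obtain ⟨f, hf⟩ := h3
  exact ⟨N, hN, f, hf⟩

/-! ### The abstract quotient computation -/

theorem card_quotient_abstract {A T : Type*} [CommRing A] [CommRing T] [Module.Projective ℤ T]
    (π : A →+* T) (hπ : Function.Surjective π) (ev : A →+* ℤ) (I : Ideal A)
    (hI : ∀ P, P ∈ I ↔ ev P = 0) (n : ℕ)
    (h1 : ∀ Q, π Q = 0 → (n : ℤ) ∣ ev Q)
    (h2 : ∀ (m0 : ℕ) (h : T →+ ℤ), (∀ P, (m0 : ℤ) ∣ h (π P) - ev P) → m0 ∣ n) :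
    Nat.card (T ⧸ Ideal.map π I) = n := by
  set J := Ideal.map π I with hJ
  have mk_pi : ∀ P, Ideal.Quotient.mk J (π P) = ((ev P : ℤ) : T ⧸ J) := by
    intro P
    have h1 : P - ((ev P : ℤ) : A) ∈ I := by
      rw [hI, map_sub, map_intCast, Int.cast_id, sub_self]
    have h2 : π (P - ((ev P : ℤ) : A)) ∈ J := Ideal.mem_map_of_mem _ h1
    rw [map_sub, ← Ideal.Quotient.eq] at h2
    rw [h2, map_intCast, map_intCast]
  have hsurj : Function.Surjective (Int.castRingHom (T ⧸ J)) := by
    intro x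
    obtain ⟨t, rfl⟩ := Ideal.Quotient.mk_surjective x
    obtain ⟨P, rfl⟩ := hπ t
    exact ⟨ev P, (mk_pi P).symm⟩
  have hker : RingHom.ker (Int.castRingHom (T ⧸ J)) = Ideal.span {(n : ℤ)} := by
    apply le_antisymm
    · intro m hm
      rw [RingHom.mem_ker, eq_intCast] at hm
      have h3 : ((m : ℤ) : T) ∈ J := by
        rw [← Ideal.Quotient.eq_zero_iff_mem, map_intCast]
        exact hm
      obtain ⟨P, hP, hPm⟩ := (Ideal.mem_map_iff_of_surjective _ hπ).1 h3
      have h4 := h1 (((m : ℤ) : A) - P) (by rw [map_sub, hPm, map_intCast, sub_self])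
      rw [map_sub, (hI P).1 hP, sub_zero, map_intCast, Int.cast_id] at h4
      exact Ideal.mem_span_singleton.2 h4
    · rw [Ideal.span_singleton_le_iff_mem]
      obtain ⟨m0, hm0⟩ : ∃ m0 : ℕ,
          RingHom.ker (Int.castRingHom (T ⧸ J)) = Ideal.span {(m0 : ℤ)} := by
        obtain ⟨a, ha⟩ := (IsPrincipalIdealRing.principal
          (RingHom.ker (Int.castRingHom (T ⧸ J)))).principal
        refine ⟨a.natAbs, ?_⟩
        rw [ha, Int.span_natAbs]
      obtain ⟨h, hh⟩ := Module.projective_lifting_property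
        ((Int.castRingHom (T ⧸ J)).toIntAlgHom.toLinearMap)
        ((Ideal.Quotient.mk J).toIntAlgHom.toLinearMap) hsurj
      have hh' : ∀ t, ((h t : ℤ) : T ⧸ J) = Ideal.Quotient.mk J t := fun t => by
        have := congrArg (fun ψ => ψ t) hh
        simpa using this
      have hdvd : m0 ∣ n := by
        apply h2 m0 h.toAddMonoidHom
        intro P
        have h5 : (h (π P) - ev P : ℤ) ∈ RingHom.ker (Int.castRingHom (T ⧸ J)) := by
          rw [RingHom.mem_ker, eq_intCast, Int.cast_sub, hh', mk_pi, sub_self]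
        rwa [hm0, Ideal.mem_span_singleton] at h5
      rw [hm0, Ideal.mem_span_singleton]
      exact_mod_cast hdvd
  have e := RingHom.quotientKerEquivOfSurjective hsurj
  rw [← Nat.card_congr e.toEquiv, Nat.card_congr (Ideal.quotEquivOfEq hker).toEquiv,
    Nat.card_congr (Int.quotientSpanNatEquivZMod n).toEquiv, Nat.card_zmod]

/-! ### Plumbing -/

section Plumbing

variable (p : ℕ) [Fact p.Prime]

/-- the surjection `ℤ[X_l] → 𝕋`. -/
noncomputable def piHom : HeckeAlg →+* ↥(heckeLatticeAlgebra p ∅) :=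
  (latticeRestrictHom p ∅).toRingHom.comp (heckeEvalForms p 2)

/-- the Eisenstein evaluation `ℤ[X_l] → ℤ`. -/
noncomputable def evHom : HeckeAlg →+* ℤ :=
  (MvPolynomial.aeval (R := ℤ) (eisensteinSystem p)).toRingHom

theorem mem_eisensteinIdeal_iff (P : HeckeAlg) : P ∈ eisensteinIdeal p ↔ evHom p P = 0 :=
  mem_eigenIdeal_iff _ _

/-- integer `q`-coefficients of elements of the lattice -/
noncomputable def aInt (f : ↥(intLattice p 2)) (j : ℕ) : ℤ :=
  Classical.choose (Fermat.Agent.S49.qCoeff_int_of_mem_intLattice f.2 j)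

theorem aInt_spec (f : ↥(intLattice p 2)) (j : ℕ) :
    ((aInt p f j : ℤ) : ℂ) = qCoeff (f : CuspForm (Gamma0 p) 2) j :=
  (Classical.choose_spec (Fermat.Agent.S49.qCoeff_int_of_mem_intLattice f.2 j)).symm

theorem aInt_add (f g : ↥(intLattice p 2)) (j : ℕ) :
    aInt p (f + g) j = aInt p f j + aInt p g j := by
  have : ((aInt p (f + g) j : ℤ) : ℂ) = ((aInt p f j + aInt p g j : ℤ) : ℂ) := by
    push_cast
    rw [aInt_spec, aInt_spec, aInt_spec]
    exact Fermat.Agent.S49.qCoeff_add _ _ _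
  exact_mod_cast this

theorem aInt_smul (c : ℤ) (f : ↥(intLattice p 2)) (j : ℕ) :
    aInt p (c • f) j = c * aInt p f j := by
  have : ((aInt p (c • f) j : ℤ) : ℂ) = ((c * aInt p f j : ℤ) : ℂ) := by
    push_cast
    rw [aInt_spec, aInt_spec, ← Fermat.Agent.S49.qCoeff_smul]
    congr 2
    rw [Submodule.coe_smul, Int.cast_smul_eq_zsmul]
  exact_mod_cast this

/-- `j`-th coefficient as a linear form on the lattice -/
noncomputable def aLin (j : ℕ) : ↥(intLattice p 2) →ₗ[ℤ] ℤ where
  toFun f := aInt p f j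
  map_add' f g := aInt_add p f g j
  map_smul' c f := aInt_smul p c f j

theorem aInt_zero (f : ↥(intLattice p 2)) : aInt p f 0 = 0 := by
  have : ((aInt p f 0 : ℤ) : ℂ) = ((0 : ℤ) : ℂ) := by
    rw [aInt_spec, Fermat.Agent.S49.qCoeff_index_zero]; simp
  exact_mod_cast this

theorem eq_zero_of_aInt (f : ↥(intLattice p 2)) (h : ∀ j, 1 ≤ j → aInt p f j = 0) : f = 0 := by
  apply Subtype.ext
  apply Fermat.Agent.S49.eq_zero_of_qCoeff
  intro n
  rw [← aInt_spec]
  rcases Nat.eq_zero_or_pos n with rfl | hn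
  · rw [aInt_zero]; simp
  · rw [h n hn]; simp

/-- action of `P ∈ ℤ[X_l]` on the lattice -/
noncomputable def act (P : HeckeAlg) (f : ↥(intLattice p 2)) : ↥(intLattice p 2) :=
  (piHom p P : Module.End ℤ ↥(intLattice p 2)) f

theorem act_X_of_ne (l : Nat.Primes) (hl : (l : ℕ) ≠ p) (f : ↥(intLattice p 2)) (n : ℕ) :
    aInt p (act p (MvPolynomial.X l) f) n =
      aInt p f (n * l) + if (l : ℕ) ∣ n then (l : ℤ) * aInt p f (n / l) else 0 := by
  have hnd : ¬ (l : ℕ) ∣ p := fun h =>
    hl ((Nat.prime_dvd_prime_iff_eq l.2 (Fact.out : p.Prime)).1 h)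
  have h1 : ((act p (MvPolynomial.X l) f : ↥(intLattice p 2)) : CuspForm (Gamma0 p) 2) =
      CuspForm.heckeTLin 2 l.2 hnd (f : CuspForm (Gamma0 p) 2) := by
    have := heckeEvalForms_heckeGen_of_not_dvd (N := p) (k := 2) hnd
    unfold act piHom
    rw [RingHom.comp_apply]
    erw [this]
    rfl
  have : ((aInt p (act p (MvPolynomial.X l) f) n : ℤ) : ℂ) =
      ((aInt p f (n * l) + if (l : ℕ) ∣ n then (l : ℤ) * aInt p f (n / l) else 0 : ℤ) : ℂ) := by
    rw [aInt_spec, h1, Fermat.Agent.S49.qCoeff_heckeTLin]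
    push_cast
    rw [aInt_spec]
    split_ifs
    · rw [aInt_spec]; norm_num
    · rfl
  exact_mod_cast this

theorem act_X_self (l : Nat.Primes) (hl : (l : ℕ) = p) (f : ↥(intLattice p 2)) (n : ℕ) :
    aInt p (act p (MvPolynomial.X l) f) n = aInt p f (n * p) := by
  have hd : (l : ℕ) ∣ p := hl ▸ dvd_rfl
  have h1 : ((act p (MvPolynomial.X l) f : ↥(intLattice p 2)) : CuspForm (Gamma0 p) 2) =
      CuspForm.heckeULin 2 hd (f : CuspForm (Gamma0 p) 2) := by
    have := heckeEvalForms_heckeGen_of_dvd (N := p) (k := 2) hd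
    unfold act piHom
    rw [RingHom.comp_apply]
    erw [this]
    rfl
  have : ((aInt p (act p (MvPolynomial.X l) f) n : ℤ) : ℂ) = ((aInt p f (n * p) : ℤ) : ℂ) := by
    rw [aInt_spec, h1, Fermat.Agent.S49.qCoeff_heckeULin l.2, aInt_spec, hl]
  exact_mod_cast this

theorem act_mul (P Q : HeckeAlg) (f : ↥(intLattice p 2)) :
    act p (P * Q) f = act p P (act p Q f) := by
  unfold act
  rw [map_mul]
  rfl

theorem act_add (P Q : HeckeAlg) (f : ↥(intLattice p 2)) :
    act p (P + Q) f = act p P f + act p Q f := by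
  unfold act
  rw [map_add]
  rfl

theorem act_sub (P Q : HeckeAlg) (f : ↥(intLattice p 2)) :
    act p (P - Q) f = act p P f - act p Q f := by
  unfold act
  rw [map_sub]
  rfl

theorem act_C (a : ℤ) (f : ↥(intLattice p 2)) :
    act p (MvPolynomial.C a) f = a • f := by
  unfold act
  have : piHom p (MvPolynomial.C a) = (a : ↥(heckeLatticeAlgebra p ∅)) := by
    rw [show (MvPolynomial.C a : HeckeAlg) = ((a : ℤ) : HeckeAlg) by simp, map_intCast]
  rw [this]
  simp

theorem act_one (f : ↥(intLattice p 2)) : act p 1 f = f := by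
  unfold act
  rw [map_one]
  rfl

theorem evHom_X_of_ne (l : Nat.Primes) (hl : (l : ℕ) ≠ p) :
    evHom p (MvPolynomial.X l) = 1 + (l : ℤ) := by
  have hnd : ¬ (l : ℕ) ∣ p := fun h =>
    hl ((Nat.prime_dvd_prime_iff_eq l.2 (Fact.out : p.Prime)).1 h)
  unfold evHom
  simp [eisensteinSystem_of_not_dvd hnd]

theorem evHom_X_self (l : Nat.Primes) (hl : (l : ℕ) = p) :
    evHom p (MvPolynomial.X l) = 1 := by
  have hd : (l : ℕ) ∣ p := hl ▸ dvd_rfl
  unfold evHom
  simp [eisensteinSystem_of_dvd hd]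

theorem evHom_C (a : ℤ) : evHom p (MvPolynomial.C a) = a := by
  unfold evHom
  simp

theorem piHom_surjective : Function.Surjective (piHom p) := by
  unfold piHom
  refine (latticeRestrictHom_surjective p ∅).comp ?_
  rintro ⟨t, ht⟩
  suffices h : ∃ P, ((heckeEvalForms p 2 P : ↥(heckeAlgebra p 2 ∅)) :
      Module.End ℂ (CuspForm (Gamma0 p) 2)) = t by
    obtain ⟨P, hP⟩ := h
    exact ⟨P, Subtype.ext hP⟩
  unfold heckeAlgebra at ht
  induction ht using Algebra.adjoin_induction with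
  | mem x hx =>
    rcases hx with ⟨l, hl, hlN, -, rfl⟩ | ⟨q, hqN, hq, -, rfl⟩
    · refine ⟨heckeGen (⟨l, hl⟩ : Nat.Primes), ?_⟩
      have := heckeEvalForms_heckeGen_of_not_dvd (N := p) (k := 2) (ℓ := (⟨l, hl⟩ : Nat.Primes)) hlN
      rw [this]
      rfl
    · refine ⟨heckeGen (⟨q, hq⟩ : Nat.Primes), ?_⟩
      have := heckeEvalForms_heckeGen_of_dvd (N := p) (k := 2) (q := (⟨q, hq⟩ : Nat.Primes)) hqN
      rw [this]
      rfl
  | algebraMap r =>
    refine ⟨MvPolynomial.C r, ?_⟩
    rw [heckeEvalForms_C]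
    rfl
  | add x y _ _ hx hy =>
    obtain ⟨P, rfl⟩ := hx
    obtain ⟨Q, rfl⟩ := hy
    exact ⟨P + Q, by rw [map_add]; rfl⟩
  | mul x y _ _ hx hy =>
    obtain ⟨P, rfl⟩ := hx
    obtain ⟨Q, rfl⟩ := hy
    exact ⟨P * Q, by rw [map_mul]; rfl⟩

/-! ### Eisenstein congruences propagate under the Hecke action -/

theorem eis_congr (k c : ℤ) (g : ↥(intLattice p 2))
    (hg : ∀ j : ℕ, 1 ≤ j → k ∣ aInt p g j - c * sigmaP p j) (P : HeckeAlg) :
    ∀ j : ℕ, 1 ≤ j → k ∣ aInt p (act p P g) j - evHom p P * c * sigmaP p j := by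
  have hp : p.Prime := Fact.out
  induction P using MvPolynomial.induction_on generalizing c g with
  | C a =>
    intro j hj
    rw [act_C, aInt_smul, evHom_C, mul_assoc, ← mul_sub]
    exact Dvd.dvd.mul_left (hg j hj) a
  | add P Q hP hQ =>
    intro j hj
    rw [act_add, aInt_add, map_add]
    have := dvd_add (hP c g hg j hj) (hQ c g hg j hj)
    have e : aInt p (act p P g) j + aInt p (act p Q g) j - (evHom p P + evHom p Q) * c * sigmaP p j
        = aInt p (act p P g) j - evHom p P * c * sigmaP p j +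
          (aInt p (act p Q g) j - evHom p Q * c * sigmaP p j) := by ring
    rw [e]
    exact this
  | mul_X P l hP =>
    intro j hj
    rw [act_mul, map_mul]
    have hj0 : j ≠ 0 := by omega
    by_cases hl : (l : ℕ) = p
    · have h2 : ∀ j : ℕ, 1 ≤ j → k ∣ aInt p (act p (MvPolynomial.X l) g) j - c * sigmaP p j := by
        intro j hj
        have hj0 : j ≠ 0 := by omega
        rw [act_X_self p l hl, ← sigmaP_mul_self hp hj0]
        exact hg _ (Nat.mul_pos hj hp.pos)
      have := hP c _ h2 j hj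
      rw [evHom_X_self p l hl, mul_one]
      exact this
    · have h2 : ∀ j : ℕ, 1 ≤ j →
          k ∣ aInt p (act p (MvPolynomial.X l) g) j - ((1 + (l : ℤ)) * c) * sigmaP p j := by
        intro j hj
        have hj0 : j ≠ 0 := by omega
        rw [act_X_of_ne p l hl, mul_right_comm, ← sigmaP_mul_prime hp l.2 hl hj0]
        have h3 := hg _ (Nat.mul_pos hj l.2.pos)
        split_ifs with hd
        · have h4 := hg (j / l) (Nat.div_pos (Nat.le_of_dvd hj hd) l.2.pos)
          have := dvd_add h3 (Dvd.dvd.mul_left h4 (l : ℤ))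
          have e : aInt p g (j * ↑l) + ↑↑l * aInt p g (j / ↑l) -
              (sigmaP p (j * ↑l) + ↑↑l * sigmaP p (j / ↑l)) * c =
              aInt p g (j * ↑l) - c * sigmaP p (j * ↑l) +
              ↑↑l * (aInt p g (j / ↑l) - c * sigmaP p (j / ↑l)) := by ring
          rw [e]
          exact this
        · rw [add_zero, add_zero, mul_comm (sigmaP p _) c]
          exact h3
      have := hP _ _ h2 j hj
      rw [evHom_X_of_ne p l hl]
      convert this using 1
      ring

/-- The polynomials `P_j` ("`T_j`"). -/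
theorem exists_Pj (j : ℕ) (hj : 1 ≤ j) :
    ∃ P : HeckeAlg, (∀ f : ↥(intLattice p 2), aInt p (act p P f) 1 = aInt p f j) ∧
      evHom p P = sigmaP p j := by
  have hp : p.Prime := Fact.out
  induction j using Nat.strong_induction_on with
  | _ j ih =>
    rcases Nat.eq_or_lt_of_le hj with rfl | hj1
    · exact ⟨1, fun f => by rw [act_one], by rw [map_one, sigmaP_one p hp]⟩
    · have hne : j ≠ 1 := by omega
      set l := j.minFac with hldef
      have hl : l.Prime := Nat.minFac_prime hne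
      obtain ⟨j', hj'⟩ : l ∣ j := Nat.minFac_dvd j
      have hj'pos : 1 ≤ j' := by
        rcases Nat.eq_zero_or_pos j' with h | h
        · rw [h, mul_zero] at hj'; omega
        · exact h
      have hj'lt : j' < j := by
        rw [hj']
        nlinarith [hl.two_le]
      have hj'0 : j' ≠ 0 := by omega
      obtain ⟨P1, hP1, hev1⟩ := ih j' hj'lt hj'pos
      have hjeq : j = j' * l := by rw [hj', mul_comm]
      obtain ⟨lp, hlpl⟩ : ∃ lp : Nat.Primes, (lp : ℕ) = l := ⟨⟨l, hl⟩, rfl⟩
      by_cases hlp : l = p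
      · refine ⟨P1 * (MvPolynomial.X lp : HeckeAlg), fun f => ?_, ?_⟩
        · rw [act_mul, hP1, act_X_self p lp (hlpl.trans hlp), hjeq, hlp]
        · rw [map_mul, hev1, evHom_X_self p lp (hlpl.trans hlp), mul_one, hjeq, hlp, sigmaP_mul_self hp hj'0]
      · by_cases hd : l ∣ j'
        · have h2pos : 1 ≤ j' / l := Nat.div_pos (Nat.le_of_dvd hj'pos hd) hl.pos
          have h2lt : j' / l < j := lt_of_le_of_lt (Nat.div_le_self _ _) hj'lt
          obtain ⟨P2, hP2, hev2⟩ := ih (j' / l) h2lt h2pos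
          refine ⟨P1 * (MvPolynomial.X lp : HeckeAlg) - MvPolynomial.C (l : ℤ) * P2,
            fun f => ?_, ?_⟩
          · have h3 := act_X_of_ne p lp (hlpl ▸ hlp) f j'
            rw [hlpl, if_pos hd] at h3
            have h4 : aInt p (act p (P1 * (MvPolynomial.X lp : HeckeAlg) -
                MvPolynomial.C (l : ℤ) * P2) f) 1 =
                aInt p (act p (P1 * (MvPolynomial.X lp : HeckeAlg)) f) 1 -
                aInt p (act p (MvPolynomial.C (l : ℤ) * P2) f) 1 := by
              rw [act_sub]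
              exact map_sub (aLin p 1) _ _
            rw [h4, act_mul, hP1, h3, act_mul, act_C, aInt_smul, hP2, hjeq]
            ring
          · have h3 := sigmaP_mul_prime hp hl hlp hj'0
            rw [if_pos hd] at h3
            rw [map_sub, map_mul, map_mul, hev1, hev2, evHom_X_of_ne p lp (hlpl ▸ hlp), evHom_C, hjeq, hlpl]
            linarith
        · refine ⟨P1 * (MvPolynomial.X lp : HeckeAlg), fun f => ?_, ?_⟩
          · have h3 := act_X_of_ne p lp (hlpl ▸ hlp) f j'
            rw [hlpl, if_neg hd, add_zero] at h3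
            rw [act_mul, hP1, h3, hjeq]
          · have h3 := sigmaP_mul_prime hp hl hlp hj'0
            rw [if_neg hd, add_zero] at h3
            rw [map_mul, hev1, evHom_X_of_ne p lp (hlpl ▸ hlp), hjeq, h3, hlpl]
            ring

/-! ### The pairing `𝕋 × L → ℤ` -/

/-- the pairing `𝕋 × L → ℤ`, `(t, f) ↦ a₁(t f)` -/
noncomputable def pairT :
    ↥(heckeLatticeAlgebra p ∅) →ₗ[ℤ] Module.Dual ℤ ↥(intLattice p 2) where
  toFun t := (aLin p 1).comp (t : Module.End ℤ ↥(intLattice p 2))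
  map_add' s t := by
    ext f
    simp
  map_smul' c t := by
    ext f
    simp

theorem pairT_apply (t : ↥(heckeLatticeAlgebra p ∅)) (f : ↥(intLattice p 2)) :
    pairT p t f = aInt p ((t : Module.End ℤ ↥(intLattice p 2)) f) 1 := rfl

theorem aInt_apply_eq (t : ↥(heckeLatticeAlgebra p ∅)) (f : ↥(intLattice p 2)) (P : HeckeAlg)
    (j : ℕ) (hP : ∀ f : ↥(intLattice p 2), aInt p (act p P f) 1 = aInt p f j) :
    aInt p ((t : Module.End ℤ ↥(intLattice p 2)) f) j = pairT p t (act p P f) := by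
  rw [← hP, pairT_apply]
  unfold act
  have h : piHom p P * t = t * piHom p P := mul_comm _ _
  have h2 := congrArg (fun s : ↥(heckeLatticeAlgebra p ∅) =>
    (s : Module.End ℤ ↥(intLattice p 2)) f) h
  exact congrArg (fun g => aInt p g 1) h2

theorem pairT_injective : Function.Injective (pairT p) := by
  rw [injective_iff_map_eq_zero]
  intro t ht
  apply Subtype.ext
  apply LinearMap.ext
  intro f
  apply eq_zero_of_aInt
  intro j hj
  obtain ⟨P, hP, -⟩ := exists_Pj p j hj
  rw [aInt_apply_eq p t f P j hP, ht]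
  rfl

theorem pairT_flip_injective : Function.Injective (pairT p).flip := by
  rw [injective_iff_map_eq_zero]
  intro f hf
  apply eq_zero_of_aInt
  intro j hj
  obtain ⟨P, hP, -⟩ := exists_Pj p j hj
  rw [← hP]
  have := congrArg (fun φ : Module.Dual ℤ ↥(heckeLatticeAlgebra p ∅) => φ (piHom p P)) hf
  exact this

theorem finrank_eq : Module.finrank ℤ ↥(heckeLatticeAlgebra p ∅) =
    Module.finrank ℤ ↥(intLattice p 2) := by
  have := intLattice.moduleFinite p
  have := intLattice.moduleFree p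
  apply le_antisymm
  · have := LinearMap.finrank_le_finrank_of_injective (pairT_injective p)
    rwa [Module.finrank_linearMap_self] at this
  · have := LinearMap.finrank_le_finrank_of_injective (pairT_flip_injective p)
    rwa [Module.finrank_linearMap_self] at this

/-- Perfectness: every linear form on `𝕋` is `t ↦ a₁(t f)` for some `f` in the lattice. -/
theorem exists_form_of_dual (φ : Module.Dual ℤ ↥(heckeLatticeAlgebra p ∅)) :
    ∃ f : ↥(intLattice p 2), ∀ t, pairT p t f = φ t := by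
  have := intLattice.moduleFinite p
  have := intLattice.moduleFree p
  obtain ⟨N, hN, f0, hf0⟩ := exists_smul_mem_range (pairT p).flip (pairT_flip_injective p)
    (by rw [Module.finrank_linearMap_self, finrank_eq]) φ
  have hf0' : ∀ t, pairT p t f0 = N * φ t := fun t => by
    have := congrArg (fun ψ : Module.Dual ℤ ↥(heckeLatticeAlgebra p ∅) => ψ t) hf0
    simpa using this
  -- all coefficients of `f0` are divisible by `N`
  have hdiv : ∀ j, ∃ m : ℤ, aInt p f0 j = N * m := by
    intro j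
    rcases Nat.eq_zero_or_pos j with rfl | hj
    · exact ⟨0, by rw [aInt_zero, mul_zero]⟩
    · obtain ⟨P, hP, -⟩ := exists_Pj p j hj
      exact ⟨φ (piHom p P), by rw [← hP, ← hf0']; rfl⟩
  have hNC : (N : ℂ) ≠ 0 := by exact_mod_cast hN
  have hmem : ((N : ℂ)⁻¹ • (f0 : CuspForm (Gamma0 p) 2)) ∈ intLattice p 2 := by
    apply Fermat.Agent.S49.mem_intLattice_of_qCoeff_int
    intro j
    obtain ⟨m, hm⟩ := hdiv j
    refine ⟨m, ?_⟩
    rw [Fermat.Agent.S49.qCoeff_smul, ← aInt_spec, hm]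
    push_cast
    field_simp
  refine ⟨⟨_, hmem⟩, fun t => ?_⟩
  have hNf : N • (⟨_, hmem⟩ : ↥(intLattice p 2)) = f0 := by
    apply Subtype.ext
    rw [Submodule.coe_smul, ← Int.cast_smul_eq_zsmul ℂ, smul_smul, mul_inv_cancel₀ hNC, one_smul]
  have h1 := hf0' t
  rw [← hNf, map_smul, smul_eq_mul] at h1
  exact mul_left_cancel₀ hN h1

/-! ### The quotient `𝕋 / I` -/

/-- Turn a complex congruence into a statement about the lattice. -/
theorem exists_lattice_of_congr (k : ℕ) (f : CuspForm (Gamma0 p) 2)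
    (hf : ∀ j : ℕ, 1 ≤ j → ∃ m : ℤ, qCoeff f j = (sigmaP p j : ℂ) + (k : ℂ) * m) :
    ∃ g : ↥(intLattice p 2), (g : CuspForm (Gamma0 p) 2) = f ∧
      ∀ j : ℕ, 1 ≤ j → (k : ℤ) ∣ aInt p g j - 1 * sigmaP p j := by
  have hmem : f ∈ intLattice p 2 := by
    apply Fermat.Agent.S49.mem_intLattice_of_qCoeff_int
    intro j
    rcases Nat.eq_zero_or_pos j with rfl | hj
    · exact ⟨0, by rw [Fermat.Agent.S49.qCoeff_index_zero]; simp⟩
    · obtain ⟨m, hm⟩ := hf j hj
      exact ⟨sigmaP p j + k * m, by rw [hm]; push_cast; ring⟩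
  refine ⟨⟨f, hmem⟩, rfl, fun j hj => ?_⟩
  obtain ⟨m, hm⟩ := hf j hj
  refine ⟨m, ?_⟩
  have : ((aInt p ⟨f, hmem⟩ j - 1 * sigmaP p j : ℤ) : ℂ) = (((k : ℤ) * m : ℤ) : ℂ) := by
    push_cast
    rw [aInt_spec]
    simp only
    rw [hm]
    ring
  exact_mod_cast this

/-- **Part 0 of the blueprint**, kernel form: Mazur's index formula follows from
(A'') every `Q ∈ ker π` has `n ∣ ev Q`, and
(B) any modulus of a congruence between a cusp form and the Eisenstein series divides `n`. -/
theorem card_quotient_of_ker_B (n : ℕ)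
    (hK : ∀ Q : HeckeAlg, piHom p Q = 0 → (n : ℤ) ∣ evHom p Q)
    (hB : ∀ (k : ℕ) (f : CuspForm (Gamma0 p) 2), (∀ j : ℕ, 1 ≤ j →
      ∃ m : ℤ, qCoeff f j = (sigmaP p j : ℂ) + (k : ℂ) * m) → k ∣ n) :
    Nat.card (↥(heckeLatticeAlgebra p ∅) ⧸
        Ideal.map ((latticeRestrictHom p ∅).toRingHom.comp (heckeEvalForms p 2))
          (eisensteinIdeal p)) =
      n := by
  refine card_quotient_abstract (piHom p) (piHom_surjective p) (evHom p) (eisensteinIdeal p)
    (mem_eisensteinIdeal_iff p) n hK ?_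
  intro m0 h hh
  obtain ⟨f, hf⟩ := exists_form_of_dual p
    { toFun := h
      map_add' := h.map_add
      map_smul' := fun c t => by
        have e := int_smul_eq_zsmul (M := ↥(heckeLatticeAlgebra p ∅)) inferInstance c t
        exact (congrArg h e).trans (map_zsmul h c t) }
  apply hB m0 (f : CuspForm (Gamma0 p) 2)
  intro j hj
  obtain ⟨P, hP, hev⟩ := exists_Pj p j hj
  have h1 : aInt p f j = h (piHom p P) := by
    rw [← hP]
    exact hf (piHom p P)
  obtain ⟨m, hm⟩ := hh P
  refine ⟨m, ?_⟩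
  rw [← aInt_spec]
  have : aInt p f j = sigmaP p j + m0 * m := by rw [h1, ← hev]; linarith
  rw [this]
  push_cast
  ring

/-- (A) implies (A''). -/
theorem ker_dvd_of_A (n : ℕ)
    (hA : ∃ f : CuspForm (Gamma0 p) 2, ∀ j : ℕ, 1 ≤ j →
      ∃ m : ℤ, qCoeff f j = (sigmaP p j : ℂ) + (n : ℂ) * m)
    (Q : HeckeAlg) (hQ : piHom p Q = 0) : (n : ℤ) ∣ evHom p Q := by
  have hp : p.Prime := Fact.out
  obtain ⟨f, hf⟩ := hA
  obtain ⟨g, -, hg⟩ := exists_lattice_of_congr p _ f hf
  have h1 := eis_congr p _ 1 g hg Q 1 le_rfl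
  have h2 : act p Q g = 0 := by
    unfold act
    rw [hQ]
    rfl
  have h3 : aInt p (0 : ↥(intLattice p 2)) 1 = 0 := map_zero (aLin p 1)
  rw [h2, h3, sigmaP_one p hp, mul_one, mul_one, zero_sub, dvd_neg] at h1
  exact h1

/-- **Part 0 of the blueprint**: Mazur's index formula follows from the two statements
(A) (existence of a cusp form congruent to the Eisenstein series mod `n`) and
(B) (any such congruence modulus divides `n`). -/
theorem card_quotient_of_AB (n : ℕ)
    (hA : ∃ f : CuspForm (Gamma0 p) 2, ∀ j : ℕ, 1 ≤ j →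
      ∃ m : ℤ, qCoeff f j = (sigmaP p j : ℂ) + (n : ℂ) * m)
    (hB : ∀ (k : ℕ) (f : CuspForm (Gamma0 p) 2), (∀ j : ℕ, 1 ≤ j →
      ∃ m : ℤ, qCoeff f j = (sigmaP p j : ℂ) + (k : ℂ) * m) → k ∣ n) :
    Nat.card (↥(heckeLatticeAlgebra p ∅) ⧸
        Ideal.map ((latticeRestrictHom p ∅).toRingHom.comp (heckeEvalForms p 2))
          (eisensteinIdeal p)) =
      n :=
  card_quotient_of_ker_B p n (ker_dvd_of_A p n hA) hB

/-- Variant with (A') : every `Q` acting as `0` on the complex space of cusp forms has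
`n ∣ ev Q`.  Needs the integral structure (statement S23) as a hypothesis. -/
theorem card_quotient_of_A'B (n : ℕ) (hint : HasIntegralStructure p 2)
    (hA' : ∀ Q : HeckeAlg, heckeEvalForms p 2 Q = 0 →
      (n : ℤ) ∣ MvPolynomial.aeval (R := ℤ) (eisensteinSystem p) Q)
    (hB : ∀ (k : ℕ) (f : CuspForm (Gamma0 p) 2), (∀ j : ℕ, 1 ≤ j →
      ∃ m : ℤ, qCoeff f j = (sigmaP p j : ℂ) + (k : ℂ) * m) → k ∣ n) :
    Nat.card (↥(heckeLatticeAlgebra p ∅) ⧸
        Ideal.map ((latticeRestrictHom p ∅).toRingHom.comp (heckeEvalForms p 2))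
          (eisensteinIdeal p)) =
      n := by
  refine card_quotient_of_ker_B p n (fun Q hQ => hA' Q ?_) hB
  apply (latticeRestrictHom_bijective p ∅ hint).1
  rw [map_zero]
  exact hQ

end Plumbing

end Fermat.Agent.S16.Duality
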