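import Fermat.Agent.S16.QPrinciple

/-!
# S16/CubeTrick: `g ≡ A (mod ℓ^s)`, `ℓ^s ∣ 504`, `ℓ ≠ p` forces `ℓ^s ∣ 1 + p³`
`F = g³ - A³ E₆ ≡ 0`, `F^w = -p² (U_p g)³ - A³ p⁵ V_p E₆ ≡ -A³ p² (1 + p³)`; blueprint item (B3).
-/

set_option autoImplicit false

namespace Fermat.Agent.S16

open UpperHalfPlane ModularForm Fermat.Agent.S23
open scoped MatrixGroups Manifold ModularForm

namespace CubeTrick

open PowerSeries

/-- `(g³)^w = p² (g^w)³`. -/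
theorem fricke_cube {p : ℕ} (hp : p ≠ 0) (g : ℍ → ℂ) :
    fricke p 6 (g * g * g) = ((p : ℂ) ^ 2) • (fricke p 2 g * fricke p 2 g * fricke p 2 g) := by
  have h1 : fricke p 6 (g * g * g) = (p : ℂ) • (fricke p 4 (g * g) * fricke p 2 g) :=
    fricke_mul hp 4 2 (g * g) g
  have h2 : fricke p 4 (g * g) = (p : ℂ) • (fricke p 2 g * fricke p 2 g) :=
    fricke_mul hp 2 2 g g
  rw [h1, h2]
  funext z
  simp only [Pi.smul_apply, Pi.mul_apply, smul_eq_mul]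
  ring

end CubeTrick

open CubeTrick PowerSeries in
theorem cube_trick {p ℓ : ℕ} (hp : p.Prime) (hℓ : ℓ.Prime) (hℓp : ℓ ≠ p) (s : ℕ)
    (h504 : ℓ ^ s ∣ 504) {g : ℍ → ℂ} (hg : IsMF (G0 p) 2 g) (A : ℤ) (hA : ¬ (ℓ : ℤ) ∣ A)
    (hcong : CongConst ((ℓ : ℤ) ^ s) A (qe g)) : (ℓ : ℤ) ^ s ∣ 1 + (p : ℤ) ^ 3 := by
  have : NeZero p := ⟨hp.ne_zero⟩
  obtain ⟨R, hR⟩ := exists_hasQ_of_congConst hg.nice hcong
  obtain ⟨c, hc⟩ : ((ℓ : ℤ) ^ s) ∣ 504 := by exact_mod_cast h504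
  set m : ℤ := (ℓ : ℤ) ^ s with hm
  set P : PowerSeries ℤ := C A + C m * R with hP
  -- the form `F`
  set F : ℍ → ℂ := g * g * g - ((A ^ 3 : ℤ) : ℂ) • E6f with hFdef
  have hE6 : IsMF (G0 p) 6 E6f := isMF_E6.of_levelOne p
  have hg3 : IsMF (G0 p) 6 (g * g * g) :=
    isMF_mul' (isMF_mul' hg hg (k := 4) (by norm_num)) hg (by norm_num)
  have hF : IsMF (G0 p) 6 F := isMF_sub hg3 (isMF_smul _ hE6)
  have hFQ : HasQ F (P * P * P - C (A ^ 3) * (1 - C 504 * e6q)) :=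
    ((hR.mul hR).mul hR).sub (hasQ_E6.smul_int (A ^ 3))
  -- `F ≡ 0`
  have hFdvd : DvdQ m (qe F) := by
    rw [hFQ.dvdQ_iff]
    refine ⟨C (3 * A ^ 2) * R + C (3 * A * m) * R ^ 2 + C (m ^ 2) * R ^ 3 + C (A ^ 3 * c) * e6q, ?_⟩
    have h504' : (C (504 : ℤ) : PowerSeries ℤ) = C m * C c := by rw [← map_mul, ← hc]
    rw [h504', hP]
    simp only [map_mul, map_pow, map_ofNat]
    ring
  -- `F^w`
  have hU : HasQ (heckeU 2 p g) (Uf p P) := hR.heckeU (dvd_refl p) hg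
  have hw : fricke p 6 F = ((p ^ 2 : ℤ) : ℂ) • ((-heckeU 2 p g) * (-heckeU 2 p g) * (-heckeU 2 p g))
      - ((A ^ 3 : ℤ) : ℂ) • (((p ^ 5 : ℤ) : ℂ) • Vp p E6f) := by
    rw [hFdef, fricke_sub, fricke_smul, fricke_cube hp.ne_zero, fricke_two hp hg,
      fricke_levelOne hp.ne_zero isMF_E6]
    norm_num
  have hwQ : HasQ (fricke p 6 F) (C ((p : ℤ) ^ 2) * ((-Uf p P) * (-Uf p P) * (-Uf p P))
      - C (A ^ 3) * (C ((p : ℤ) ^ 5) * Vf p (1 - C 504 * e6q))) := by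
    rw [hw]
    exact (((hU.neg.mul hU.neg).mul hU.neg).smul_int _).sub
      (((hasQ_E6.Vp hp.ne_zero).smul_int _).smul_int _)
  have hwdvd : DvdQ m (qe (fricke p 6 F)) :=
    qexp_principle_pow hp hℓ hℓp (by norm_num) s hF hwQ.isInt hFdvd
  obtain ⟨S, hS⟩ := (hwQ.dvdQ_iff m).1 hwdvd
  have h0 := congrArg (fun T : PowerSeries ℤ => T.coeff 0) hS
  simp only [map_sub, coeff_zero_eq_constantCoeff, map_mul, map_neg, constantCoeff_C] at h0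
  simp only [← coeff_zero_eq_constantCoeff, coeff_Uf, coeff_Vf, zero_mul, dvd_zero, if_true,
    Nat.zero_div] at h0
  simp only [hP, e6q, map_add, map_sub, coeff_zero_eq_constantCoeff, map_mul, constantCoeff_C,
    map_one] at h0
  simp only [← coeff_zero_eq_constantCoeff, coeff_mk, if_true, mul_zero, sub_zero, mul_one] at h0
  set r : ℤ := R.coeff 0
  set t : ℤ := S.coeff 0
  have hdvd : m ∣ ((p : ℤ) ^ 2 * A ^ 3) * (1 + (p : ℤ) ^ 3) :=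
    ⟨-t - (p : ℤ) ^ 2 * (3 * A ^ 2 * r + 3 * A * m * r ^ 2 + m ^ 2 * r ^ 3), by
      linear_combination -h0⟩
  have hℓ' : Prime (ℓ : ℤ) := Nat.prime_iff_prime_int.1 hℓ
  have hℓp' : ¬ (ℓ : ℤ) ∣ (p : ℤ) := by
    intro h
    exact hℓp ((Nat.prime_dvd_prime_iff_eq hℓ hp).1 (by exact_mod_cast h))
  have hcop : IsCoprime m ((p : ℤ) ^ 2 * A ^ 3) := by
    rw [hm]
    refine IsCoprime.pow_left ?_
    rw [Prime.coprime_iff_not_dvd hℓ']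
    intro h
    rcases hℓ'.dvd_or_dvd h with h | h
    · exact hℓp' (hℓ'.dvd_of_dvd_pow h)
    · exact hA (hℓ'.dvd_of_dvd_pow h)
  exact hcop.dvd_of_dvd_mul_left hdvd

end Fermat.Agent.S16
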