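import Mathlib

/-!
# S16 module (S2), analytic part: `q_h`-expansions of `h`-periodic functions

* `NiceH h F`: `F` is `h`-periodic, holomorphic and bounded at `i∞`;
* `qExpansion h` is multiplicative on finite products of such functions;
* `coeff_qExpansion_of_one`: the `q_p`-expansion of a `1`-periodic function;
* `coeff_qExpansion_twist`: the `q_p`-expansion of `τ ↦ κ * G ((τ + j) / p)`.
-/

set_option autoImplicit false

namespace Fermat.Agent.S16

open UpperHalfPlane ModularForm Filter Topology Function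
open scoped MatrixGroups Manifold

/-- `h`-periodic, holomorphic, bounded at `i∞`. -/
structure NiceH (h : ℝ) (F : ℍ → ℂ) : Prop where
  per : Function.Periodic (F ∘ ofComplex) h
  hol : MDiff F
  bdd : IsBoundedAtImInfty F

namespace NiceH

variable {h : ℝ} {F G : ℍ → ℂ}

theorem analytic (hh : 0 < h) (hF : NiceH h F) : AnalyticAt ℂ (cuspFunction h F) 0 :=
  analyticAt_cuspFunction_zero hh hF.per hF.hol hF.bdd

theorem one : NiceH h (1 : ℍ → ℂ) where
  per := fun _ => rfl
  hol := fun _ => mdifferentiableAt_const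
  bdd := const_boundedAtFilter _ _

theorem mul (hF : NiceH h F) (hG : NiceH h G) : NiceH h (F * G) where
  per := fun z => by
    have h1 := hF.per z
    have h2 := hG.per z
    simp only [Function.comp_apply, Pi.mul_apply] at h1 h2 ⊢
    rw [h1, h2]
  hol := hF.hol.mul hG.hol
  bdd := hF.bdd.mul hG.bdd

theorem smul (c : ℂ) (hF : NiceH h F) : NiceH h (c • F) where
  per := fun z => by
    have h1 := hF.per z
    simp only [Function.comp_apply, Pi.smul_apply] at h1 ⊢
    rw [h1]
  hol := hF.hol.const_smul c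
  bdd := hF.bdd.const_smul_left c

theorem prod {ι : Type*} (s : Finset ι) {F : ι → ℍ → ℂ} (hF : ∀ i ∈ s, NiceH h (F i)) :
    NiceH h (∏ i ∈ s, F i) := by
  classical
  induction s using Finset.induction_on with
  | empty => simpa using one
  | insert a s ha ih =>
    rw [Finset.prod_insert ha]
    exact (hF a (Finset.mem_insert_self a s)).mul
      (ih fun i hi => hF i (Finset.mem_insert_of_mem hi))

theorem qExpansion_mul (hh : 0 < h) (hF : NiceH h F) (hG : NiceH h G) :
    qExpansion h (F * G) = qExpansion h F * qExpansion h G :=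
  UpperHalfPlane.qExpansion_mul (hF.analytic hh) (hG.analytic hh)

theorem qExpansion_smul (hh : 0 < h) (c : ℂ) (hF : NiceH h F) :
    qExpansion h (c • F) = c • qExpansion h F :=
  UpperHalfPlane.qExpansion_smul (hF.analytic hh) c

theorem qExpansion_prod (hh : 0 < h) {ι : Type*} (s : Finset ι) {F : ι → ℍ → ℂ}
    (hF : ∀ i ∈ s, NiceH h (F i)) :
    qExpansion h (∏ i ∈ s, F i) = ∏ i ∈ s, qExpansion h (F i) := by
  classical
  induction s using Finset.induction_on with
  | empty => simpa using qExpansion_one h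
  | insert a s ha ih =>
    rw [Finset.prod_insert ha, Finset.prod_insert ha,
      (hF a (Finset.mem_insert_self a s)).qExpansion_mul hh
        (prod s fun i hi => hF i (Finset.mem_insert_of_mem hi)),
      ih fun i hi => hF i (Finset.mem_insert_of_mem hi)]

theorem hasSum (hh : 0 < h) (hF : NiceH h F) (τ : ℍ) :
    HasSum (fun m : ℕ => (qExpansion h F).coeff m • Periodic.qParam h τ ^ m) (F τ) :=
  hasSum_qExpansion hh hF.per hF.hol hF.bdd τ

/-- a `1`-periodic function is `p`-periodic -/
theorem of_one (hF : NiceH 1 F) (p : ℕ) : NiceH (p : ℝ) F where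
  per := by simpa using hF.per.nat_mul p
  hol := hF.hol
  bdd := hF.bdd

end NiceH

theorem qParam_one_eq_pow (p : ℕ) (hp : 0 < p) (z : ℂ) :
    Periodic.qParam 1 z = Periodic.qParam (p : ℝ) z ^ p := by
  have hp' : (p : ℂ) ≠ 0 := by exact_mod_cast hp.ne'
  rw [Periodic.qParam, Periodic.qParam, ← Complex.exp_nat_mul]
  congr 1
  push_cast
  field_simp


/-- uniqueness of `q`-expansions, for plain functions -/
theorem coeff_unique {h : ℝ} {F : ℍ → ℂ} {c : ℕ → ℂ} (hh : 0 < h) (hF : NiceH h F)
    (hf : ∀ τ : ℍ, HasSum (fun m => c m • Periodic.qParam h τ ^ m) (F τ)) (m : ℕ) :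
    (qExpansion h F).coeff m = c m := by
  let _ : FunLike (ℍ → ℂ) ℍ ℂ := { coe := id, coe_injective := fun _ _ h => h }
  exact (qExpansion_coeff_unique (F := ℍ → ℂ) F hh (hF.analytic hh) hf m).symm

/-- the `q_p`-expansion of a `1`-periodic function -/
theorem coeff_qExpansion_of_one {F : ℍ → ℂ} (hF : NiceH 1 F) (p : ℕ) (hp : 0 < p) (m : ℕ) :
    (qExpansion (p : ℝ) F).coeff m = if p ∣ m then (qExpansion 1 F).coeff (m / p) else 0 := by
  have hp' : (0 : ℝ) < p := by exact_mod_cast hp
  have key : ∀ τ : ℍ, HasSum (fun m : ℕ => (if p ∣ m then (qExpansion 1 F).coeff (m / p) else 0) •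
      Periodic.qParam (p : ℝ) τ ^ m) (F τ) := by
    intro τ
    have h1 := hF.hasSum one_pos τ
    have hinj : Function.Injective (fun n : ℕ => p * n) := fun a b hab =>
      Nat.eq_of_mul_eq_mul_left hp hab
    refine (hinj.hasSum_iff ?_).mp ?_
    · intro x hx
      have : ¬ p ∣ x := fun ⟨c, hc⟩ => hx ⟨c, hc.symm⟩
      simp [this]
    · have e : ((fun m : ℕ => (if p ∣ m then (qExpansion 1 F).coeff (m / p) else 0) •
          Periodic.qParam (p : ℝ) τ ^ m) ∘ fun n : ℕ => p * n) =
          fun m : ℕ => (qExpansion 1 F).coeff m • Periodic.qParam 1 τ ^ m := by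
        ext n
        simp only [Function.comp_apply, dvd_mul_right, if_true, Nat.mul_div_cancel_left n hp]
        rw [qParam_one_eq_pow p hp, pow_mul]
      rw [e]
      exact h1
  exact coeff_unique hp' (hF.of_one p) key m

/-- the `q_p`-expansion of `τ ↦ κ * G ((τ + j) / p)` -/
theorem coeff_qExpansion_twist {F G : ℍ → ℂ} (p : ℕ) (hp : 0 < p) (hF : NiceH (p : ℝ) F)
    (hG : NiceH 1 G) (κ : ℂ) (j : ℤ)
    (h : ∀ τ σ : ℍ, (p : ℂ) * (σ : ℂ) = τ + j → F τ = κ * G σ) (m : ℕ) :
    (qExpansion (p : ℝ) F).coeff m =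
      κ * (Complex.exp (2 * Real.pi * Complex.I * j / p) ^ m * (qExpansion 1 G).coeff m) := by
  have hp' : (0 : ℝ) < p := by exact_mod_cast hp
  have hpc : (p : ℂ) ≠ 0 := by exact_mod_cast hp.ne'
  refine coeff_unique (c := fun m => κ * (Complex.exp (2 * Real.pi * Complex.I * j / p)
    ^ m * (qExpansion 1 G).coeff m)) hp' hF (fun τ => ?_) m
  have him : 0 < (((τ : ℂ) + j) / p).im := by
    have : (((τ : ℂ) + j) / p).im = τ.im / p := by
      rw [Complex.div_natCast_im]
      simp
    rw [this]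
    exact div_pos τ.im_pos hp'
  obtain ⟨σ, hσ⟩ : ∃ σ : ℍ, (σ : ℂ) = ((τ : ℂ) + j) / p := ⟨⟨_, him⟩, rfl⟩
  have hσ' : (p : ℂ) * (σ : ℂ) = τ + j := by
    rw [hσ]
    field_simp
  rw [h τ σ hσ']
  have h1 := (hG.hasSum one_pos σ).mul_left κ
  have hq : Periodic.qParam 1 (σ : ℂ) =
      Complex.exp (2 * Real.pi * Complex.I * j / p) * Periodic.qParam (p : ℝ) τ := by
    rw [Periodic.qParam, Periodic.qParam, hσ, ← Complex.exp_add]
    congr 1
    push_cast
    field_simp
    ring
  have e : (fun m : ℕ => (κ * (Complex.exp (2 * Real.pi * Complex.I * j / p)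
      ^ m * (qExpansion 1 G).coeff m)) • Periodic.qParam (p : ℝ) τ ^ m) =
      fun m : ℕ => κ * ((qExpansion 1 G).coeff m • Periodic.qParam 1 σ ^ m) := by
    ext n
    rw [hq, mul_pow]
    simp only [smul_eq_mul]
    ring
  rw [e]
  exact h1

end Fermat.Agent.S16
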