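import Mathlib

/-!
# S16 module (S2), algebra part: orders of complex power series modulo a prime of `ℤ̄`

A `PrimePair` is a subring `O` of `ℂ` together with (the image in `ℂ` of) a prime ideal `J`.
`LowOrd PP P a` says that `P` has coefficients in `O` and that its first coefficient outside `J`
is the `a`-th one.  These orders add under multiplication.
-/

set_option autoImplicit false

namespace Fermat.Agent.S16

/-- a subring `O` of `ℂ` with (the image of) a prime ideal `J` -/
structure PrimePair where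
  /-- the ring -/
  O : Subring ℂ
  /-- the prime ideal -/
  J : AddSubgroup ℂ
  J_le : ∀ x ∈ J, x ∈ O
  mul_mem : ∀ x ∈ O, ∀ y ∈ J, x * y ∈ J
  prime : ∀ x ∈ O, ∀ y ∈ O, x * y ∈ J → x ∈ J ∨ y ∈ J
  one_notMem : (1 : ℂ) ∉ J

/-- `P` has coefficients in `O` and its first coefficient outside `J` has index `a` -/
structure LowOrd (PP : PrimePair) (P : PowerSeries ℂ) (a : ℕ) : Prop where
  mem : ∀ n, P.coeff n ∈ PP.O
  low : ∀ n < a, P.coeff n ∈ PP.J
  top : P.coeff a ∉ PP.J

namespace PrimePair

variable (PP : PrimePair)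

theorem mul_mem' {x y : ℂ} (hx : x ∈ PP.J) (hy : y ∈ PP.O) : x * y ∈ PP.J := by
  rw [mul_comm]; exact PP.mul_mem y hy x hx

/-- multiplication by a unit of `O` does not change membership in `J` -/
theorem unit_mul_mem_iff {u v x : ℂ} (hu : u ∈ PP.O) (hv : v ∈ PP.O) (huv : v * u = 1) :
    u * x ∈ PP.J ↔ x ∈ PP.J := by
  constructor
  · intro h
    have := PP.mul_mem v hv _ h
    rwa [← mul_assoc, huv, one_mul] at this
  · intro h
    exact PP.mul_mem u hu x h

end PrimePair

namespace LowOrd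

variable {PP : PrimePair}

theorem one : LowOrd PP 1 0 where
  mem n := by
    rw [PowerSeries.coeff_one]
    split_ifs
    · exact PP.O.one_mem
    · exact PP.O.zero_mem
  low n hn := absurd hn (Nat.not_lt_zero n)
  top := by
    rw [PowerSeries.coeff_one, if_pos rfl]
    exact PP.one_notMem

theorem mul {P Q : PowerSeries ℂ} {a b : ℕ} (hP : LowOrd PP P a) (hQ : LowOrd PP Q b) :
    LowOrd PP (P * Q) (a + b) where
  mem n := by
    rw [PowerSeries.coeff_mul]
    exact PP.O.sum_mem fun x _ => PP.O.mul_mem (hP.mem _) (hQ.mem _)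
  low n hn := by
    rw [PowerSeries.coeff_mul]
    refine PP.J.sum_mem fun x hx => ?_
    have hx' : x.1 + x.2 = n := Finset.HasAntidiagonal.mem_antidiagonal.mp hx
    by_cases h1 : x.1 < a
    · exact PP.mul_mem' (hP.low _ h1) (hQ.mem _)
    · exact PP.mul_mem _ (hP.mem _) _ (hQ.low _ (by omega))
  top := by
    classical
    intro h
    rw [PowerSeries.coeff_mul] at h
    have hab : (a, b) ∈ Finset.HasAntidiagonal.antidiagonal (a + b) :=
      Finset.HasAntidiagonal.mem_antidiagonal.mpr rfl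
    rw [← Finset.add_sum_erase _ _ hab] at h
    have hrest : ∑ x ∈ (Finset.HasAntidiagonal.antidiagonal (a + b)).erase (a, b),
        P.coeff x.1 * Q.coeff x.2 ∈ PP.J := by
      refine PP.J.sum_mem fun x hx => ?_
      obtain ⟨hne, hx⟩ := Finset.mem_erase.mp hx
      have hx' : x.1 + x.2 = a + b := Finset.HasAntidiagonal.mem_antidiagonal.mp hx
      by_cases h1 : x.1 < a
      · exact PP.mul_mem' (hP.low _ h1) (hQ.mem _)
      · have h2 : x.2 < b := by
          by_contra h2
          apply hne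
          ext <;> simp <;> omega
        exact PP.mul_mem _ (hP.mem _) _ (hQ.low _ h2)
    have hmain : P.coeff a * Q.coeff b ∈ PP.J := by
      have := PP.J.sub_mem h hrest
      simpa using this
    rcases PP.prime _ (hP.mem a) _ (hQ.mem b) hmain with h1 | h1
    · exact hP.top h1
    · exact hQ.top h1

theorem prod {ι : Type*} (s : Finset ι) (P : ι → PowerSeries ℂ) (a : ι → ℕ)
    (h : ∀ i ∈ s, LowOrd PP (P i) (a i)) : LowOrd PP (∏ i ∈ s, P i) (∑ i ∈ s, a i) := by
  classical
  induction s using Finset.induction_on with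
  | empty => simpa using one
  | insert i s hi ih =>
    rw [Finset.prod_insert hi, Finset.sum_insert hi]
    exact (h i (Finset.mem_insert_self i s)).mul (ih fun j hj => h j (Finset.mem_insert_of_mem hj))

end LowOrd

/-- For every prime `l` there is a prime of the ring of all algebraic integers above `l`. -/
theorem exists_primePair (l : ℕ) [Fact l.Prime] :
    ∃ PP : PrimePair, (∀ x : ℂ, IsIntegral ℤ x → x ∈ PP.O) ∧
      ∀ z : ℤ, (z : ℂ) ∈ PP.J ↔ (l : ℤ) ∣ z := by
  let A : Subalgebra ℤ ℂ := integralClosure ℤ ℂ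
  have hl : Prime (l : ℤ) := Nat.prime_iff_prime_int.mp (Fact.out : l.Prime)
  have : (Ideal.span {(l : ℤ)}).IsPrime := (Ideal.span_singleton_prime hl.ne_zero).mpr hl
  have hinj : Function.Injective (algebraMap ℤ A) := by
    intro x y hxy
    have := congrArg (fun a : A => (a : ℂ)) hxy
    simpa using this
  obtain ⟨Q, -, hQ, hQc⟩ := Ideal.exists_ideal_over_prime_of_isIntegral
    (Ideal.span {(l : ℤ)}) (⊥ : Ideal A) (by
      rw [← RingHom.ker_eq_comap_bot, (RingHom.injective_iff_ker_eq_bot _).mp hinj]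
      exact bot_le)
  refine ⟨⟨A.toSubring, Q.toAddSubgroup.map A.val.toRingHom.toAddMonoidHom, ?_, ?_, ?_, ?_⟩, ?_, ?_⟩
  · rintro x ⟨y, -, rfl⟩
    exact y.2
  · rintro x hx _ ⟨y, hy, rfl⟩
    exact ⟨⟨x, hx⟩ * y, Q.mul_mem_left _ hy, rfl⟩
  · rintro x hx y hy ⟨z, hz, hzxy⟩
    have hz' : (⟨x, hx⟩ * ⟨y, hy⟩ : A) ∈ Q := by
      have : z = (⟨x, hx⟩ * ⟨y, hy⟩ : A) := Subtype.ext hzxy
      rw [← this]; exact hz
    rcases hQ.mem_or_mem hz' with h | h
    · exact Or.inl ⟨_, h, rfl⟩
    · exact Or.inr ⟨_, h, rfl⟩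
  · rintro ⟨z, hz, hz1⟩
    have : z = 1 := Subtype.ext hz1
    rw [this] at hz
    exact hQ.ne_top ((Ideal.eq_top_iff_one Q).mpr hz)
  · intro x hx
    exact hx
  · intro z
    have h1 : (algebraMap ℤ A z ∈ Q) ↔ (l : ℤ) ∣ z := by
      rw [← Ideal.mem_comap, hQc, Ideal.mem_span_singleton]
    rw [← h1]
    constructor
    · rintro ⟨y, hy, hyz⟩
      have : y = algebraMap ℤ A z := Subtype.ext (by simpa using hyz)
      rw [← this]; exact hy
    · intro h
      exact ⟨_, h, by simp⟩

end Fermat.Agent.S16
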