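import Fermat.Agent.S16.SturmOne
import Fermat.Agent.S16.PrimePair
import Fermat.Agent.S16.NiceH
import Fermat.Agent.S21.Basic
import Fermat.Agent.S23.Nice
import Fermat.Agent.Gamma0Comb.All

/-!
# S16 module (S2): the two-cusp Sturm bound for `Γ₀(p)`

Let `D` be a modular form of weight `w` on `Γ₀(p)` with integral `q`-expansion such that
`(D ∣ S)(pτ) = κ D₀(τ)` with `D₀` of integral `q`-expansion.  If neither `D` nor `D₀` vanishes
modulo the prime `l`, then `ord_l D + ord_l D₀ ≤ w (p + 1) / 12`.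
-/

set_option autoImplicit false

namespace Fermat.Agent.S16

open UpperHalfPlane ModularForm CongruenceSubgroup Filter Topology
open scoped MatrixGroups ModularForm Manifold
open Fermat.Agent.S21

namespace SturmTwo

theorem card_X (p : ℕ) [hp : Fact p.Prime] : Fintype.card (X (Gamma0 p)) = p + 1 := by
  have h1 := Fermat.Agent.Gamma0Comb.index_Gamma0 p
  rw [Subgroup.index, Nat.card_eq_fintype_card] at h1
  rw [h1, ModularCurve.dedekindPsi, hp.out.divisors, Finset.filter_insert,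
    Finset.filter_singleton, if_pos squarefree_one, if_pos hp.out.prime.squarefree,
    Finset.sum_pair hp.out.one_lt.ne, Nat.div_one, Nat.div_self hp.out.pos]

theorem exists_decomp (p : ℕ) [Fact p.Prime] (g : SL(2, ℤ)) (hg : g ∉ Gamma0 p) :
    ∃ γ ∈ Gamma0 p, ∃ j : ℤ, g = γ * ModularGroup.S * ModularGroup.T ^ j := by
  have hc : ((g 1 0 : ℤ) : ZMod p) ≠ 0 := fun h => hg (Gamma0_mem.mpr h)
  obtain ⟨j, hj⟩ := ZMod.intCast_surjective (((g 1 1 : ℤ) : ZMod p) * ((g 1 0 : ℤ) : ZMod p)⁻¹)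
  refine ⟨g * (ModularGroup.T ^ j)⁻¹ * ModularGroup.S⁻¹, ?_, j, by group⟩
  rw [Gamma0_mem, ← zpow_neg]
  have hT := ModularGroup.coe_T_zpow (-j)
  have e : (g * ModularGroup.T ^ (-j) * ModularGroup.S⁻¹) 1 0 = -(g 1 0 * (-j) + g 1 1) := by
    rw [Matrix.SpecialLinearGroup.coe_mul, Matrix.SpecialLinearGroup.coe_mul, hT,
      Matrix.SpecialLinearGroup.coe_inv]
    simp [ModularGroup.S, Matrix.adjugate_fin_two, Matrix.mul_apply, Fin.sum_univ_two]
  rw [e]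
  push_cast
  rw [hj]
  field_simp
  ring

theorem denom_eq_one_of (g : SL(2, ℤ)) (h10 : g 1 0 = 0) (h11 : g 1 1 = 1) (τ : ℍ) :
    denom g τ = 1 := by
  simp [denom, h10, h11]

theorem denom_T_zpow (n : ℤ) (τ : ℍ) : denom (ModularGroup.T ^ n : SL(2, ℤ)) τ = 1 := by
  have h := ModularGroup.coe_T_zpow n
  have h10 : (ModularGroup.T ^ n) 1 0 = 0 := by
    have := congrFun (congrFun h 1) 0
    simpa using this
  have h11 : (ModularGroup.T ^ n) 1 1 = 1 := by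
    have := congrFun (congrFun h 1) 1
    simpa using this
  exact denom_eq_one_of _ h10 h11 τ

/-- the translates of `D` at the cosets other than the trivial one -/
theorem vec_eq_of_ne (p : ℕ) [Fact p.Prime] {w : ℤ} {D : ℍ → ℂ} (hD : D ∈ MF (Gamma0 p) w)
    (x : X (Gamma0 p)) (hx : x ≠ QuotientGroup.mk 1) :
    ∃ j : ℤ, ∀ τ : ℍ, vec (Gamma0 p) w D x τ =
      (D ∣[w] ModularGroup.S) ((ModularGroup.T ^ j : SL(2, ℤ)) • τ) := by
  induction x using QuotientGroup.induction_on with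
  | H h =>
  have hinv : ∀ γ ∈ Gamma0 p, D ∣[w] γ = D := hD.2.1
  have hh : h⁻¹ ∉ Gamma0 p := by
    intro hmem
    apply hx
    rw [QuotientGroup.eq]
    simpa using hmem
  obtain ⟨γ, hγ, j, hj⟩ := exists_decomp p h⁻¹ hh
  refine ⟨j, fun τ => ?_⟩
  rw [vec_mk hinv, hj, SlashAction.slash_mul, SlashAction.slash_mul, hinv γ hγ, SL_slash_apply,
    denom_T_zpow, one_zpow, mul_one]

theorem niceH_vec (p : ℕ) [Fact p.Prime] {w : ℤ} {D : ℍ → ℂ} (hD : D ∈ MF (Gamma0 p) w)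
    (x : X (Gamma0 p)) : NiceH (p : ℝ) (vec (Gamma0 p) w D x) where
  per := slash_periodic p hD.2.1 _
  hol := vec_mdiff hD.1 w x
  bdd := vec_isBoundedAtImInfty hD x

/-- the norm of a form on `Γ₀(p)` is a level one form -/
theorem prod_vec_mem (p : ℕ) [Fact p.Prime] {w : ℤ} {D : ℍ → ℂ} (hD : D ∈ MF (Gamma0 p) w) :
    (∏ x : X (Gamma0 p), vec (Gamma0 p) w D x) ∈ MF ⊤ (w * (p + 1)) := by
  have hnice : NiceH (p : ℝ) (∏ x : X (Gamma0 p), vec (Gamma0 p) w D x) :=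
    NiceH.prod _ fun x _ => niceH_vec p hD x
  have hinv : ∀ g : SL(2, ℤ), (∏ x : X (Gamma0 p), vec (Gamma0 p) w D x) ∣[w * (p + 1)] g =
      ∏ x : X (Gamma0 p), vec (Gamma0 p) w D x := by
    intro g
    ext τ
    have hd : denom g τ ≠ 0 := denom_ne_zero g τ
    rw [SL_slash_apply, Finset.prod_apply, Finset.prod_apply]
    simp only [vec_smul_apply hD.2.1]
    have hperm : ∏ x : X (Gamma0 p), vec (Gamma0 p) w D (g⁻¹ • x) τ =
        ∏ y : X (Gamma0 p), vec (Gamma0 p) w D y τ :=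
      Equiv.prod_comp (MulAction.toPerm g⁻¹ : Equiv.Perm (X (Gamma0 p)))
        (fun y => vec (Gamma0 p) w D y τ)
    rw [Finset.prod_mul_distrib, Finset.prod_const, Finset.card_univ, card_X, hperm,
      ← zpow_natCast, ← zpow_mul]
    have : denom g τ ^ (w * ((p + 1 : ℕ) : ℤ)) * denom g τ ^ (-(w * ((p : ℤ) + 1))) = 1 := by
      rw [← zpow_add₀ hd]
      push_cast
      simp
    linear_combination (∏ y : X (Gamma0 p), vec (Gamma0 p) w D y τ) * this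
  refine ⟨hnice.hol, fun γ _ => hinv γ, fun δ => ?_⟩
  rw [hinv δ]
  exact hnice.bdd

theorem niceH_one_of_mem_top {K : ℤ} {F : ℍ → ℂ} (hF : F ∈ MF ⊤ K) : NiceH 1 F := by
  obtain ⟨f, rfl⟩ := mem_MF_top_iff_exists.mp hF
  have h := Fermat.Agent.S23.IsMF.nice_one (F := ⇑f) ⟨f, rfl⟩
  exact ⟨h.per, h.hol, h.bdd⟩

theorem niceH_one_of_mem (p : ℕ) [Fact p.Prime] {w : ℤ} {D : ℍ → ℂ}
    (hD : D ∈ MF (Gamma0 p) w) : NiceH 1 D := by
  obtain ⟨f, rfl⟩ := mem_MF_iff_exists.mp hD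
  have h := Fermat.Agent.S23.IsMF.nice (N := p) (F := ⇑f) ⟨f, rfl⟩
  exact ⟨h.per, h.hol, h.bdd⟩

theorem isIntegral_exp (p : ℕ) (hp : 0 < p) (j : ℤ) :
    IsIntegral ℤ (Complex.exp (2 * Real.pi * Complex.I * j / p)) := by
  have hpc : (p : ℂ) ≠ 0 := by exact_mod_cast hp.ne'
  apply IsIntegral.of_pow hp
  rw [← Complex.exp_nat_mul]
  have : (p : ℂ) * (2 * Real.pi * Complex.I * j / p) = j * (2 * Real.pi * Complex.I) := by
    field_simp
  rw [this, Complex.exp_int_mul_two_pi_mul_I]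
  exact isIntegral_one

end SturmTwo

open SturmTwo in
/-- **(S2) The two-cusp Sturm bound for `Γ₀(p)`.** -/
theorem two_cusp_sturm_core (p l : ℕ) [Fact p.Prime] [Fact l.Prime] (w : ℤ) (D D₀ : ℍ → ℂ)
    (hD : D ∈ MF (Gamma0 p) w) (hD₀ : Fermat.Agent.S23.Nice D₀) (κ : ℂ)
    (hS : ∀ τ σ : ℍ, (σ : ℂ) = p * τ → (D ∣[w] ModularGroup.S) σ = κ * D₀ τ)
    (zD zD₀ : ℕ → ℤ) (hzD : ∀ n, (qExpansion 1 D).coeff n = zD n)
    (hzD₀ : ∀ n, (qExpansion 1 D₀).coeff n = zD₀ n) (a b : ℕ)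
    (ha : ∀ n < a, (l : ℤ) ∣ zD n) (hb : ∀ n < b, (l : ℤ) ∣ zD₀ n)
    (hne : ∃ n, ¬ (l : ℤ) ∣ zD n) (hne₀ : ∃ n, ¬ (l : ℤ) ∣ zD₀ n) :
    12 * ((a : ℤ) + b) ≤ w * (p + 1) := by
  classical
  have hp : 0 < p := (Fact.out : p.Prime).pos
  have hp' : (0 : ℝ) < p := by exact_mod_cast hp
  have hpc : (p : ℂ) ≠ 0 := by exact_mod_cast hp.ne'
  -- `κ ≠ 0`
  have hκ : κ ≠ 0 := by
    rintro rfl
    have hS0 : D ∣[w] ModularGroup.S = 0 := by
      ext σ
      have him : 0 < ((σ : ℂ) / p).im := by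
        rw [Complex.div_natCast_im]
        exact div_pos σ.im_pos hp'
      have hτ : (σ : ℂ) = p * ((⟨(σ : ℂ) / p, him⟩ : ℍ) : ℂ) := by
        change (σ : ℂ) = p * ((σ : ℂ) / p)
        field_simp
      rw [hS _ σ hτ]
      simp
    have hD0 : D = 0 := by
      have h1 := congrArg (fun f => f ∣[w] ModularGroup.S⁻¹) hS0
      simpa [← SlashAction.slash_mul] using h1
    obtain ⟨n, hn⟩ := hne
    apply hn
    have h2 := hzD n
    rw [hD0, qExpansion_zero] at h2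
    have h3 : zD n = 0 := by
      have : ((zD n : ℤ) : ℂ) = 0 := by simpa using h2.symm
      exact_mod_cast this
    rw [h3]
    exact dvd_zero _
  obtain ⟨PP, hPPO, hPPJ⟩ := exists_primePair l
  have hint : ∀ z : ℤ, (z : ℂ) ∈ PP.O := fun z =>
    hPPO _ (by simpa using (isIntegral_algebraMap (R := ℤ) (A := ℂ) (x := z)))
  -- exact orders
  obtain ⟨a₀, ha₀spec, ha₀min⟩ : ∃ a₀, ¬ (l : ℤ) ∣ zD a₀ ∧ ∀ n < a₀, (l : ℤ) ∣ zD n :=
    ⟨Nat.find hne, Nat.find_spec hne, fun n hn => not_not.mp (Nat.find_min hne hn)⟩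
  obtain ⟨b₀, hb₀spec, hb₀min⟩ : ∃ b₀, ¬ (l : ℤ) ∣ zD₀ b₀ ∧ ∀ n < b₀, (l : ℤ) ∣ zD₀ n :=
    ⟨Nat.find hne₀, Nat.find_spec hne₀, fun n hn => not_not.mp (Nat.find_min hne₀ hn)⟩
  have haa : a ≤ a₀ := by
    by_contra h
    exact ha₀spec (ha _ (not_le.mp h))
  have hbb : b ≤ b₀ := by
    by_contra h
    exact hb₀spec (hb _ (not_le.mp h))
  -- the factors
  obtain ⟨x₀, hx₀⟩ : ∃ x₀ : X (Gamma0 p), x₀ = QuotientGroup.mk 1 := ⟨_, rfl⟩
  obtain ⟨G, hGdef⟩ : ∃ G : X (Gamma0 p) → ℍ → ℂ, G = fun x => κ⁻¹ • vec (Gamma0 p) w D x :=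
    ⟨_, rfl⟩
  have hG : ∀ x, NiceH (p : ℝ) (G x) := fun x => by
    rw [hGdef]; exact (niceH_vec p hD x).smul _
  have hD1 : NiceH 1 D := niceH_one_of_mem p hD
  have hD₀1 : NiceH 1 D₀ := ⟨hD₀.per, hD₀.hol, hD₀.bdd⟩
  have hLD : LowOrd PP (qExpansion (p : ℝ) D) (p * a₀) := by
    refine ⟨fun n => ?_, fun n hn => ?_, ?_⟩
    · rw [coeff_qExpansion_of_one hD1 p hp]
      split_ifs
      · rw [hzD]; exact hint _
      · exact PP.O.zero_mem
    · rw [coeff_qExpansion_of_one hD1 p hp]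
      split_ifs
      · rw [hzD, hPPJ]
        exact ha₀min _ (Nat.div_lt_of_lt_mul hn)
      · exact PP.J.zero_mem
    · rw [coeff_qExpansion_of_one hD1 p hp, if_pos (dvd_mul_right _ _),
        Nat.mul_div_cancel_left _ hp, hzD, hPPJ]
      exact ha₀spec
  have hLG : ∀ x ∈ Finset.univ.erase x₀, LowOrd PP (qExpansion (p : ℝ) (G x)) b₀ := by
    intro x hx
    have hxne : x ≠ QuotientGroup.mk 1 := hx₀ ▸ (Finset.mem_erase.mp hx).1
    obtain ⟨j, hj⟩ := vec_eq_of_ne p hD x hxne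
    have hco := coeff_qExpansion_twist p hp (hG x) hD₀1 1 j (fun τ σ hσ => by
      rw [hGdef]
      simp only [Pi.smul_apply, smul_eq_mul]
      rw [hj τ, hS σ _ (by rw [ModularGroup.coe_T_zpow_smul_eq, hσ])]
      field_simp)
    obtain ⟨ζ, hζ⟩ : ∃ ζ : ℂ, ζ = Complex.exp (2 * Real.pi * Complex.I * j / p) := ⟨_, rfl⟩
    obtain ⟨ζ', hζ'⟩ : ∃ ζ' : ℂ, ζ' = Complex.exp (2 * Real.pi * Complex.I * (-j : ℤ) / p) :=
      ⟨_, rfl⟩
    have hζO : ζ ∈ PP.O := hζ ▸ hPPO _ (isIntegral_exp p hp j)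
    have hζ'O : ζ' ∈ PP.O := hζ' ▸ hPPO _ (isIntegral_exp p hp (-j))
    have hζζ : ζ' * ζ = 1 := by
      rw [hζ, hζ', ← Complex.exp_add]
      have : 2 * Real.pi * Complex.I * ((-j : ℤ) : ℂ) / p + 2 * Real.pi * Complex.I * j / p = 0 := by
        push_cast; ring
      rw [this, Complex.exp_zero]
    rw [← hζ] at hco
    refine ⟨fun n => ?_, fun n hn => ?_, ?_⟩
    · rw [hco, one_mul, hzD₀]
      exact PP.O.mul_mem (PP.O.pow_mem hζO n) (hint _)
    · rw [hco, one_mul, hzD₀]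
      exact PP.mul_mem _ (PP.O.pow_mem hζO n) _ ((hPPJ _).mpr (hb₀min n hn))
    · rw [hco, one_mul, hzD₀, PP.unit_mul_mem_iff (PP.O.pow_mem hζO b₀) (PP.O.pow_mem hζ'O b₀)
        (by rw [← mul_pow, hζζ, one_pow]), hPPJ]
      exact hb₀spec
  have hcard : (Finset.univ.erase x₀).card = p := by
    rw [Finset.card_erase_of_mem (Finset.mem_univ _), Finset.card_univ, card_X]
    simp
  -- the normalised norm
  obtain ⟨N', hN'⟩ : ∃ N' : ℍ → ℂ, N' = D * ∏ x ∈ Finset.univ.erase x₀, G x := ⟨_, rfl⟩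
  have hN'mem : N' ∈ MF ⊤ (w * (p + 1)) := by
    have h1 := prod_vec_mem p hD
    have h2 : N' = (κ⁻¹) ^ p • ∏ x : X (Gamma0 p), vec (Gamma0 p) w D x := by
      rw [← Finset.mul_prod_erase Finset.univ _ (Finset.mem_univ x₀), hx₀, vec_one hD.2.1, hN',
        hGdef, ← hx₀, ← Finset.smul_prod, hcard, mul_smul_comm]
    rw [h2]
    exact Submodule.smul_mem _ _ h1
  have hLN : LowOrd PP (qExpansion (p : ℝ) N') (p * a₀ + p * b₀) := by
    have h1 : qExpansion (p : ℝ) N' =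
        qExpansion (p : ℝ) D * ∏ x ∈ Finset.univ.erase x₀, qExpansion (p : ℝ) (G x) := by
      rw [hN', NiceH.qExpansion_mul hp' (hD1.of_one p) (NiceH.prod _ fun x _ => hG x),
        NiceH.qExpansion_prod hp' _ (fun x _ => hG x)]
    rw [h1]
    have h3 := hLD.mul (LowOrd.prod (Finset.univ.erase x₀) _ (fun _ => b₀) hLG)
    rw [Finset.sum_const, hcard, smul_eq_mul] at h3
    exact h3
  have hN'1 : NiceH 1 N' := niceH_one_of_mem_top hN'mem
  have hcoef : ∀ n, (qExpansion 1 N').coeff n = (qExpansion (p : ℝ) N').coeff (p * n) := by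
    intro n
    rw [coeff_qExpansion_of_one hN'1 p hp, if_pos (dvd_mul_right _ _),
      Nat.mul_div_cancel_left _ hp]
  obtain ⟨F, hF⟩ := mem_MF_top_iff_exists.mp hN'mem
  by_contra hcon
  rw [not_le] at hcon
  have hS1 := sturm_levelOne PP.J F (fun n hn => ?_) (a₀ + b₀)
  · rw [hF, hcoef, mul_add] at hS1
    exact hLN.top hS1
  · rw [hF, hcoef]
    apply hLN.low
    have h1 : (n : ℤ) < a₀ + b₀ := by
      have h2 : (a : ℤ) ≤ a₀ := by exact_mod_cast haa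
      have h3 : (b : ℤ) ≤ b₀ := by exact_mod_cast hbb
      omega
    have h2 : n < a₀ + b₀ := by exact_mod_cast h1
    rw [← mul_add]
    exact Nat.mul_lt_mul_of_pos_left h2 hp

end Fermat.Agent.S16
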