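import Fermat.Agent.S16.Basic
import Fermat.Agent.S16.SturmTwoCore

/-!
# S16/SturmTwo: the two-cusp Sturm bound modulo a prime `ℓ` (any prime, `ℓ = p` allowed)
See the blueprint (board topic S16), item (S2).  The proof is in `SturmTwoCore`; here it is
restated with the Fricke operator.
-/

set_option autoImplicit false

namespace Fermat.Agent.S16

open UpperHalfPlane ModularForm Fermat.Agent.S23
open scoped MatrixGroups Manifold ModularForm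

theorem two_cusp_sturm {p ℓ : ℕ} (hp : p.Prime) (hℓ : ℓ.Prime) {w : ℤ} {D D0 : ℍ → ℂ}
    (hD : IsMF (G0 p) w D) (hD0 : Nice D0) {κ : ℂ} (hκ : κ ≠ 0) (hDw : fricke p w D = κ • D0)
    (d d0 : ℕ → ℤ) (hd : ∀ n, (qe D).coeff n = d n) (hd0 : ∀ n, (qe D0).coeff n = d0 n)
    (v v0 : ℕ) (hv : ¬ (ℓ : ℤ) ∣ d v) (hv' : ∀ n < v, (ℓ : ℤ) ∣ d n)
    (hv0 : ¬ (ℓ : ℤ) ∣ d0 v0) (hv0' : ∀ n < v0, (ℓ : ℤ) ∣ d0 n) :
    12 * ((v : ℤ) + v0) ≤ w * (p + 1) := by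
  have : Fact p.Prime := ⟨hp⟩
  have : Fact ℓ.Prime := ⟨hℓ⟩
  have hp0 : p ≠ 0 := hp.ne_zero
  have hpc : (p : ℂ) ^ (w - 1) ≠ 0 := zpow_ne_zero _ (by exact_mod_cast hp0)
  have hmem : D ∈ Fermat.Agent.S21.MF (CongruenceSubgroup.Gamma0 p) w := by
    obtain ⟨f, hf⟩ := hD
    exact Fermat.Agent.S21.mem_MF_iff_exists.mpr ⟨f, hf⟩
  refine two_cusp_sturm_core p ℓ w D D0 hmem hD0 (((p : ℂ) ^ (w - 1))⁻¹ * κ) (fun τ σ hσ => ?_)
    d d0 hd hd0 v v0 hv' hv0' ⟨v, hv⟩ ⟨v0, hv0⟩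
  have h1 := congrFun hDw τ
  rw [fricke, slash_heckeDiagMatrix_apply w hp0] at h1
  have h2 : heckeDiagMatrix p • τ = σ := by
    apply UpperHalfPlane.ext
    rw [coe_heckeDiagMatrix_smul hp0, hσ]
  rw [h2] at h1
  simp only [Pi.smul_apply, smul_eq_mul] at h1
  rw [mul_assoc, ← h1]
  field_simp

end Fermat.Agent.S16
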