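import Fermat.Agent.S16.QPrinciple
import Fermat.Agent.S16.SturmTwo

/-!
# S16/Eight: for odd `p` there is no weight two form `g ≡ A (mod 8)` with `A` odd
Blueprint item (B2): `β₄ = (g²-A²E₄)/8`, `β₆ = (A³E₆-g³+12 g β₄)/8`, `β₈ = (g β₆-3β₄²)/4`,
`27 A⁶ Δ = -g²β₈ - 8β₄³ - β₆² + 3 g β₄ β₆`.
(We use `γ₄ = β₄/2`, `γ₆ = β₆/4`.)
-/

set_option autoImplicit false

namespace Fermat.Agent.S16

open UpperHalfPlane ModularForm Fermat.Agent.S23
open scoped MatrixGroups Manifold ModularForm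

namespace Eight

open PowerSeries

/-- `F ∈ M_k(Γ₀(p))` has integral `q`-expansion `P` and `F^w` has integral `q`-expansion `Q`. -/
structure Pair (p : ℕ) (k : ℤ) (F : ℍ → ℂ) (P Q : PowerSeries ℤ) : Prop where
  mf : IsMF (G0 p) k F
  q : HasQ F P
  qw : HasQ (fricke p k F) Q

variable {p : ℕ} {k k₁ k₂ : ℤ} {F F₁ F₂ : ℍ → ℂ} {P P₁ P₂ Q Q₁ Q₂ : PowerSeries ℤ}

theorem Pair.congr (h : Pair p k F P Q) {P' Q' : PowerSeries ℤ} (hP : P = P') (hQ : Q = Q') :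
    Pair p k F P' Q' := hP ▸ hQ ▸ h

theorem Pair.add (h₁ : Pair p k F₁ P₁ Q₁) (h₂ : Pair p k F₂ P₂ Q₂) :
    Pair p k (F₁ + F₂) (P₁ + P₂) (Q₁ + Q₂) :=
  ⟨isMF_add h₁.mf h₂.mf, h₁.q.add h₂.q, by rw [fricke_add]; exact h₁.qw.add h₂.qw⟩

theorem Pair.sub (h₁ : Pair p k F₁ P₁ Q₁) (h₂ : Pair p k F₂ P₂ Q₂) :
    Pair p k (F₁ - F₂) (P₁ - P₂) (Q₁ - Q₂) :=
  ⟨isMF_sub h₁.mf h₂.mf, h₁.q.sub h₂.q, by rw [fricke_sub]; exact h₁.qw.sub h₂.qw⟩

theorem Pair.smul_int (c : ℤ) (h : Pair p k F P Q) :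
    Pair p k ((c : ℂ) • F) (C c * P) (C c * Q) :=
  ⟨isMF_smul _ h.mf, h.q.smul_int c, by rw [fricke_smul]; exact h.qw.smul_int c⟩

theorem Pair.mul (hp : p ≠ 0) (h₁ : Pair p k₁ F₁ P₁ Q₁) (h₂ : Pair p k₂ F₂ P₂ Q₂)
    (hk : k = k₁ + k₂) : Pair p k (F₁ * F₂) (P₁ * P₂) (C (p : ℤ) * (Q₁ * Q₂)) := by
  subst hk
  refine ⟨isMF_mul h₁.mf h₂.mf, h₁.q.mul h₂.q, ?_⟩
  rw [fricke_mul hp]
  have := (h₁.qw.mul h₂.qw).smul_int (p : ℤ)
  rwa [Int.cast_natCast] at this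

theorem Pair.div (hp : p.Prime) (hp2 : p ≠ 2) (hk : 2 ≤ k) (s : ℕ)
    (h : Pair p k F (C ((2 : ℤ) ^ s) * P) Q) :
    ∃ Q', Q = C ((2 : ℤ) ^ s) * Q' ∧ Pair p k ((((2 : ℤ) ^ s : ℤ) : ℂ)⁻¹ • F) P Q' := by
  have hd : DvdQ (((2 : ℕ) : ℤ) ^ s) (qe F) := by
    rw [h.q.dvdQ_iff]; exact ⟨P, by simp⟩
  have hd' := qexp_principle_pow hp Nat.prime_two (Ne.symm hp2) hk s h.mf h.qw.isInt hd
  obtain ⟨Q', hQ'⟩ := (h.qw.dvdQ_iff _).mp hd'
  have hQ'' : Q = C ((2 : ℤ) ^ s) * Q' := by rw [hQ']; simp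
  have h2 : ((2 : ℤ) ^ s) ≠ 0 := pow_ne_zero _ (by norm_num)
  refine ⟨Q', hQ'', isMF_smul _ h.mf, HasQ.div_int h2 h.q, ?_⟩
  rw [fricke_smul]
  exact HasQ.div_int h2 (hQ'' ▸ h.qw)

theorem pair_levelOne (hp : p ≠ 0) (n : ℕ) (hkn : k - 1 = n) (hF : IsMF 𝒮ℒ k F) (hq : HasQ F P) :
    Pair p k F P (C ((p : ℤ) ^ n) * Vf p P) := by
  refine ⟨IsMF.of_levelOne p hF, hq, ?_⟩
  rw [fricke_levelOne hp hF, hkn, zpow_natCast]
  have := (hq.Vp hp).smul_int ((p : ℤ) ^ n)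
  rwa [Int.cast_pow, Int.cast_natCast] at this

theorem pair_two (hp : p.Prime) {g : ℍ → ℂ} (hg : IsMF (G0 p) 2 g) (A : ℤ) (h : PowerSeries ℤ)
    (hq : HasQ g (C A + C 8 * h)) :
    Pair p 2 g (C A + C 8 * h) (-(C A + C 8 * Uf p h)) := by
  have : NeZero p := ⟨hp.ne_zero⟩
  refine ⟨hg, hq, ?_⟩
  rw [fricke_two hp hg]
  have := (HasQ.heckeU (dvd_refl p) hg hq).neg
  rwa [Uf_add, Uf_C p hp.ne_zero, Uf_C_mul] at this

/-- parity bookkeeping -/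
theorem coeff_parity (c s : ℤ) (hc : ¬ (2 : ℤ) ∣ c) (hs : ¬ (2 : ℤ) ∣ s) (S' U W Y : PowerSeries ℤ)
    (h : C c * U = -((C s + C 2 * S') * W) + C 2 * Y) (n : ℕ) :
    (2 : ℤ) ∣ U.coeff n - W.coeff n := by
  have hn := congrArg (fun T : PowerSeries ℤ => T.coeff n) h
  simp only [add_mul, mul_assoc, map_add, map_neg, coeff_C_mul] at hn
  obtain ⟨c', rfl⟩ : ∃ c', c = 2 * c' + 1 := ⟨c / 2, by omega⟩
  obtain ⟨s', rfl⟩ : ∃ s', s = 2 * s' + 1 := ⟨s / 2, by omega⟩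
  refine ⟨-(S' * W).coeff n + Y.coeff n - c' * U.coeff n - s' * W.coeff n - W.coeff n, ?_⟩
  linarith

end Eight

open PowerSeries Eight in
theorem no_mod_eight {p : ℕ} (hp : p.Prime) (hp2 : p ≠ 2) {g : ℍ → ℂ} (hg : IsMF (G0 p) 2 g)
    (A : ℤ) (hA : ¬ (2 : ℤ) ∣ A) (hcong : CongConst 8 A (qe g)) : False := by
  have hp0 : p ≠ 0 := hp.ne_zero
  have hC : ∀ c : ℤ, (C c : PowerSeries ℤ) = (c : PowerSeries ℤ) := fun c => eq_intCast _ c
  obtain ⟨h, hq⟩ := exists_hasQ_of_congConst hg.nice hcong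
  obtain ⟨R, hR⟩ := exists_e6q_sub_e4q
  obtain ⟨Dq, hDq, hD0, hD1⟩ := exists_hasQ_D
  have hR' : e6q = e4q + C 8 * R := by rw [← hR]; ring
  -- the basic pairs
  have Pg := pair_two hp hg A h hq
  have P4 := pair_levelOne (p := p) hp0 3 (by norm_num) isMF_E4 hasQ_E4
  have P6 := pair_levelOne (p := p) hp0 5 (by norm_num) isMF_E6 hasQ_E6
  set X : PowerSeries ℤ := C A + C 8 * h with hX
  set X' : PowerSeries ℤ := C A + C 8 * Uf p h with hX'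
  set V4 : PowerSeries ℤ := Vf p (1 + C 240 * e4q) with hV4
  set V6 : PowerSeries ℤ := Vf p (1 - C 504 * e6q) with hV6
  -- `γ₄`
  have Pgg := Pg.mul hp0 Pg (k := 4) (by norm_num)
  have PN4 := Pgg.sub (P4.smul_int (A ^ 2))
  have e1 : X * X - C (A ^ 2) * (1 + C 240 * e4q)
      = C ((2 : ℤ) ^ 4) * (C A * h + C 4 * h ^ 2 - C 15 * C A ^ 2 * e4q) := by
    simp only [hX, hC]; push_cast; ring
  obtain ⟨c4, hc4, Pγ4⟩ := (PN4.congr e1 rfl).div hp hp2 (by norm_num) 4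
  set b4 : PowerSeries ℤ := C A * h + C 4 * h ^ 2 - C 15 * C A ^ 2 * e4q with hb4
  set γ4 : ℍ → ℂ := (((2 : ℤ) ^ 4 : ℤ) : ℂ)⁻¹ • (g * g - ((A ^ 2 : ℤ) : ℂ) • E4f) with hγ4
  -- `γ₆`
  have Pggg := Pg.mul hp0 Pgg (k := 6) (by norm_num)
  have Pgγ4 := Pg.mul hp0 Pγ4 (k := 6) (by norm_num)
  have PN6 := ((P6.smul_int (A ^ 3)).sub Pggg).add (Pgγ4.smul_int 24)
  have e2 : C (A ^ 3) * (1 - C 504 * e6q) - X * (X * X) + C 24 * (X * b4)
      = C ((2 : ℤ) ^ 5) * (-(C 126 * C A ^ 3 * R) - C 27 * C A ^ 3 * e4q + C 3 * C A * h ^ 2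
          + C 8 * h ^ 3 - C 90 * C A ^ 2 * h * e4q) := by
    rw [hR']; simp only [hX, hb4, hC]; push_cast; ring
  obtain ⟨c6, hc6, Pγ6⟩ := (PN6.congr e2 rfl).div hp hp2 (by norm_num) 5
  set b6 : PowerSeries ℤ := -(C 126 * C A ^ 3 * R) - C 27 * C A ^ 3 * e4q + C 3 * C A * h ^ 2
          + C 8 * h ^ 3 - C 90 * C A ^ 2 * h * e4q with hb6
  -- `β₈`
  have Pβ8 := (Pg.mul hp0 Pγ6 (k := 8) (by norm_num)).sub
    ((Pγ4.mul hp0 Pγ4 (k := 8) (by norm_num)).smul_int 3)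
  set B8 : PowerSeries ℤ := X * b6 - C 3 * (b4 * b4) with hB8
  set C8 : PowerSeries ℤ := C (p : ℤ) * (-X' * c6) - C 3 * (C (p : ℤ) * (c4 * c4)) with hC8
  -- the relation `1728 Δ = E₄³ - E₆²` for `q`-expansions
  have hrel : C 1728 * Dq = (1 + C 240 * e4q) ^ 3 - (1 - C 504 * e6q) ^ 2 := by
    have h1 := hDq.smul_int 1728
    have h2 := (hasQ_E4.pow 3).sub (hasQ_E6.pow 2)
    have h3 : (((1728 : ℤ) : ℂ)) • Df = E4f ^ 3 - E6f ^ 2 := by
      rw [← D_eq]; norm_num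
    rw [h3] at h1
    exact h1.unique h2
  have hrelV : C 1728 * Vf p Dq = V4 ^ 3 - V6 ^ 2 := by
    have := congrArg (Vf p) hrel
    rw [Vf_C_mul, Vf_sub, pow_succ, pow_succ, pow_one, pow_succ, pow_one, Vf_mul p _ _ hp0,
      Vf_mul p _ _ hp0, Vf_mul p _ _ hp0] at this
    rw [this]; ring
  have h64 : ∀ U W : PowerSeries ℤ, C 64 * U = C 64 * W → U = W := by
    intro U W hUW
    ext n
    have := congrArg (fun T : PowerSeries ℤ => T.coeff n) hUW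
    simp only [coeff_C_mul] at this
    omega
  -- the identity at `∞`
  have hI : C (27 * A ^ 6) * Dq = -((C (A ^ 2) + C 2 * (C 8 * C A * h + C 32 * h ^ 2)) * B8)
      + C 2 * (-(C 32 * b4 ^ 3) - C 8 * b6 ^ 2 + C 12 * X * b4 * b6) := by
    apply h64
    have hu : C A ^ 2 * (1 + C 240 * e4q) = X ^ 2 - C 16 * b4 := by
      have := e1
      simp only [hC] at this ⊢
      push_cast at this ⊢
      linear_combination -this
    have hw : C A ^ 3 * (1 - C 504 * e6q) = C 32 * b6 + X ^ 3 - C 24 * X * b4 := by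
      have := e2
      simp only [hC] at this ⊢
      push_cast at this ⊢
      linear_combination this
    have h1 : C 64 * (C (27 * A ^ 6) * Dq)
        = (C A ^ 2 * (1 + C 240 * e4q)) ^ 3 - (C A ^ 3 * (1 - C 504 * e6q)) ^ 2 := by
      have := hrel
      simp only [hC] at this ⊢
      push_cast at this ⊢
      linear_combination (A : PowerSeries ℤ) ^ 6 * this
    rw [h1, hu, hw, hB8]
    have hXX : C (A ^ 2) + C 2 * (C 8 * C A * h + C 32 * h ^ 2) = X ^ 2 := by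
      simp only [hX, hC]; push_cast; ring
    rw [hXX]
    simp only [hC]; push_cast; ring
  -- the identity at `0`
  have hI0 : C (27 * A ^ 6 * (p : ℤ) ^ 10) * Vf p Dq
      = -((C ((p : ℤ) * A ^ 2) + C 2 * (C (p : ℤ) * (C 8 * C A * Uf p h + C 32 * Uf p h ^ 2))) * C8)
      + C 2 * (-(C 32 * C (p : ℤ) * c4 ^ 3) - C 8 * c6 ^ 2 - C 12 * C (p : ℤ) * X' * c4 * c6) := by
    apply h64
    have hu : C A ^ 2 * C (p : ℤ) ^ 3 * V4 = C (p : ℤ) * X' ^ 2 - C 16 * c4 := by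
      have := hc4
      simp only [hC] at this ⊢
      push_cast at this ⊢
      linear_combination -this
    have hw : C A ^ 3 * C (p : ℤ) ^ 5 * V6
        = C 32 * c6 - C (p : ℤ) ^ 2 * X' ^ 3 + C 24 * C (p : ℤ) * X' * c4 := by
      have := hc6
      simp only [hC] at this ⊢
      push_cast at this ⊢
      linear_combination this
    have h1 : C 64 * (C (27 * A ^ 6 * (p : ℤ) ^ 10) * Vf p Dq)
        = C (p : ℤ) * (C A ^ 2 * C (p : ℤ) ^ 3 * V4) ^ 3 - (C A ^ 3 * C (p : ℤ) ^ 5 * V6) ^ 2 := by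
      have := hrelV
      simp only [hC] at this ⊢
      push_cast at this ⊢
      linear_combination (A : PowerSeries ℤ) ^ 6 * (p : PowerSeries ℤ) ^ 10 * this
    rw [h1, hu, hw, hC8]
    have hXX : C ((p : ℤ) * A ^ 2) + C 2 * (C (p : ℤ) * (C 8 * C A * Uf p h + C 32 * Uf p h ^ 2))
        = C (p : ℤ) * X' ^ 2 := by
      simp only [hX', hC]; push_cast; ring
    rw [hXX]
    simp only [hC]; push_cast; ring
  -- parities
  have hpodd : ¬ (2 : ℤ) ∣ (p : ℤ) := by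
    intro hd
    have h2 : 2 ∣ p := by exact_mod_cast hd
    exact hp2 ((Nat.prime_dvd_prime_iff_eq Nat.prime_two hp).mp h2).symm
  have hprime2 : Prime (2 : ℤ) := Int.prime_two
  have hA2 : ¬ (2 : ℤ) ∣ A ^ 2 := fun hd => hA (hprime2.dvd_of_dvd_pow hd)
  have hA6 : ¬ (2 : ℤ) ∣ 27 * A ^ 6 := by
    intro hd
    rcases hprime2.dvd_or_dvd hd with hd | hd
    · norm_num at hd
    · exact hA (hprime2.dvd_of_dvd_pow hd)
  have hpar := coeff_parity _ _ hA6 hA2 _ _ _ _ hI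
  have hpar0 := coeff_parity (27 * A ^ 6 * (p : ℤ) ^ 10) ((p : ℤ) * A ^ 2) (by
      intro hd
      rcases hprime2.dvd_or_dvd hd with hd | hd
      · exact hA6 hd
      · exact hpodd (hprime2.dvd_of_dvd_pow hd)) (by
      intro hd
      rcases hprime2.dvd_or_dvd hd with hd | hd
      · exact hpodd hd
      · exact hA2 hd) _ _ _ _ hI0
  -- Sturm
  have hst := two_cusp_sturm hp Nat.prime_two (w := 8) Pβ8.mf Pβ8.qw.nice (κ := 1) one_ne_zero
    (by rw [one_smul]) (fun n => B8.coeff n) (fun n => C8.coeff n) (fun n => Pβ8.q.coeff n)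
    (fun n => Pβ8.qw.coeff n) 1 p ?_ ?_ ?_ ?_
  · have : (0 : ℤ) ≤ p := Int.natCast_nonneg p
    push_cast at hst
    linarith
  · intro hd
    have := hpar 1
    rw [hD1] at this
    simp only [Nat.cast_ofNat] at hd
    omega
  · intro n hn
    obtain rfl : n = 0 := by omega
    have := hpar 0
    rw [hD0] at this
    simp only [Nat.cast_ofNat]
    omega
  · intro hd
    have := hpar0 p
    rw [coeff_Vf, if_pos (dvd_refl p), Nat.div_self hp.pos, hD1] at this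
    simp only [Nat.cast_ofNat] at hd
    omega
  · intro n hn
    have := hpar0 n
    rw [coeff_Vf] at this
    simp only [Nat.cast_ofNat]
    split_ifs at this with hdn
    · obtain rfl : n = 0 := Nat.eq_zero_of_dvd_of_lt hdn hn
      rw [Nat.zero_div, hD0] at this
      omega
    · omega

end Fermat.Agent.S16
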