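import Fermat.Agent.S16.Basic
import Fermat.Prelude.Thm_UpperHalfPlane_qCoeff_heckeT
import Fermat.Prelude.Thm_UpperHalfPlane_qCoeff_heckeU
import Fermat.Prelude.Thm_ModularForm_isBoundedAtImInfty_heckeT
import Fermat.Prelude.Thm_ModularForm_isBoundedAtImInfty_heckeU
import Fermat.Prelude.Thm_ModularForm_periodic_heckeT_comp_ofComplex
import Fermat.Prelude.Thm_ModularForm_periodic_heckeU_comp_ofComplex
import Fermat.Prelude.Thm_ModularForm_mdifferentiable_heckeT
import Fermat.Prelude.Thm_ModularForm_mdifferentiable_heckeU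

/-!
# S16/VpQ: `V_p F (z) = F (p z)` on nice functions and its `q`-expansion

`V_p F = T_p^{(1)} F - U_p F` (weight one normalisation), so everything follows from the Prelude
lemmas on `heckeT`, `heckeU`.
-/

set_option autoImplicit false

namespace Fermat.Agent.S16

open UpperHalfPlane ModularForm Fermat.Agent.S23
open scoped MatrixGroups Manifold ModularForm

variable {F : ℍ → ℂ}

namespace VpQ

theorem nice_heckeT (hF : Nice F) (k : ℤ) (p : ℕ) : Nice (heckeT k p F) :=
  ⟨periodic_heckeT_comp_ofComplex hF.per k p, mdifferentiable_heckeT hF.hol k p,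
    isBoundedAtImInfty_heckeT hF.bdd k p⟩

theorem nice_heckeU (hF : Nice F) (k : ℤ) (p : ℕ) : Nice (heckeU k p F) :=
  ⟨periodic_heckeU_comp_ofComplex hF.per k p, mdifferentiable_heckeU hF.hol k p,
    isBoundedAtImInfty_heckeU hF.bdd k p⟩

theorem Vp_eq {p : ℕ} (hp : p ≠ 0) (F : ℍ → ℂ) :
    Vp p F = heckeT 1 p F + (-1 : ℂ) • heckeU 1 p F := by
  rw [heckeT_eq_heckeU_add, slash_diag_eq_Vp hp]
  simp

end VpQ

open VpQ

/-- `V_p` of a nice function is nice. -/
theorem nice_Vp {p : ℕ} (hp : p ≠ 0) (hF : Nice F) : Nice (Vp p F) := by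
  rw [Vp_eq hp]
  exact (nice_heckeT hF 1 p).add ((nice_heckeU hF 1 p).smul _)

/-- `q`-expansion of `V_p F`. -/
theorem coeff_Vp {p : ℕ} (hp : p ≠ 0) (hF : Nice F) (n : ℕ) :
    (qe (Vp p F)).coeff n = if p ∣ n then (qe F).coeff (n / p) else 0 := by
  rw [Vp_eq hp, (nice_heckeT hF 1 p).qe_add ((nice_heckeU hF 1 p).smul _),
    (nice_heckeU hF 1 p).qe_smul]
  have h1 := UpperHalfPlane.qCoeff_heckeT hF.per hF.hol hF.bdd 1 hp n
  have h2 := UpperHalfPlane.qCoeff_heckeU hF.per hF.hol hF.bdd 1 hp n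
  have h1' : (qe (heckeT 1 p F)).coeff n = coeffHeckeT 1 p (ModularFormClass.qCoeff F) n := h1
  have h2' : (qe (heckeU 1 p F)).coeff n = coeffHeckeU p (ModularFormClass.qCoeff F) n := h2
  rw [map_add, PowerSeries.coeff_smul, h1', h2', coeffHeckeT_eq_coeffHeckeU_add]
  simp only [sub_self, zpow_zero, one_mul, smul_eq_mul]
  have h3 : ModularFormClass.qCoeff F (n / p) = (qe F).coeff (n / p) := rfl
  rw [h3]
  ring

end Fermat.Agent.S16
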