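import Fermat.Agent.S16.Basic
import Fermat.Agent.S16.VpQ
import Fermat.Agent.S21.Basic

/-!
# S16/Eis: the Eisenstein series `E = (p E₂(pz) - E₂(z))/24 ∈ M₂(Γ₀(p))`
-/

set_option autoImplicit false

namespace Fermat.Agent.S16

open UpperHalfPlane ModularForm Fermat.Agent.S23
open scoped MatrixGroups Manifold ModularForm

/-- `E(z) = (p E₂(pz) - E₂(z)) / 24`. -/
noncomputable def Efun (p : ℕ) : ℍ → ℂ :=
  (1 / 24 : ℂ) • ((p : ℂ) • Vp p EisensteinSeries.E2 - EisensteinSeries.E2)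

namespace Eis

open EisensteinSeries Matrix.SpecialLinearGroup

theorem det_eq (g : SL(2, ℤ)) : g 0 0 * g 1 1 - g 0 1 * g 1 0 = 1 := by
  have h := g.det_coe
  rwa [Matrix.det_fin_two] at h

/-- the conjugate of `g ∈ Γ₀(p)` by `diag(p,1)` -/
def conj (p : ℕ) (g : SL(2, ℤ)) (e : ℤ) (he : g 1 0 = p * e) : SL(2, ℤ) :=
  ⟨!![g 0 0, p * g 0 1; e, g 1 1], by
    rw [Matrix.det_fin_two_of]
    linear_combination det_eq g + (g 0 1) * he⟩

theorem conj_00 (p : ℕ) (g : SL(2, ℤ)) (e : ℤ) (he : g 1 0 = p * e) :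
    conj p g e he 0 0 = g 0 0 := rfl
theorem conj_01 (p : ℕ) (g : SL(2, ℤ)) (e : ℤ) (he : g 1 0 = p * e) :
    conj p g e he 0 1 = p * g 0 1 := rfl
theorem conj_10 (p : ℕ) (g : SL(2, ℤ)) (e : ℤ) (he : g 1 0 = p * e) :
    conj p g e he 1 0 = e := rfl
theorem conj_11 (p : ℕ) (g : SL(2, ℤ)) (e : ℤ) (he : g 1 0 = p * e) :
    conj p g e he 1 1 = g 1 1 := rfl

theorem diag_mul_eq {p : ℕ} (hp : p ≠ 0) (g : SL(2, ℤ)) (e : ℤ) (he : g 1 0 = p * e) :
    heckeDiagMatrix p * mapGL ℝ g = mapGL ℝ (conj p g e he) * heckeDiagMatrix p := by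
  ext i j
  fin_cases i <;> fin_cases j <;>
    simp [hp, conj_00, conj_01, conj_10, conj_11, Matrix.mul_apply, Fin.sum_univ_two]
  all_goals first
    | (have := congrArg (Int.cast : ℤ → ℝ) he; push_cast at this ⊢; linear_combination this)
    | (have := congrArg (Int.cast : ℤ → ℝ) he; push_cast at this ⊢; linear_combination -this)
    | ring1

/-- the left factor of `diag(p,1) g` when `p ∤ c` -/
def conj' (p : ℕ) (g : SL(2, ℤ)) (j' : ℕ) (e : ℤ) (he : g 1 1 = g 1 0 * j' + p * e) :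
    SL(2, ℤ) :=
  ⟨!![p * g 0 0, g 0 1 - g 0 0 * j'; g 1 0, e], by
    rw [Matrix.det_fin_two_of]
    linear_combination det_eq g - (g 0 0) * he⟩

theorem conj'_00 (p : ℕ) (g : SL(2, ℤ)) (j' : ℕ) (e : ℤ) (he : g 1 1 = g 1 0 * j' + p * e) :
    conj' p g j' e he 0 0 = p * g 0 0 := rfl
theorem conj'_01 (p : ℕ) (g : SL(2, ℤ)) (j' : ℕ) (e : ℤ) (he : g 1 1 = g 1 0 * j' + p * e) :
    conj' p g j' e he 0 1 = g 0 1 - g 0 0 * j' := rfl
theorem conj'_10 (p : ℕ) (g : SL(2, ℤ)) (j' : ℕ) (e : ℤ) (he : g 1 1 = g 1 0 * j' + p * e) :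
    conj' p g j' e he 1 0 = g 1 0 := rfl
theorem conj'_11 (p : ℕ) (g : SL(2, ℤ)) (j' : ℕ) (e : ℤ) (he : g 1 1 = g 1 0 * j' + p * e) :
    conj' p g j' e he 1 1 = e := rfl

theorem diag_mul_eq' {p : ℕ} (hp : p ≠ 0) (g : SL(2, ℤ)) (j' : ℕ) (e : ℤ)
    (he : g 1 1 = g 1 0 * j' + p * e) :
    heckeDiagMatrix p * mapGL ℝ g = mapGL ℝ (conj' p g j' e he) * heckeMatrix p j' := by
  ext i j
  fin_cases i <;> fin_cases j <;>
    simp [hp, conj'_00, conj'_01, conj'_10, conj'_11, Matrix.mul_apply, Fin.sum_univ_two]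
  all_goals first
    | (have := congrArg (Int.cast : ℤ → ℝ) he; push_cast at this ⊢; linear_combination this)
    | (have := congrArg (Int.cast : ℤ → ℝ) he; push_cast at this ⊢; linear_combination -this)
    | ring1

/-- `diag(p,1) δ = δ' u` with `u` upper triangular. -/
theorem exists_upper {p : ℕ} (hp : p.Prime) (δ : SL(2, ℤ)) :
    ∃ (δ' : SL(2, ℤ)) (u : GL (Fin 2) ℝ), u 1 0 = 0 ∧
      heckeDiagMatrix p * mapGL ℝ δ = mapGL ℝ δ' * u := by
  have : Fact p.Prime := ⟨hp⟩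
  by_cases hc : (p : ℤ) ∣ δ 1 0
  · obtain ⟨e, he⟩ := hc
    refine ⟨conj p δ e he, heckeDiagMatrix p, ?_, diag_mul_eq hp.ne_zero δ e he⟩
    rw [val_heckeDiagMatrix hp.ne_zero]; rfl
  · have hc' : ((δ 1 0 : ℤ) : ZMod p) ≠ 0 := by
      rwa [Ne, ZMod.intCast_zmod_eq_zero_iff_dvd]
    set j : ℕ := (((δ 1 1 : ℤ) : ZMod p) / ((δ 1 0 : ℤ) : ZMod p)).val with hj
    have h1 : (((δ 1 1 - δ 1 0 * j : ℤ)) : ZMod p) = 0 := by
      push_cast
      rw [hj, ZMod.natCast_zmod_val, mul_div_cancel₀ _ hc', sub_self]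
    rw [ZMod.intCast_zmod_eq_zero_iff_dvd] at h1
    obtain ⟨e, he⟩ := h1
    refine ⟨_, heckeMatrix p j, ?_, diag_mul_eq' hp.ne_zero δ j e (by linear_combination he)⟩
    rw [val_heckeMatrix hp.ne_zero]; rfl

theorem isBounded_D2 (γ : SL(2, ℤ)) : IsBoundedAtImInfty (D2 γ) := by
  rw [isBoundedAtImInfty_iff]
  refine ⟨2 * Real.pi, 1, fun z hz => ?_⟩
  by_cases hc : γ 1 0 = 0
  · simp [D2, hc, Real.pi_pos.le]
  have hc1 : (1 : ℝ) ≤ |((γ 1 0 : ℤ) : ℝ)| := by
    have : (1 : ℤ) ≤ |γ 1 0| := Int.one_le_abs hc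
    exact_mod_cast this
  have him : (denom γ z).im = ((γ 1 0 : ℤ) : ℝ) * z.im := by
    simp [ModularGroup.denom_apply]
  have h1 : |((γ 1 0 : ℤ) : ℝ)| ≤ ‖denom γ z‖ := by
    calc |((γ 1 0 : ℤ) : ℝ)| ≤ |((γ 1 0 : ℤ) : ℝ)| * z.im :=
          le_mul_of_one_le_right (abs_nonneg _) hz
      _ = |(denom γ z).im| := by rw [him, abs_mul, abs_of_pos z.im_pos]
      _ ≤ ‖denom γ z‖ := Complex.abs_im_le_norm _
  have h0 : 0 < ‖denom γ z‖ := lt_of_lt_of_le (by linarith) h1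
  simp only [D2, norm_div, norm_mul, Complex.norm_I, Complex.norm_ofNat, Complex.norm_real,
    Real.norm_eq_abs, abs_of_pos Real.pi_pos, mul_one, Complex.norm_intCast]
  rw [div_le_iff₀ h0]
  exact mul_le_mul_of_nonneg_left h1 (by positivity)

theorem isBounded_E2_slash (γ : SL(2, ℤ)) : IsBoundedAtImInfty (E2 ∣[(2 : ℤ)] γ) := by
  rw [E2_slash_action]
  exact isBoundedAtImInfty_E2.sub ((isBounded_D2 γ).const_smul_left _)

theorem Efun_eq {p : ℕ} (hp : p ≠ 0) :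
    Efun p = (1 / 24 : ℂ) • (E2 ∣[(2 : ℤ)] heckeDiagMatrix p - E2) := by
  rw [Efun, slash_diag_eq_Vp hp]
  norm_num

theorem SL_slash' (f : ℍ → ℂ) (k : ℤ) (γ : SL(2, ℤ)) : f ∣[k] γ = f ∣[k] (mapGL ℝ γ) := rfl

theorem isBounded_diag_slash {p : ℕ} (hp : p.Prime) (δ : SL(2, ℤ)) :
    IsBoundedAtImInfty ((E2 ∣[(2 : ℤ)] heckeDiagMatrix p) ∣[(2 : ℤ)] δ) := by
  obtain ⟨δ', u, hu, h⟩ := exists_upper hp δ
  rw [SL_slash', ← SlashAction.slash_mul, h, SlashAction.slash_mul, ← SL_slash']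
  exact (isBounded_E2_slash δ').slash 2 hu

theorem diag_slash_Gamma0 {p : ℕ} (hp : p ≠ 0) (γ : SL(2, ℤ))
    (hγ : γ ∈ CongruenceSubgroup.Gamma0 p) :
    (E2 ∣[(2 : ℤ)] heckeDiagMatrix p) ∣[(2 : ℤ)] γ =
      E2 ∣[(2 : ℤ)] heckeDiagMatrix p - (1 / (2 * riemannZeta 2)) • D2 γ := by
  rw [CongruenceSubgroup.Gamma0_mem, ZMod.intCast_zmod_eq_zero_iff_dvd] at hγ
  obtain ⟨e, he⟩ := hγ
  rw [SL_slash', ← SlashAction.slash_mul, diag_mul_eq hp γ e he, SlashAction.slash_mul,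
    ← SL_slash', E2_slash_action]
  funext z
  rw [slash_heckeDiagMatrix_apply 2 hp, Pi.sub_apply, Pi.sub_apply,
    slash_heckeDiagMatrix_apply 2 hp, Pi.smul_apply, Pi.smul_apply]
  have hden : denom (conj p γ e he) ((heckeDiagMatrix p • z : ℍ) : ℂ) = denom γ z := by
    rw [ModularGroup.denom_apply, ModularGroup.denom_apply, coe_heckeDiagMatrix_smul hp,
      conj_10, conj_11, he]
    push_cast
    ring
  simp only [D2, hden, conj_10, he, smul_eq_mul]
  push_cast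
  norm_num
  ring

theorem E2_vadd (z : ℍ) : E2 ((1 : ℝ) +ᵥ z) = E2 z := by
  have h := congrFun (E2_slash_action ModularGroup.T) z
  rw [SL_slash_apply, UpperHalfPlane.modular_T_smul, D2_T] at h
  have h1 : denom ModularGroup.T z = 1 := by
    simp [ModularGroup.denom_apply, ModularGroup.coe_T]
  simpa [h1] using h

theorem nice_E2 : Nice E2 where
  per := by
    intro w
    by_cases! hw : 0 < Complex.im w
    · have : 0 < Complex.im (w + (1 : ℝ)) := by simp [hw]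
      have h2 : w + 1 = w + (1 : ℝ) := by simp
      simp only [Function.comp_apply, h2, ofComplex_apply_of_im_pos this,
        ofComplex_apply_of_im_pos hw]
      convert E2_vadd ⟨w, hw⟩ using 2
      ext
      simp [add_comm]
    · have : Complex.im (w + 1) ≤ 0 := by simpa using hw
      simp [ofComplex_apply_of_im_nonpos this, ofComplex_apply_of_im_nonpos hw]
  hol := E2_mdifferentiable
  bdd := isBoundedAtImInfty_E2

theorem coeff_E2 (n : ℕ) :
    (qe E2).coeff n = if n = 0 then 1 else -24 * ((ArithmeticFunction.sigma 1 n : ℕ) : ℂ) := by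
  have h : ∀ τ : ℍ, HasSum (fun m : ℕ =>
      (if m = 0 then 1 else -24 * ((ArithmeticFunction.sigma 1 m : ℕ) : ℂ)) •
        Function.Periodic.qParam 1 τ ^ m) (E2 τ) := by
    intro τ
    simpa only [Function.Periodic.qParam, Complex.ofReal_one, div_one] using
      hasSum_qExpansion_E2 (z := τ)
  let _ : FunLike (ℍ → ℂ) ℍ ℂ := { coe := id, coe_injective := fun _ _ h => h }
  exact (qExpansion_coeff_unique (F := ℍ → ℂ) E2 one_pos nice_E2.analytic h n).symm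

theorem sigma_eq {p : ℕ} (hp : p.Prime) {n : ℕ} (hn : n ≠ 0) :
    ArithmeticFunction.sigma 1 n =
      sigmaP p n + if p ∣ n then p * ArithmeticFunction.sigma 1 (n / p) else 0 := by
  rw [ArithmeticFunction.sigma_one_apply, sigmaP,
    ← Finset.sum_filter_not_add_sum_filter n.divisors (fun d => p ∣ d)]
  congr 1
  split_ifs with h
  · obtain ⟨m, rfl⟩ := h
    have hm : m ≠ 0 := by rintro rfl; simp at hn
    rw [Nat.mul_div_cancel_left _ hp.pos, ArithmeticFunction.sigma_one_apply, Finset.mul_sum]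
    symm
    refine Finset.sum_bij (fun d _ => p * d) ?_ ?_ ?_ ?_
    · intro d hd
      rw [Nat.mem_divisors] at hd
      simp only [Finset.mem_filter, Nat.mem_divisors]
      exact ⟨⟨Nat.mul_dvd_mul_left p hd.1, hn⟩, Dvd.intro _ rfl⟩
    · intro a _ b _ hab
      exact Nat.eq_of_mul_eq_mul_left hp.pos hab
    · intro b hb
      simp only [Finset.mem_filter, Nat.mem_divisors] at hb
      obtain ⟨⟨h1, -⟩, d, rfl⟩ := hb
      exact ⟨d, Nat.mem_divisors.mpr ⟨Nat.dvd_of_mul_dvd_mul_left hp.pos h1, hm⟩, rfl⟩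
    · intro a _
      rfl
  · apply Finset.sum_eq_zero
    intro d hd
    simp only [Finset.mem_filter, Nat.mem_divisors] at hd
    exact absurd (hd.2.trans hd.1.1) h

end Eis

theorem isMF_Efun {p : ℕ} (hp : p.Prime) : IsMF (G0 p) 2 (Efun p) := by
  have : NeZero p := ⟨hp.ne_zero⟩
  refine Fermat.Agent.S21.mem_MF_iff_exists.mp ?_
  rw [Eis.Efun_eq hp.ne_zero]
  refine ⟨?_, fun γ hγ => ?_, fun δ => ?_⟩
  · exact ((MDifferentiable.slash E2_mdifferentiable 2 _).sub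
      E2_mdifferentiable).const_smul _
  · rw [SL_smul_slash, sub_eq_add_neg, SlashAction.add_slash, SlashAction.neg_slash,
      Eis.diag_slash_Gamma0 hp.ne_zero γ hγ, EisensteinSeries.E2_slash_action]
    congr 1
    abel
  · rw [SL_smul_slash, sub_eq_add_neg, SlashAction.add_slash, SlashAction.neg_slash]
    exact ((Eis.isBounded_diag_slash hp δ).add (Eis.isBounded_E2_slash δ).neg).const_smul_left _

theorem coeff_Efun {p : ℕ} (hp : p.Prime) (n : ℕ) :
    (qe (Efun p)).coeff n = if n = 0 then ((p : ℂ) - 1) / 24 else (sigmaP p n : ℂ) := by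
  have hV : Nice (Vp p EisensteinSeries.E2) := nice_Vp hp.ne_zero Eis.nice_E2
  have h1 : Efun p = (1 / 24 : ℂ) • ((p : ℂ) • Vp p EisensteinSeries.E2 +
      (-1 : ℂ) • EisensteinSeries.E2) := by
    rw [Efun, neg_one_smul, sub_eq_add_neg]
  rw [h1, ((hV.smul _).add (Eis.nice_E2.smul _)).qe_smul, (hV.smul _).qe_add (Eis.nice_E2.smul _),
    hV.qe_smul, Eis.nice_E2.qe_smul]
  simp only [map_smul, map_add, smul_eq_mul, coeff_Vp hp.ne_zero Eis.nice_E2, Eis.coeff_E2]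
  by_cases hn : n = 0
  · subst hn
    simp
    ring
  · have hs := Eis.sigma_eq hp hn
    have hs' := congrArg (Nat.cast : ℕ → ℂ) hs
    rw [if_neg hn, if_neg hn, hs']
    by_cases hpn : p ∣ n
    · have hnp : n / p ≠ 0 := by
        obtain ⟨m, rfl⟩ := hpn
        rw [Nat.mul_div_cancel_left _ hp.pos]
        rintro rfl
        simp at hn
      rw [if_pos hpn, if_pos hpn, if_neg hnp]
      push_cast
      ring
    · rw [if_neg hpn, if_neg hpn]
      push_cast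
      ring

end Fermat.Agent.S16
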