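import Fermat.Agent.S16.HeckeTrick
import Fermat.Agent.S16.CubeTrick
import Fermat.Agent.S16.Eight
import Fermat.Agent.S16.Eis
import Fermat.Prelude.Def_ModularCurve_ModularUnit
import Fermat.Agent.S49.QCoeff

/-!
# S16/PartB: a cusp form congruent to the Eisenstein series mod `k` forces `k ∣ n`
-/

set_option autoImplicit false

namespace Fermat.Agent.S16

open UpperHalfPlane ModularForm Fermat.Agent.S23
open scoped MatrixGroups Manifold ModularForm

namespace PartB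

theorem congConst_of_dvd {m m' A : ℤ} {P : PowerSeries ℂ} (h : m' ∣ m) (hP : CongConst m A P) :
    CongConst m' A P := by
  obtain ⟨c, rfl⟩ := h
  intro n
  obtain ⟨z, hz⟩ := hP n
  exact ⟨c * z, by rw [hz]; push_cast; ring⟩

theorem finite_check (B : ℕ) (hB : B < 25) (r : ℕ) (hr : r < 13) (h1 : B ∣ 24) (h2 : r ∣ 12)
    (h3 : 3 ∣ B → ¬ 3 ∣ r) (h8 : 8 ∣ B → ¬ 2 ∣ r) (h4 : 4 ∣ B → ¬ 4 ∣ r) : B * r ∣ 24 := by
  interval_cases B <;> first | (exfalso; revert h1; decide) | skip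
  all_goals interval_cases r <;> first | (exfalso; revert h2; decide) | skip
  all_goals first | decide | (exfalso; revert h3; decide) | (exfalso; revert h8; decide) | (exfalso; revert h4; decide)

theorem exists_aux_prime (p ℓ : ℕ) : ∃ r : ℕ, r.Prime ∧ r ≠ p ∧ r ≠ ℓ ∧ ((r : ℤ) ^ 2 - 1) ∣ 24 := by
  by_cases h2 : 2 ≠ p ∧ 2 ≠ ℓ
  · exact ⟨2, Nat.prime_two, h2.1, h2.2, by norm_num⟩
  by_cases h3 : 3 ≠ p ∧ 3 ≠ ℓ
  · exact ⟨3, Nat.prime_three, h3.1, h3.2, by norm_num⟩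
  · refine ⟨5, Nat.prime_five, ?_, ?_, by norm_num⟩ <;> omega

end PartB

open PartB

/-- Arithmetic core: `g = A + B * (integral)`, `gcd(A,B)=1` forces `B * gcd(p-1,12) ∣ 24`. -/
theorem modulus_dvd {p : ℕ} (hp : p.Prime) {g : ℍ → ℂ} (hg : IsMF (G0 p) 2 g) (A : ℤ) (B : ℕ)
    (hAB : IsCoprime A (B : ℤ)) (hcong : CongConst B A (qe g)) :
    B * Nat.gcd (p - 1) 12 ∣ 24 := by
  -- a prime dividing `B` does not divide `A`
  have hndvd : ∀ ℓ : ℕ, ℓ.Prime → ℓ ∣ B → ¬ (ℓ : ℤ) ∣ A := by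
    intro ℓ hℓ hℓB hℓA
    have h1 : IsUnit (ℓ : ℤ) := hAB.isUnit_of_dvd' hℓA (Int.natCast_dvd_natCast.2 hℓB)
    have h2 := Int.isUnit_iff_natAbs_eq.1 h1
    simp only [Int.natAbs_natCast] at h2
    exact hℓ.one_lt.ne' h2
  have hpow : ∀ (ℓ s : ℕ), ℓ ^ s ∣ B → CongConst ((ℓ : ℤ) ^ s) A (qe g) := by
    intro ℓ s h
    refine congConst_of_dvd ?_ hcong
    exact_mod_cast Int.natCast_dvd_natCast.2 h
  have h24 : B ∣ 24 := by
    rw [Nat.dvd_iff_prime_pow_dvd_dvd]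
    intro ℓ s hℓ hs
    rcases Nat.eq_zero_or_pos s with rfl | hspos
    · simp
    obtain ⟨r, hr, hrp, hrℓ, hr24⟩ := exists_aux_prime p ℓ
    have hℓB : ℓ ∣ B := (dvd_pow_self ℓ hspos.ne').trans hs
    have := hecke_trick hp hℓ hr hrp hrℓ s hg A (hndvd ℓ hℓ hℓB) (hpow ℓ s hs)
    have h2 : ((ℓ ^ s : ℕ) : ℤ) ∣ ((24 : ℕ) : ℤ) := by
      push_cast
      exact this.trans hr24
    exact Int.natCast_dvd_natCast.1 h2
  have hp1 : 1 ≤ p := hp.one_le
  have hr12 : Nat.gcd (p - 1) 12 ∣ 12 := Nat.gcd_dvd_right _ _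
  have hrp : Nat.gcd (p - 1) 12 ∣ p - 1 := Nat.gcd_dvd_left _ _
  refine finite_check B (Nat.lt_succ_of_le (Nat.le_of_dvd (by norm_num) h24)) _
    (Nat.lt_succ_of_le (Nat.le_of_dvd (by norm_num) hr12)) h24 hr12 ?_ ?_ ?_
  · intro h3 h3r
    have h3p : 3 ∣ p - 1 := h3r.trans hrp
    by_cases hp3 : p = 3
    · subst hp3; omega
    have := cube_trick hp Nat.prime_three (Ne.symm hp3) 1 (by norm_num) hg A
      (hndvd 3 Nat.prime_three h3) (hpow 3 1 (by simpa using h3))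
    obtain ⟨c, hc⟩ := h3p
    have hpc : (p : ℤ) = 3 * c + 1 := by omega
    rw [hpc] at this
    obtain ⟨e, he⟩ := this
    push_cast at he
    ring_nf at he
    omega
  · intro h8 h2r
    by_cases hp2 : p = 2
    · subst hp2; simp at h2r
    exact no_mod_eight hp hp2 hg A (hndvd 2 Nat.prime_two (Dvd.dvd.trans (by norm_num) h8))
      (by simpa using hpow 2 3 (by simpa using h8))
  · intro h4 h4r
    have h4p : 4 ∣ p - 1 := h4r.trans hrp
    by_cases hp2 : p = 2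
    · subst hp2; omega
    have := cube_trick hp Nat.prime_two (Ne.symm hp2) 2 (by norm_num) hg A
      (hndvd 2 Nat.prime_two (Dvd.dvd.trans (by norm_num) h4)) (hpow 2 2 (by simpa using h4))
    obtain ⟨c, hc⟩ := h4p
    have hpc : (p : ℤ) = 4 * c + 1 := by omega
    rw [hpc] at this
    obtain ⟨e, he⟩ := this
    push_cast at he
    ring_nf at he
    omega

theorem partB {p : ℕ} (hp : p.Prime) (k : ℕ) (hk : 0 < k) (f : ℍ → ℂ) (hf : IsCF (G0 p) 2 f)
    (hcong : ∀ j : ℕ, 1 ≤ j → ∃ m : ℤ, (qe f).coeff j = ((sigmaP p j + k * m : ℤ) : ℂ)) :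
    k ∣ ModularCurve.eisensteinNumerator p := by
  have hf0 : (qe f).coeff 0 = 0 := by
    obtain ⟨f', rfl⟩ := hf
    exact Fermat.Agent.S49.qCoeff_index_zero f'
  have hfM : IsMF (G0 p) 2 f := IsCF.isMF hf
  have hE := isMF_Efun hp
  have hp1 : 0 < p - 1 := by have := hp.two_le; omega
  set G : ℕ := Nat.gcd (p - 1) (24 * k) with hG
  have hGpos : 0 < G := Nat.gcd_pos_of_pos_left _ hp1
  obtain ⟨A, hA⟩ : G ∣ p - 1 := Nat.gcd_dvd_left _ _
  obtain ⟨B, hB⟩ : G ∣ 24 * k := Nat.gcd_dvd_right _ _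
  have hcop : Nat.Coprime A B := by
    have := Nat.coprime_div_gcd_div_gcd (m := p - 1) (n := 24 * k) hGpos
    rw [← hG] at this
    rwa [hA, hB, Nat.mul_div_cancel_left _ hGpos, Nat.mul_div_cancel_left _ hGpos] at this
  set g : ℍ → ℂ := ((24 : ℂ) / G) • (Efun p - f) with hg
  have hgM : IsMF (G0 p) 2 g := isMF_smul _ (isMF_sub hE hfM)
  have hGC : (G : ℂ) ≠ 0 := by exact_mod_cast hGpos.ne'
  have hcoef : ∀ n, (qe g).coeff n = (24 : ℂ) / G * ((qe (Efun p)).coeff n - (qe f).coeff n) := by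
    intro n
    have h1 : qe (Efun p - f) = qe (Efun p) - qe f := by
      have := Nice.qe_add hE.nice (Nice.smul (-1) hfM.nice)
      rw [Nice.qe_smul _ hfM.nice] at this
      have h2 : Efun p - f = Efun p + (-1 : ℂ) • f := by
        funext z; simp [sub_eq_add_neg]
      rw [h2, this]
      simp [sub_eq_add_neg]
    rw [hg, Nice.qe_smul _ (isMF_sub hE hfM).nice, h1]
    simp
  have hAC : ((p : ℂ) - 1) = (G : ℂ) * A := by
    have : ((p - 1 : ℕ) : ℂ) = (G : ℂ) * A := by rw [hA]; push_cast; ring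
    rw [← this, Nat.cast_sub hp.one_le]; simp
  have hBC : (24 : ℂ) * k = (G : ℂ) * B := by
    have : ((24 * k : ℕ) : ℂ) = (G : ℂ) * B := by rw [hB]; push_cast; ring
    rw [← this]; push_cast; ring
  have hCC : CongConst (B : ℤ) (A : ℤ) (qe g) := by
    intro n
    rcases Nat.eq_zero_or_pos n with rfl | hn
    · refine ⟨0, ?_⟩
      rw [hcoef, coeff_Efun hp, hf0]
      simp only [if_true, sub_zero]
      rw [hAC]
      push_cast
      field_simp
      ring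
    · obtain ⟨m, hm⟩ := hcong n hn
      refine ⟨-m, ?_⟩
      rw [hcoef, coeff_Efun hp, hm, if_neg hn.ne', if_neg hn.ne']
      push_cast
      have : (24 : ℂ) / G * ((sigmaP p n : ℂ) - ((sigmaP p n : ℂ) + k * m)) =
          -((24 * k) / G * m) := by ring
      rw [this, hBC]
      field_simp
      ring
  have hdvd := modulus_dvd hp hgM A B (by exact_mod_cast (Nat.isCoprime_iff_coprime.2 hcop)) hCC
  -- `B * r ∣ 24` gives `k * r ∣ G ∣ p - 1`
  have h1 : k * Nat.gcd (p - 1) 12 ∣ G := by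
    have h2 : G * (B * Nat.gcd (p - 1) 12) ∣ G * 24 := Nat.mul_dvd_mul_left G hdvd
    rw [← mul_assoc, ← hB] at h2
    have h3 : 24 * (k * Nat.gcd (p - 1) 12) ∣ 24 * G := by
      convert h2 using 1 <;> ring
    exact (Nat.mul_dvd_mul_iff_left (by norm_num)).1 h3
  have h2 : Nat.gcd (p - 1) 12 * k ∣ p - 1 := by
    rw [mul_comm]
    exact h1.trans (Nat.gcd_dvd_left _ _)
  exact Nat.dvd_div_of_mul_dvd h2

end Fermat.Agent.S16
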