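import Fermat.Agent.S16.Defs
import Fermat.Agent.S16.Duality

/-!
# S16/Alg: reduction of S16 to the statements (A) and (B) about congruences of cusp forms
(bridge between `Fermat.Agent.S16.Duality` and the vocabulary of `Fermat.Agent.S16.Defs`)
-/

set_option autoImplicit false

namespace Fermat.Agent.S16

open ModularCurve CuspForm CongruenceSubgroup ModularFormClass

theorem sigmaP_cast (p j : ℕ) : ((sigmaP p j : ℕ) : ℤ) = Duality.sigmaP p j := by
  unfold sigmaP Duality.sigmaP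
  push_cast
  rfl

theorem sigmaP_zero (p : ℕ) : sigmaP p 0 = 0 := by
  simp [sigmaP]

/-- (B) in the shape needed by `Duality`. -/
theorem hB_bridge (p : ℕ) (n : ℕ) (hn : 0 < n)
    (hB : ∀ k : ℕ, 0 < k → (∃ f : CuspForm (Gamma0 p) 2, ∀ j : ℕ, ∃ m : ℤ,
      qCoeff f j = ((sigmaP p j + k * m : ℤ) : ℂ)) → k ∣ n)
    (k : ℕ) (f : CuspForm (Gamma0 p) 2) (hf : ∀ j : ℕ, 1 ≤ j →
      ∃ m : ℤ, qCoeff f j = (Duality.sigmaP p j : ℂ) + (k : ℂ) * m) : k ∣ n := by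
  rcases Nat.eq_zero_or_pos k with rfl | hk
  · exfalso
    have h1 : n + 1 ∣ n := by
      refine hB (n + 1) (Nat.succ_pos n) ⟨f, fun j => ?_⟩
      rcases Nat.eq_zero_or_pos j with rfl | hj
      · exact ⟨0, by rw [Fermat.Agent.S49.qCoeff_index_zero, sigmaP_zero]; simp⟩
      · obtain ⟨m, hm⟩ := hf j hj
        refine ⟨0, ?_⟩
        rw [hm, sigmaP_cast]
        simp
    have := Nat.le_of_dvd hn h1
    omega
  · refine hB k hk ⟨f, fun j => ?_⟩
    rcases Nat.eq_zero_or_pos j with rfl | hj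
    · exact ⟨0, by rw [Fermat.Agent.S49.qCoeff_index_zero, sigmaP_zero]; simp⟩
    · obtain ⟨m, hm⟩ := hf j hj
      refine ⟨m, ?_⟩
      rw [hm, sigmaP_cast]
      push_cast
      ring

theorem card_quotient_eq (p : ℕ) [Fact p.Prime] (n : ℕ) (hn : 0 < n)
    (hA : ∃ f : CuspForm (Gamma0 p) 2, ∀ j : ℕ, ∃ m : ℤ,
      qCoeff f j = ((sigmaP p j + n * m : ℤ) : ℂ))
    (hB : ∀ k : ℕ, 0 < k → (∃ f : CuspForm (Gamma0 p) 2, ∀ j : ℕ, ∃ m : ℤ,
      qCoeff f j = ((sigmaP p j + k * m : ℤ) : ℂ)) → k ∣ n) :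
    Nat.card (↥(heckeLatticeAlgebra p ∅) ⧸
        Ideal.map ((latticeRestrictHom p ∅).toRingHom.comp (heckeEvalForms p 2))
          (eisensteinIdeal p)) = n := by
  refine Duality.card_quotient_of_AB p n ?_ (hB_bridge p n hn hB)
  obtain ⟨f, hf⟩ := hA
  refine ⟨f, fun j _ => ?_⟩
  obtain ⟨m, hm⟩ := hf j
  refine ⟨m, ?_⟩
  rw [hm, sigmaP_cast]
  push_cast
  ring

/-- Variant with the Shimura-subgroup form (A') of the lower bound. -/
theorem card_quotient_eq' (p : ℕ) [Fact p.Prime] (n : ℕ) (hn : 0 < n)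
    (hint : HasIntegralStructure p 2)
    (hA' : ∀ Q : HeckeAlg, heckeEvalForms p 2 Q = 0 →
      (n : ℤ) ∣ MvPolynomial.aeval (R := ℤ) (eisensteinSystem p) Q)
    (hB : ∀ k : ℕ, 0 < k → (∃ f : CuspForm (Gamma0 p) 2, ∀ j : ℕ, ∃ m : ℤ,
      qCoeff f j = ((sigmaP p j + k * m : ℤ) : ℂ)) → k ∣ n) :
    Nat.card (↥(heckeLatticeAlgebra p ∅) ⧸
        Ideal.map ((latticeRestrictHom p ∅).toRingHom.comp (heckeEvalForms p 2))
          (eisensteinIdeal p)) = n :=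
  Duality.card_quotient_of_A'B p n hint hA' (hB_bridge p n hn hB)

end Fermat.Agent.S16
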