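import Fermat.Agent.S23.Nice
import Fermat.Prelude.Def_ModularForm_HeckeOperatorForms
import Fermat.Prelude.Def_FLTPrelim_Modularity

/-!
# S16 (Mazur: `|T/I| = (p-1)/gcd(p-1,12)`): common vocabulary

Everything is phrased for plain functions `ℍ → ℂ` with the predicates `IsMF`, `IsCF`, `Nice`,
`qe`, `IsInt` of `Fermat.Agent.S23`.
-/

set_option autoImplicit false

namespace Fermat.Agent.S16

open UpperHalfPlane ModularForm Fermat.Agent.S23
open scoped MatrixGroups Manifold ModularForm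

/-- Sum of the divisors of `j` that are prime to `p` (`0` for `j = 0`). -/
def sigmaP (p j : ℕ) : ℕ := ∑ d ∈ j.divisors with ¬ p ∣ d, d

/-- The Fricke operator `F ↦ F ∣[k] [[0,-1],[p,0]]`, written as `(F ∣ S) ∣ diag(p,1)`.
Explicitly `(fricke p k F) z = p⁻¹ z^(-k) F(-1/(p z))`. -/
noncomputable def fricke (p : ℕ) (k : ℤ) (F : ℍ → ℂ) : ℍ → ℂ :=
  (F ∣[k] ModularGroup.S) ∣[k] heckeDiagMatrix p

/-- `V_p F (z) = F (p z)`. -/
noncomputable def Vp (p : ℕ) (F : ℍ → ℂ) : ℍ → ℂ := fun τ => F (heckeDiagMatrix p • τ)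

/-- All coefficients are integers divisible by `m`. -/
def DvdQ (m : ℤ) (P : PowerSeries ℂ) : Prop := ∀ n : ℕ, ∃ z : ℤ, P.coeff n = ((m * z : ℤ) : ℂ)

/-- `P = A + m * (integral power series)`. -/
def CongConst (m A : ℤ) (P : PowerSeries ℂ) : Prop :=
  ∀ n : ℕ, ∃ z : ℤ, P.coeff n = (((if n = 0 then A else 0) + m * z : ℤ) : ℂ)

/-- The level one forms as plain functions. -/
noncomputable abbrev E4f : ℍ → ℂ := ⇑ModularForm.E₄
noncomputable abbrev E6f : ℍ → ℂ := ⇑ModularForm.E₆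
noncomputable abbrev Df : ℍ → ℂ := ModularForm.discriminant

end Fermat.Agent.S16
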