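import Fermat.Statements.S16
import Fermat.Agent.S16.Defs
import Fermat.Agent.S49.QCoeff

/-!
# S16/AlgDefs: notation for the algebraic part (Hecke algebra acting on the lattice)
-/

set_option autoImplicit false

namespace Fermat.Agent.S16

open ModularCurve CuspForm CongruenceSubgroup ModularFormClass

variable (p : ℕ) [Fact p.Prime]

/-- The lattice `L` of cusp forms with integral `q`-expansion. -/
abbrev Lat : Type := ↥(intLattice p 2)

/-- The Hecke algebra `𝕋 ⊆ End_ℤ(L)`. -/
abbrev TT : Type := ↥(heckeLatticeAlgebra p ∅)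

/-- `π : ℤ[X_ℓ] → 𝕋`. -/
noncomputable abbrev piHom : HeckeAlg →+* TT p :=
  (latticeRestrictHom p ∅).toRingHom.comp (heckeEvalForms p 2)

/-- The Eisenstein evaluation `ℤ[X_ℓ] → ℤ`. -/
noncomputable abbrev evHom : HeckeAlg →ₐ[ℤ] ℤ := MvPolynomial.aeval (eisensteinSystem p)

variable {p}

/-- Integer `q`-coefficients of an element of the lattice. -/
noncomputable def cf (f : Lat p) (j : ℕ) : ℤ :=
  (Fermat.Agent.S49.qCoeff_int_of_mem_intLattice f.2 j).choose

theorem cf_spec (f : Lat p) (j : ℕ) : qCoeff (f : CuspForm (Gamma0 p) 2) j = (cf f j : ℂ) :=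
  (Fermat.Agent.S49.qCoeff_int_of_mem_intLattice f.2 j).choose_spec

end Fermat.Agent.S16
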