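import Fermat.Agent.S16.Defs
import Fermat.Prelude.Thm_ModularFormClass_qCoeff_heckeT
import Fermat.Prelude.Thm_ModularFormClass_qCoeff_heckeU

/-!
# S16/Basic: closure properties of `IsMF`, coefficient formulas for `heckeT`, `heckeU`, `Vp`
-/

set_option autoImplicit false

namespace Fermat.Agent.S16

open UpperHalfPlane ModularForm Fermat.Agent.S23
open scoped MatrixGroups Manifold ModularForm

variable {N : ℕ} {k k₁ k₂ : ℤ} {F G : ℍ → ℂ}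

theorem isMF_add {Γ : Subgroup (GL (Fin 2) ℝ)} (hF : IsMF Γ k F) (hG : IsMF Γ k G) :
    IsMF Γ k (F + G) := by
  obtain ⟨f, rfl⟩ := hF
  obtain ⟨g, rfl⟩ := hG
  exact ⟨f + g, rfl⟩

theorem isMF_neg {Γ : Subgroup (GL (Fin 2) ℝ)} (hF : IsMF Γ k F) : IsMF Γ k (-F) := by
  obtain ⟨f, rfl⟩ := hF
  exact ⟨-f, rfl⟩

theorem isMF_sub {Γ : Subgroup (GL (Fin 2) ℝ)} (hF : IsMF Γ k F) (hG : IsMF Γ k G) :
    IsMF Γ k (F - G) := by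
  obtain ⟨f, rfl⟩ := hF
  obtain ⟨g, rfl⟩ := hG
  exact ⟨f - g, rfl⟩

theorem isMF_mul {Γ : Subgroup (GL (Fin 2) ℝ)} [Γ.HasDetPlusMinusOne]
    (hF : IsMF Γ k₁ F) (hG : IsMF Γ k₂ G) : IsMF Γ (k₁ + k₂) (F * G) := by
  obtain ⟨f, rfl⟩ := hF
  obtain ⟨g, rfl⟩ := hG
  exact ⟨f.mul g, rfl⟩

theorem isMF_mul' {Γ : Subgroup (GL (Fin 2) ℝ)} [Γ.HasDetPlusMinusOne] {k : ℤ}
    (hF : IsMF Γ k₁ F) (hG : IsMF Γ k₂ G) (hk : k = k₁ + k₂) : IsMF Γ k (F * G) :=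
  hk ▸ isMF_mul hF hG

theorem isMF_smul {Γ : Subgroup (GL (Fin 2) ℝ)} [Γ.HasDetOne] (c : ℂ) (hF : IsMF Γ k F) :
    IsMF Γ k (c • F) := hF.smul c

theorem isMF_E4 : IsMF 𝒮ℒ 4 E4f := ⟨ModularForm.E₄, rfl⟩
theorem isMF_E6 : IsMF 𝒮ℒ 6 E6f := ⟨ModularForm.E₆, rfl⟩
theorem isCF_D : IsCF 𝒮ℒ 12 Df := ⟨CuspForm.discriminant, rfl⟩
theorem isMF_D : IsMF 𝒮ℒ 12 Df := IsCF.isMF isCF_D

theorem isMF_heckeT {r : ℕ} (hr : r.Prime) (hrN : ¬ r ∣ N) (hF : IsMF (G0 N) k F) :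
    IsMF (G0 N) k (heckeT k r F) := by
  obtain ⟨f, rfl⟩ := hF
  exact ⟨ModularForm.heckeTLin k hr hrN f, rfl⟩

theorem isMF_heckeU [NeZero N] {r : ℕ} (hrN : r ∣ N) (hF : IsMF (G0 N) k F) :
    IsMF (G0 N) k (heckeU k r F) := by
  obtain ⟨f, rfl⟩ := hF
  exact ⟨ModularForm.heckeULin k hrN f, rfl⟩

theorem coeff_heckeT {r : ℕ} (hr : r ≠ 0) (hF : IsMF (G0 N) k F) (n : ℕ) :
    (qe (heckeT k r F)).coeff n =
      (qe F).coeff (n * r) + if r ∣ n then (r : ℂ) ^ (k - 1) * (qe F).coeff (n / r) else 0 := by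
  obtain ⟨f, rfl⟩ := hF
  exact ModularFormClass.qCoeff_heckeT f (one_mem_strictPeriods_G0 N) hr n

theorem coeff_heckeU {r : ℕ} (hr : r ≠ 0) (hF : IsMF (G0 N) k F) (n : ℕ) :
    (qe (heckeU k r F)).coeff n = (qe F).coeff (n * r) := by
  obtain ⟨f, rfl⟩ := hF
  exact ModularFormClass.qCoeff_heckeU f (one_mem_strictPeriods_G0 N) hr n

/-- `F ∣[k] diag(p,1) = p^(k-1) V_p F`. -/
theorem slash_diag_eq_Vp {p : ℕ} (hp : p ≠ 0) (k : ℤ) (F : ℍ → ℂ) :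
    F ∣[k] heckeDiagMatrix p = (p : ℂ) ^ (k - 1) • Vp p F := by
  funext τ
  rw [slash_heckeDiagMatrix_apply k hp]
  rfl

end Fermat.Agent.S16
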