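import Fermat.Agent.S16.Basic
import Fermat.Agent.S16.SturmTwoCore

/-!
# S16/Cosets: `Γ₀(p) \ SL₂(ℤ)` is represented by `1, S T^j (0 ≤ j < p)`

Consequences for Mathlib's `ModularForm.trace` and `ModularForm.norm` from `G0 p` to `𝒮ℒ`.
-/

set_option autoImplicit false

namespace Fermat.Agent.S16

open UpperHalfPlane ModularForm Fermat.Agent.S23
open scoped MatrixGroups Manifold ModularForm

variable {p : ℕ} {k : ℤ} {F : ℍ → ℂ}

/-- The translates `F ∣ S T^j`. -/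
noncomputable def trans (k : ℤ) (F : ℍ → ℂ) (j : ℕ) : ℍ → ℂ :=
  F ∣[k] (ModularGroup.S * ModularGroup.T ^ j)

namespace Cosets

open Fermat.Agent.S21 CongruenceSubgroup

/-- the coset attached to `S T^j` -/
def cos (p : ℕ) (j : ℕ) : X (Gamma0 p) :=
  QuotientGroup.mk (ModularGroup.S * ModularGroup.T ^ j)⁻¹

theorem ST_entry (j : ℤ) : (ModularGroup.S * ModularGroup.T ^ j) 1 0 = 1 := by
  rw [Matrix.SpecialLinearGroup.coe_mul, ModularGroup.coe_T_zpow]
  simp [ModularGroup.S, Matrix.mul_apply, Fin.sum_univ_two]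

theorem STS_entry (j : ℤ) :
    (ModularGroup.S * ModularGroup.T ^ j * ModularGroup.S⁻¹) 1 0 = -j := by
  rw [Matrix.SpecialLinearGroup.coe_mul, Matrix.SpecialLinearGroup.coe_mul,
    ModularGroup.coe_T_zpow, Matrix.SpecialLinearGroup.coe_inv]
  simp [ModularGroup.S, Matrix.adjugate_fin_two, Matrix.mul_apply, Fin.sum_univ_two]

theorem cos_ne_one (hp : p.Prime) (j : ℕ) : cos p j ≠ QuotientGroup.mk 1 := by
  intro h
  rw [cos, QuotientGroup.eq, inv_inv, mul_one, Gamma0_mem] at h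
  have h1 := ST_entry (j : ℤ)
  rw [zpow_natCast] at h1
  rw [h1] at h
  have : Fact p.Prime := ⟨hp⟩
  simp at h

theorem cos_injOn (p : ℕ) : Set.InjOn (cos p) (Finset.range p : Set ℕ) := by
  intro i hi j hj h
  rw [cos, cos, QuotientGroup.eq, inv_inv, Gamma0_mem] at h
  have e : ModularGroup.S * ModularGroup.T ^ i * (ModularGroup.S * ModularGroup.T ^ j)⁻¹ =
      ModularGroup.S * ModularGroup.T ^ ((i : ℤ) - j) * ModularGroup.S⁻¹ := by
    rw [zpow_sub, zpow_natCast, zpow_natCast]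
    group
  rw [e, STS_entry, ZMod.intCast_zmod_eq_zero_iff_dvd] at h
  have hi' : i < p := Finset.mem_range.mp hi
  have hj' : j < p := Finset.mem_range.mp hj
  have h2 : |(-((i : ℤ) - j))| < p := by
    rw [abs_lt]
    constructor <;> omega
  have h3 := Int.eq_zero_of_abs_lt_dvd h h2
  omega

theorem image_cos (hp : p.Prime) [DecidableEq (X (Gamma0 p))] [Fact p.Prime] :
    (Finset.range p).image (cos p) = Finset.univ.erase (QuotientGroup.mk 1) := by
  apply Finset.eq_of_subset_of_card_le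
  · intro x hx
    obtain ⟨j, -, rfl⟩ := Finset.mem_image.mp hx
    exact Finset.mem_erase.mpr ⟨cos_ne_one hp j, Finset.mem_univ _⟩
  · rw [Finset.card_image_of_injOn (cos_injOn p), Finset.card_range,
      Finset.card_erase_of_mem (Finset.mem_univ _), Finset.card_univ, SturmTwo.card_X]
    simp

theorem vec_cos (hF : ∀ γ ∈ Gamma0 p, F ∣[k] γ = F) (j : ℕ) :
    vec (Gamma0 p) k F (cos p j) = trans k F j := by
  rw [cos, vec_mk hF, inv_inv, trans]

theorem mem_MF_of_isMF [NeZero p] (hF : IsMF (G0 p) k F) : F ∈ MF (Gamma0 p) k := by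
  obtain ⟨f, hf⟩ := hF
  exact mem_MF_iff_exists.mpr ⟨f, hf⟩

theorem sum_vec_eq [Fact p.Prime] (hp : p.Prime) (hF : IsMF (G0 p) k F) :
    ∑ x : X (Gamma0 p), vec (Gamma0 p) k F x = F + ∑ j ∈ Finset.range p, trans k F j := by
  classical
  have hmem := mem_MF_of_isMF hF
  rw [← Finset.add_sum_erase Finset.univ _ (Finset.mem_univ (QuotientGroup.mk 1)),
    vec_one hmem.2.1, ← image_cos hp, Finset.sum_image (cos_injOn p)]
  simp only [vec_cos hmem.2.1]

theorem prod_vec_eq [Fact p.Prime] (hp : p.Prime) (hF : IsMF (G0 p) k F) :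
    ∏ x : X (Gamma0 p), vec (Gamma0 p) k F x = F * ∏ j ∈ Finset.range p, trans k F j := by
  classical
  have hmem := mem_MF_of_isMF hF
  rw [← Finset.mul_prod_erase Finset.univ _ (Finset.mem_univ (QuotientGroup.mk 1)),
    vec_one hmem.2.1, ← image_cos hp, Finset.prod_image (cos_injOn p)]
  simp only [vec_cos hmem.2.1]

/-- the trace of a form is a level one form -/
theorem sum_vec_mem {Γ : Subgroup SL(2, ℤ)} [Γ.FiniteIndex] (hF : F ∈ MF Γ k) :
    (∑ x : X Γ, vec Γ k F x) ∈ MF ⊤ k := by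
  have hinv : ∀ γ : SL(2, ℤ), (∑ x, vec Γ k F x) ∣[k] γ = ∑ x, vec Γ k F x := by
    intro γ
    rw [SlashAction.sum_slash]
    simp_rw [vec_slash hF.2.1]
    exact Equiv.sum_comp (MulAction.toPerm γ⁻¹) (fun x => vec Γ k F x)
  have hsub : ∀ x : X Γ, vec Γ k F x ∈ MF ⊥ k := by
    intro x
    refine ⟨vec_mdiff hF.1 k x, fun γ hγ => ?_, fun δ => ?_⟩
    · rw [Subgroup.mem_bot.mp hγ]; simp
    · rw [vec_slash hF.2.1]
      exact vec_isBoundedAtImInfty hF _
  have hs : (∑ x : X Γ, vec Γ k F x) ∈ MF ⊥ k := Submodule.sum_mem _ fun x _ => hsub x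
  exact ⟨hs.1, fun γ _ => hinv γ, hs.2.2⟩

end Cosets

open Cosets in
/-- `F + ∑_{j<p} F ∣ S T^j` is a level one form. -/
theorem isMF_trace (hp : p.Prime) (hF : IsMF (G0 p) k F) :
    IsMF 𝒮ℒ k (F + ∑ j ∈ Finset.range p, trans k F j) := by
  have : Fact p.Prime := ⟨hp⟩
  rw [← sum_vec_eq hp hF]
  exact Fermat.Agent.S21.mem_MF_top_iff_exists.mp (sum_vec_mem (mem_MF_of_isMF hF))

open Cosets in
/-- `F * ∏_{j<p} F ∣ S T^j` is a level one form of weight `k (p+1)`. -/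
theorem isMF_norm (hp : p.Prime) (hF : IsMF (G0 p) k F) :
    IsMF 𝒮ℒ (k * (p + 1)) (F * ∏ j ∈ Finset.range p, trans k F j) := by
  have : Fact p.Prime := ⟨hp⟩
  rw [← prod_vec_eq hp hF]
  exact Fermat.Agent.S21.mem_MF_top_iff_exists.mp (SturmTwo.prod_vec_mem p (mem_MF_of_isMF hF))

/-- Every `γ ∈ SL₂(ℤ)` is in `Γ₀(p)` or in `Γ₀(p) S T^j`. -/
theorem exists_coset_rep (hp : p.Prime) (γ : SL(2, ℤ)) :
    γ ∈ CongruenceSubgroup.Gamma0 p ∨
      ∃ δ ∈ CongruenceSubgroup.Gamma0 p, ∃ j < p, γ = δ * (ModularGroup.S * ModularGroup.T ^ j) := by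
  have : Fact p.Prime := ⟨hp⟩
  by_cases hγ : γ ∈ CongruenceSubgroup.Gamma0 p
  · exact Or.inl hγ
  right
  obtain ⟨δ, hδ, j, hj⟩ := SturmTwo.exists_decomp p γ hγ
  -- reduce `j` modulo `p`
  have hp0 : (p : ℤ) ≠ 0 := by exact_mod_cast hp.ne_zero
  have hppos : (0 : ℤ) < p := by exact_mod_cast hp.pos
  obtain ⟨i, hi⟩ : ∃ i : ℕ, (i : ℤ) = j % p := ⟨(j % p).toNat, Int.toNat_of_nonneg
    (Int.emod_nonneg _ hp0)⟩
  have hip : i < p := by
    have := Int.emod_lt_of_pos j hppos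
    rw [← hi] at this
    exact_mod_cast this
  refine ⟨δ * (ModularGroup.S * ModularGroup.T ^ ((p : ℤ) * (j / p)) * ModularGroup.S⁻¹),
    mul_mem hδ ?_, i, hip, ?_⟩
  · rw [CongruenceSubgroup.Gamma0_mem, Cosets.STS_entry]
    simp
  · have hjj : j = (p : ℤ) * (j / p) + i := by rw [hi]; exact (Int.mul_ediv_add_emod j p).symm
    rw [hj]
    conv_lhs => rw [hjj]
    rw [zpow_add, zpow_natCast]
    group

end Fermat.Agent.S16
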