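import Fermat.Agent.S16.Basic

/-!
# S16/Fricke: the Fricke operator `F ↦ F^w = F ∣[k] [[0,-1],[p,0]]` on `M_k(Γ₀(p))`

`fricke p k F = (F ∣[k] S) ∣[k] diag(p,1)`; note `S * diag(p,1) = [[0,-1],[p,0]] =: W`,
`W⁻¹ Γ₀(p) W = Γ₀(p)`, `W² = -p`.
-/

set_option autoImplicit false

namespace Fermat.Agent.S16

open UpperHalfPlane ModularForm Fermat.Agent.S23
open scoped MatrixGroups Manifold ModularForm

variable {p : ℕ} {k k₁ k₂ : ℤ} {F G : ℍ → ℂ}

theorem fricke_add (p : ℕ) (k : ℤ) (F G : ℍ → ℂ) :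
    fricke p k (F + G) = fricke p k F + fricke p k G := by
  simp [fricke, SlashAction.add_slash]

theorem fricke_neg (p : ℕ) (k : ℤ) (F : ℍ → ℂ) : fricke p k (-F) = -fricke p k F := by
  simp [fricke, SlashAction.neg_slash]

theorem fricke_sub (p : ℕ) (k : ℤ) (F G : ℍ → ℂ) :
    fricke p k (F - G) = fricke p k F - fricke p k G := by
  rw [sub_eq_add_neg, fricke_add, fricke_neg, ← sub_eq_add_neg]

theorem fricke_smul (p : ℕ) (k : ℤ) (c : ℂ) (F : ℍ → ℂ) :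
    fricke p k (c • F) = c • fricke p k F := by
  rw [fricke, fricke, ModularForm.SL_smul_slash, ModularForm.smul_slash, σ_heckeDiagMatrix,
    ContinuousAlgEquiv.refl_apply]

/-- `(F G)^w = p F^w G^w`. -/
theorem fricke_mul (hp : p ≠ 0) (k₁ k₂ : ℤ) (F G : ℍ → ℂ) :
    fricke p (k₁ + k₂) (F * G) = (p : ℂ) • (fricke p k₁ F * fricke p k₂ G) := by
  rw [fricke, fricke, fricke, ModularForm.mul_slash_SL2, ModularForm.mul_slash,
    det_heckeDiagMatrix hp]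
  ext τ
  simp

namespace Fricke

/-- the Fricke matrix `[[0,-1],[p,0]]` -/
noncomputable def W (p : ℕ) : GL (Fin 2) ℝ :=
  Matrix.SpecialLinearGroup.mapGL ℝ ModularGroup.S * heckeDiagMatrix p

theorem fricke_eq (p : ℕ) (k : ℤ) (F : ℍ → ℂ) : fricke p k F = F ∣[k] W p := by
  rw [W, SlashAction.slash_mul]
  rfl

theorem mapGL_apply (γ : SL(2, ℤ)) (i j : Fin 2) :
    (Matrix.SpecialLinearGroup.mapGL ℝ γ : Matrix (Fin 2) (Fin 2) ℝ) i j = ((γ i j : ℤ) : ℝ) := by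
  rw [Matrix.SpecialLinearGroup.mapGL_coe_matrix]
  rfl

theorem val_W (hp : p ≠ 0) : (W p : Matrix (Fin 2) (Fin 2) ℝ) = !![0, -1; (p : ℝ), 0] := by
  rw [W, Units.val_mul, val_heckeDiagMatrix hp]
  ext i j
  fin_cases i <;> fin_cases j <;>
    simp [ModularGroup.coe_S, Matrix.mul_apply, Fin.sum_univ_two]

theorem IsMF.mono {Γ Γ' : Subgroup (GL (Fin 2) ℝ)} (h : Γ' ≤ Γ) (hF : IsMF Γ k F) :
    IsMF Γ' k F := by
  obtain ⟨f, rfl⟩ := hF
  exact ⟨{ toFun := f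
           slash_action_eq' := fun γ hγ => f.slash_action_eq' γ (h hγ)
           holo' := f.holo'
           bdd_at_cusps' := fun hc => f.bdd_at_cusps' (hc.mono h) }, rfl⟩

/-- the conjugate `W γ W⁻¹ = [[d, -c/p], [-p b, a]]` -/
theorem exists_conj (hp : p ≠ 0) (γ : SL(2, ℤ)) (hγ : γ ∈ CongruenceSubgroup.Gamma0 p) :
    ∃ γ' ∈ CongruenceSubgroup.Gamma0 p, W p * Matrix.SpecialLinearGroup.mapGL ℝ γ =
      Matrix.SpecialLinearGroup.mapGL ℝ γ' * W p := by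
  rw [CongruenceSubgroup.Gamma0_mem, ZMod.intCast_zmod_eq_zero_iff_dvd] at hγ
  obtain ⟨c', hc'⟩ := hγ
  have hdet : γ 0 0 * γ 1 1 - γ 0 1 * γ 1 0 = 1 := by
    have := γ.det_coe
    rwa [Matrix.det_fin_two] at this
  obtain ⟨γ', h00, h01, h10, h11⟩ : ∃ γ' : SL(2, ℤ), γ' 0 0 = γ 1 1 ∧ γ' 0 1 = -c' ∧
      γ' 1 0 = -(p : ℤ) * γ 0 1 ∧ γ' 1 1 = γ 0 0 := by
    refine ⟨⟨!![γ 1 1, -c'; -(p : ℤ) * γ 0 1, γ 0 0], ?_⟩, rfl, rfl, rfl, rfl⟩
    rw [Matrix.det_fin_two_of]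
    rw [hc'] at hdet
    linarith
  refine ⟨γ', ?_, ?_⟩
  · rw [CongruenceSubgroup.Gamma0_mem, ZMod.intCast_zmod_eq_zero_iff_dvd, h10]
    exact ⟨-γ 0 1, by ring⟩
  · apply Units.ext
    rw [Units.val_mul, Units.val_mul, val_W hp]
    ext i j
    fin_cases i <;> fin_cases j <;>
      simp only [Fin.zero_eta, Fin.mk_one, Fin.isValue, Matrix.mul_apply, Fin.sum_univ_two,
        mapGL_apply, h00, h01, h10, h11, hc', Matrix.of_apply, Matrix.cons_val_zero,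
        Matrix.cons_val_one, Matrix.cons_val', Matrix.cons_val_fin_one] <;>
      push_cast <;> ring

open ConjAct Pointwise in
theorem G0_le_conj (hp : p ≠ 0) : G0 p ≤ toConjAct (W p)⁻¹ • G0 p := by
  rintro _ ⟨γ, hγ, rfl⟩
  rw [map_inv, Subgroup.mem_inv_pointwise_smul_iff, toConjAct_smul]
  obtain ⟨γ', hγ', h⟩ := exists_conj hp γ hγ
  rw [h, mul_inv_cancel_right]
  exact ⟨γ', hγ', rfl⟩

/-- the scalar matrix `p` -/
noncomputable def scal (p : ℕ) (hp : p ≠ 0) : GL (Fin 2) ℝ :=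
  upperTriangularGL p 0 p (by positivity)

theorem W_mul_W (hp : p ≠ 0) :
    W p * W p = Matrix.SpecialLinearGroup.mapGL ℝ (-1 : SL(2, ℤ)) * scal p hp := by
  apply Units.ext
  rw [Units.val_mul, Units.val_mul, val_W hp, scal, val_upperTriangularGL]
  ext i j
  fin_cases i <;> fin_cases j <;>
    simp [Matrix.mul_apply, Fin.sum_univ_two]

theorem slash_scal (hp : p ≠ 0) (k : ℤ) (F : ℍ → ℂ) :
    F ∣[k] scal p hp = (p : ℂ) ^ (k - 2) • F := by
  have hp' : (p : ℂ) ≠ 0 := by exact_mod_cast hp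
  have hdet : ((scal p hp).det : ℝ) = (p : ℝ) * p := by
    rw [Matrix.GeneralLinearGroup.val_det_apply, scal, val_upperTriangularGL,
      Matrix.det_fin_two_of]
    ring
  have hpos : 0 < ((scal p hp).det : ℝ) := by rw [hdet]; positivity
  have hden : ∀ τ : ℍ, denom (scal p hp) τ = p := by
    intro τ
    simp [denom, scal]
  have hsm : ∀ τ : ℍ, scal p hp • τ = τ := by
    intro τ
    apply UpperHalfPlane.ext
    rw [UpperHalfPlane.coe_smul_of_det_pos hpos, hden]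
    simp [num, scal]
    field_simp
  ext τ
  rw [ModularForm.slash_apply, UpperHalfPlane.σ, if_pos hpos, hdet, hden, hsm]
  simp only [ContinuousAlgEquiv.refl_apply, Pi.smul_apply, smul_eq_mul]
  rw [abs_of_pos (by positivity)]
  push_cast
  rw [mul_zpow, mul_assoc, ← zpow_add₀ hp', ← zpow_add₀ hp', mul_comm]
  congr 2
  ring

end Fricke

open Fricke in
/-- `W` normalises `Γ₀(p)`. -/
theorem isMF_fricke [NeZero p] (hF : IsMF (G0 p) k F) : IsMF (G0 p) k (fricke p k F) := by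
  obtain ⟨f, rfl⟩ := hF
  rw [fricke_eq]
  exact IsMF.mono (G0_le_conj (NeZero.ne p)) ⟨ModularForm.translate f (W p), rfl⟩

open Fricke in
/-- `W² = -p`, and `-1 ∈ Γ₀(p)`. -/
theorem fricke_fricke [NeZero p] (hF : IsMF (G0 p) k F) :
    fricke p k (fricke p k F) = (p : ℂ) ^ (k - 2) • F := by
  obtain ⟨f, rfl⟩ := hF
  rw [fricke_eq, fricke_eq, ← SlashAction.slash_mul, W_mul_W (NeZero.ne p), SlashAction.slash_mul,
    slash_scal]
  congr 1
  have h1 : (-1 : SL(2, ℤ)) ∈ CongruenceSubgroup.Gamma0 p := by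
    rw [CongruenceSubgroup.Gamma0_mem]
    simp
  exact f.slash_action_eq' _ ⟨-1, h1, rfl⟩

/-- On level one forms `T^w = p^(k-1) V_p T`. -/
theorem fricke_levelOne (hp : p ≠ 0) (hF : IsMF 𝒮ℒ k F) :
    fricke p k F = (p : ℂ) ^ (k - 1) • Vp p F := by
  obtain ⟨f, rfl⟩ := hF
  rw [← slash_diag_eq_Vp hp, fricke]
  congr 1
  exact f.slash_action_eq' _ ⟨ModularGroup.S, rfl⟩

theorem Fricke.Vp_eq (hp : p ≠ 0) (hF : IsMF 𝒮ℒ k F) :
    Vp p F = (p : ℂ) ^ (1 - k) • fricke p k F := by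
  have hp' : (p : ℂ) ≠ 0 := by exact_mod_cast hp
  rw [fricke_levelOne hp hF, smul_smul, ← zpow_add₀ hp']
  simp

/-- `V_p T ∈ M_k(Γ₀(p))` for `T` of level one. -/
theorem isMF_Vp [NeZero p] (hF : IsMF 𝒮ℒ k F) : IsMF (G0 p) k (Vp p F) := by
  rw [Fricke.Vp_eq (NeZero.ne p) hF]
  exact isMF_smul _ (isMF_fricke (IsMF.of_levelOne p hF))

/-- `(V_p T)^w = p⁻¹ T` for `T` of level one. -/
theorem fricke_Vp [NeZero p] (hF : IsMF 𝒮ℒ k F) :
    fricke p k (Vp p F) = (p : ℂ)⁻¹ • F := by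
  have hp' : (p : ℂ) ≠ 0 := by exact_mod_cast NeZero.ne p
  rw [Fricke.Vp_eq (NeZero.ne p) hF, fricke_smul, fricke_fricke (IsMF.of_levelOne p hF), smul_smul,
    ← zpow_add₀ hp', ← zpow_neg_one]
  congr 2
  ring

end Fermat.Agent.S16
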