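import Fermat.Agent.S16.Basic

/-!
# S16/FrickeHecke: `T_r` commutes with the Fricke operator (`r ≠ p` prime)

With `W = [[0,-1],[p,0]]`: `diag(r,1) W = W [[1,0],[0,r]]`, `[[1,0],[0,r]] W = W diag(r,1)` and for
`0 < j < r`: `[[1,j],[0,r]] W = γ W [[1,j'],[0,r]]` with
`γ = [[(1+p j j')/r, j],[p j', r]] ∈ Γ₀(p)`, `p j j' ≡ -1 mod r`.
-/

set_option autoImplicit false

namespace Fermat.Agent.S16

open UpperHalfPlane ModularForm Fermat.Agent.S23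
open scoped MatrixGroups Manifold ModularForm

namespace FrickeHecke

/-- the Fricke matrix `[[0,-1],[p,0]]` -/
noncomputable def Wm (p : ℕ) : GL (Fin 2) ℝ :=
  (Matrix.SpecialLinearGroup.mapGL ℝ ModularGroup.S) * heckeDiagMatrix p

theorem fricke_eq (p : ℕ) (k : ℤ) (F : ℍ → ℂ) : fricke p k F = F ∣[k] Wm p := by
  rw [fricke, Wm, SlashAction.slash_mul, SL_slash]
  rfl

theorem val_Wm {p : ℕ} (hp : p ≠ 0) :
    ((Wm p : GL (Fin 2) ℝ) : Matrix (Fin 2) (Fin 2) ℝ) = !![0, -1; (p : ℝ), 0] := by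
  rw [Wm, Units.val_mul, val_heckeDiagMatrix hp]
  ext i j
  fin_cases i <;> fin_cases j <;> simp [ModularGroup.coe_S, Matrix.mul_apply, Fin.sum_univ_two]

theorem diag_mul_W {p r : ℕ} (hp : p ≠ 0) (hr : r ≠ 0) :
    heckeDiagMatrix r * Wm p = Wm p * heckeMatrix r 0 := by
  apply Units.ext
  rw [Units.val_mul, Units.val_mul, val_Wm hp, val_heckeDiagMatrix hr, val_heckeMatrix hr]
  ext i j
  fin_cases i <;> fin_cases j <;> simp [Matrix.mul_apply, Fin.sum_univ_two]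

theorem zero_mul_W {p r : ℕ} (hp : p ≠ 0) (hr : r ≠ 0) :
    heckeMatrix r 0 * Wm p = Wm p * heckeDiagMatrix r := by
  apply Units.ext
  rw [Units.val_mul, Units.val_mul, val_Wm hp, val_heckeDiagMatrix hr, val_heckeMatrix hr]
  ext i j
  fin_cases i <;> fin_cases j <;> simp [Matrix.mul_apply, Fin.sum_univ_two, mul_comm]

theorem j_mul_W {p r : ℕ} (hp : p ≠ 0) (hr : r ≠ 0) (j j' : ℕ) (γ : SL(2, ℤ))
    (h00 : (γ 0 0) * r = 1 + p * j * j') (h01 : γ 0 1 = j) (h10 : γ 1 0 = p * j') (h11 : γ 1 1 = r) :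
    heckeMatrix r j * Wm p =
      (Matrix.SpecialLinearGroup.mapGL ℝ γ) * (Wm p * heckeMatrix r j') := by
  apply Units.ext
  rw [Units.val_mul, Units.val_mul, Units.val_mul, val_Wm hp, val_heckeMatrix hr, val_heckeMatrix hr]
  have h00' : ((γ 0 0 : ℤ) : ℝ) * r = 1 + p * j * j' := by exact_mod_cast h00
  ext i l
  fin_cases i <;> fin_cases l <;>
    simp [Matrix.mul_apply, Fin.sum_univ_two, h01, h10, h11] <;> first | ring1 | linarith

/-- the involution `j ↦ -(p j)⁻¹` on `{1, …, r-1}` -/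
noncomputable def piMap (p r j : ℕ) : ℕ := (-((p : ZMod r) * (j : ZMod r))⁻¹).val

section arith

variable {p r : ℕ} [Fact r.Prime]

theorem pj_ne_zero (hpr : ¬ r ∣ p) {j : ℕ} (hj : j ∈ Finset.Ico 1 r) :
    ((p : ZMod r) * (j : ZMod r)) ≠ 0 := by
  obtain ⟨h1, h2⟩ := Finset.mem_Ico.mp hj
  refine mul_ne_zero ?_ ?_
  · rwa [Ne, ZMod.natCast_eq_zero_iff]
  · rw [Ne, ZMod.natCast_eq_zero_iff]
    exact Nat.not_dvd_of_pos_of_lt h1 h2

theorem piMap_cast (p r j : ℕ) [Fact r.Prime] :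
    ((piMap p r j : ℕ) : ZMod r) = -((p : ZMod r) * (j : ZMod r))⁻¹ :=
  ZMod.natCast_zmod_val _

theorem piMap_mem (hpr : ¬ r ∣ p) {j : ℕ} (hj : j ∈ Finset.Ico 1 r) :
    piMap p r j ∈ Finset.Ico 1 r := by
  refine Finset.mem_Ico.mpr ⟨?_, ZMod.val_lt _⟩
  rw [Nat.one_le_iff_ne_zero, piMap, Ne, ZMod.val_eq_zero, neg_eq_zero, inv_eq_zero]
  exact pj_ne_zero hpr hj

theorem piMap_piMap (hpr : ¬ r ∣ p) {j : ℕ} (hj : j ∈ Finset.Ico 1 r) :
    piMap p r (piMap p r j) = j := by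
  have hp0 : (p : ZMod r) ≠ 0 := left_ne_zero_of_mul (pj_ne_zero hpr hj)
  have hj0 : (j : ZMod r) ≠ 0 := right_ne_zero_of_mul (pj_ne_zero hpr hj)
  have h1 : -((p : ZMod r) * ((piMap p r j : ℕ) : ZMod r))⁻¹ = (j : ZMod r) := by
    rw [piMap_cast]
    field_simp
  conv_lhs => rw [piMap]
  rw [h1, ZMod.val_natCast_of_lt (Finset.mem_Ico.mp hj).2]

theorem exists_gamma (hpr : ¬ r ∣ p) {j : ℕ} (hj : j ∈ Finset.Ico 1 r) :
    ∃ γ : SL(2, ℤ), γ ∈ CongruenceSubgroup.Gamma0 p ∧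
      (γ 0 0) * r = 1 + p * j * (piMap p r j : ℕ) ∧ γ 0 1 = j ∧
      γ 1 0 = p * (piMap p r j : ℕ) ∧ γ 1 1 = r := by
  have hdvd : (r : ℤ) ∣ 1 + p * j * (piMap p r j : ℕ) := by
    rw [← ZMod.intCast_zmod_eq_zero_iff_dvd]
    push_cast
    rw [piMap_cast, mul_neg, mul_inv_cancel₀ (pj_ne_zero hpr hj)]
    ring
  obtain ⟨a, ha⟩ := hdvd
  have hdet : (!![a, (j : ℤ); (p : ℤ) * (piMap p r j : ℕ), (r : ℤ)]).det = 1 := by
    rw [Matrix.det_fin_two_of]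
    linarith
  obtain ⟨γ, hγ⟩ : ∃ γ : SL(2, ℤ), (γ : Matrix (Fin 2) (Fin 2) ℤ) =
      !![a, (j : ℤ); (p : ℤ) * (piMap p r j : ℕ), (r : ℤ)] := ⟨⟨_, hdet⟩, rfl⟩
  refine ⟨γ, ?_, ?_, ?_, ?_, ?_⟩
  · rw [CongruenceSubgroup.Gamma0_mem, hγ]
    simp
  · rw [hγ]
    simp only [Matrix.of_apply, Matrix.cons_val_zero]
    linarith
  · rw [hγ]; simp
  · rw [hγ]; simp
  · rw [hγ]; simp

end arith

end FrickeHecke

open FrickeHecke in
theorem fricke_heckeT {p r : ℕ} (hp : p.Prime) (hr : r.Prime) (hrp : r ≠ p) {k : ℤ} {F : ℍ → ℂ}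
    (hF : IsMF (G0 p) k F) :
    fricke p k (heckeT k r F) = heckeT k r (fricke p k F) := by
  have : Fact r.Prime := ⟨hr⟩
  have hp0 : p ≠ 0 := hp.ne_zero
  have hr0 : r ≠ 0 := hr.ne_zero
  have hpr : ¬ r ∣ p := fun h => hrp ((Nat.prime_dvd_prime_iff_eq hr hp).mp h)
  have hinv : ∀ γ ∈ CongruenceSubgroup.Gamma0 p,
      F ∣[k] (Matrix.SpecialLinearGroup.mapGL ℝ γ) = F := by
    obtain ⟨f, rfl⟩ := hF
    intro γ hγ
    exact SlashInvariantFormClass.slash_action_eq f _ ⟨γ, hγ, rfl⟩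
  rw [fricke_eq, fricke_eq, heckeT_def, heckeT_def, SlashAction.add_slash, SlashAction.sum_slash]
  simp only [← SlashAction.slash_mul]
  rw [diag_mul_W hp0 hr0, Finset.range_eq_Ico, Finset.sum_eq_sum_Ico_succ_bot hr.pos,
    Finset.sum_eq_sum_Ico_succ_bot hr.pos, zero_mul_W hp0 hr0]
  have hsum : ∑ j ∈ Finset.Ico (0 + 1) r, F ∣[k] (heckeMatrix r j * Wm p) =
      ∑ j ∈ Finset.Ico (0 + 1) r, F ∣[k] (Wm p * heckeMatrix r j) := by
    rw [zero_add]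
    refine Finset.sum_nbij' (piMap p r) (piMap p r) (fun j hj => piMap_mem hpr hj)
      (fun j hj => piMap_mem hpr hj) (fun j hj => piMap_piMap hpr hj)
      (fun j hj => piMap_piMap hpr hj) (fun j hj => ?_)
    obtain ⟨γ, hγ, h00, h01, h10, h11⟩ := exists_gamma hpr hj
    rw [j_mul_W hp0 hr0 j (piMap p r j) γ h00 h01 h10 h11, SlashAction.slash_mul, hinv γ hγ]
  rw [hsum]
  abel

end Fermat.Agent.S16
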