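import Fermat.Agent.S23.LevelOne
import Fermat.Agent.S28.QExpDelta

/-!
# S16 module (S1): the level one Sturm bound modulo an arbitrary additive subgroup

If `f` is a level one modular form of weight `k` and `J` is *any* additive subgroup of `ℂ` which
contains the `q`-coefficients `a_n(f)` for `12 n ≤ k`, then `J` contains all the coefficients.
-/

set_option autoImplicit false

namespace Fermat.Agent.S16

open UpperHalfPlane ModularForm EisensteinSeries ModularCurve
open scoped MatrixGroups Manifold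
open Fermat.Agent.S23 (IsInt qe)

namespace SturmOne

/-- all coefficients of the power series lie in `J` -/
def CoeffIn (J : AddSubgroup ℂ) (P : PowerSeries ℂ) : Prop := ∀ n, P.coeff n ∈ J

theorem CoeffIn.add {J : AddSubgroup ℂ} {P Q : PowerSeries ℂ} (hP : CoeffIn J P)
    (hQ : CoeffIn J Q) : CoeffIn J (P + Q) := fun n => by
  rw [map_add]; exact J.add_mem (hP n) (hQ n)

theorem CoeffIn.sub {J : AddSubgroup ℂ} {P Q : PowerSeries ℂ} (hP : CoeffIn J P)
    (hQ : CoeffIn J Q) : CoeffIn J (P - Q) := fun n => by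
  rw [map_sub]; exact J.sub_mem (hP n) (hQ n)

theorem CoeffIn.zero (J : AddSubgroup ℂ) : CoeffIn J 0 := fun n => by simp

theorem int_mul_mem {J : AddSubgroup ℂ} (z : ℤ) {x : ℂ} (hx : x ∈ J) : (z : ℂ) * x ∈ J := by
  have := J.zsmul_mem hx z
  rwa [zsmul_eq_mul] at this

/-- an integral power series times a power series with coefficients in `J` -/
theorem CoeffIn.isInt_mul {J : AddSubgroup ℂ} {P Q : PowerSeries ℂ} (hP : IsInt P)
    (hQ : CoeffIn J Q) : CoeffIn J (P * Q) := fun n => by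
  rw [PowerSeries.coeff_mul]
  refine J.sum_mem fun x _ => ?_
  obtain ⟨z, hz⟩ := hP x.1
  rw [hz]
  exact int_mul_mem z (hQ x.2)

theorem CoeffIn.smul_isInt {J : AddSubgroup ℂ} {c : ℂ} (hc : c ∈ J) {P : PowerSeries ℂ}
    (hP : IsInt P) : CoeffIn J (c • P) := fun n => by
  obtain ⟨z, hz⟩ := hP n
  rw [PowerSeries.coeff_smul, hz, smul_eq_mul, mul_comm]
  exact int_mul_mem z hc

theorem isInt_map (P : PowerSeries ℤ) : IsInt (P.map (Int.castRingHom ℂ)) := fun n =>
  ⟨P.coeff n, by simp⟩

theorem isInt_E4 : IsInt (qe E₄) := by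
  intro m
  rw [qe, E_qExpansion_coeff (by norm_num) (by decide) m]
  have hb : bernoulli 4 = -1 / 30 := by
    rw [bernoulli_eq_bernoulli'_of_ne_one (by norm_num), bernoulli'_four]
  split_ifs with h
  · exact ⟨1, by simp⟩
  · refine ⟨240 * (ArithmeticFunction.sigma 3 m : ℕ), ?_⟩
    rw [hb]
    push_cast
    norm_num

theorem isInt_E6 : IsInt (qe E₆) := by
  intro m
  rw [qe, E_qExpansion_coeff (by norm_num) (by decide) m]
  have hb : bernoulli 6 = 1 / 42 := by decide +kernel
  split_ifs with h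
  · exact ⟨1, by simp⟩
  · refine ⟨-504 * (ArithmeticFunction.sigma 5 m : ℕ), ?_⟩
    rw [hb]
    push_cast
    norm_num

theorem isInt_discriminant : IsInt (qe ModularForm.discriminant) := by
  rw [qe, Fermat.Agent.S28.qExpansion_discriminant]
  exact isInt_map _

/-- for every even weight `m ≠ 2` there is a level one form with integral `q`-expansion and
constant term `1` -/
theorem exists_monic_int : ∀ m : ℕ, Even m → m ≠ 2 →
    ∃ G : ModularForm 𝒮ℒ (m : ℤ), IsInt (qe G) ∧ (qe G).coeff 0 = 1 := by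
  intro m
  induction m using Nat.strong_induction_on with
  | _ m ih =>
  intro hm hm2
  by_cases h0 : m = 0
  · subst h0
    refine ⟨ModularForm.mcast (by simp) (1 : ModularForm 𝒮ℒ 0), ?_, ?_⟩
    · have : (⇑(ModularForm.mcast (by simp) (1 : ModularForm 𝒮ℒ 0) :
          ModularForm 𝒮ℒ ((0 : ℕ) : ℤ)) : ℍ → ℂ) = 1 := by ext z; simp [mcast_apply]
      rw [this, qe, qExpansion_one]
      exact Fermat.Agent.S23.IsInt.one
    · have : (⇑(ModularForm.mcast (by simp) (1 : ModularForm 𝒮ℒ 0) :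
          ModularForm 𝒮ℒ ((0 : ℕ) : ℤ)) : ℍ → ℂ) = 1 := by ext z; simp [mcast_apply]
      rw [this, qe, qExpansion_one]
      simp
  by_cases h6 : m = 6
  · subst h6
    exact ⟨E₆, isInt_E6, E_qExpansion_coeff_zero (by norm_num) (by decide)⟩
  have h4 : 4 ≤ m := by
    obtain ⟨t, ht⟩ := hm
    omega
  obtain ⟨G, hG, hG0⟩ := ih (m - 4) (by omega) (by
    obtain ⟨t, ht⟩ := hm
    exact ⟨t - 2, by omega⟩) (by omega)
  refine ⟨ModularForm.mcast (by push_cast [Nat.cast_sub h4]; ring) (E₄.mul G), ?_, ?_⟩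
  all_goals
    have e : qe (⇑(ModularForm.mcast (by push_cast [Nat.cast_sub h4]; ring) (E₄.mul G) :
        ModularForm 𝒮ℒ (m : ℤ)) : ℍ → ℂ) = qe E₄ * qe G := by
      have : (⇑(ModularForm.mcast (by push_cast [Nat.cast_sub h4]; ring) (E₄.mul G) :
        ModularForm 𝒮ℒ (m : ℤ)) : ℍ → ℂ) = ⇑(E₄.mul G) := by ext z; simp [mcast_apply]
      rw [this]
      exact ModularForm.qExpansion_mul one_pos one_mem_strictPeriods_SL _ _
    rw [e]
  · exact isInt_E4.mul hG
  · have h40 : (qe E₄).coeff 0 = 1 := E_qExpansion_coeff_zero (by norm_num) (by decide)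
    rw [PowerSeries.coeff_zero_eq_constantCoeff_apply] at h40 hG0 ⊢
    rw [map_mul, h40, hG0, one_mul]

/-- division by `Δ` on the level of coefficients -/
theorem coeff_mem_of_discriminant_mul {J : AddSubgroup ℂ} {R : PowerSeries ℂ} (B : ℕ)
    (h : ∀ n ≤ B + 1, (qe ModularForm.discriminant * R).coeff n ∈ J) :
    ∀ n ≤ B, R.coeff n ∈ J := by
  set u : PowerSeries ℂ := dedekindEtaUnit.map (Int.castRingHom ℂ) with hu
  set v : PowerSeries ℂ := dedekindEtaUnitInv.map (Int.castRingHom ℂ) with hv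
  have hvu : v * u = 1 := by
    rw [hu, hv, ← map_mul, mul_comm, dedekindEtaUnit_mul_inv, map_one]
  have hD : qe ModularForm.discriminant = PowerSeries.X * u := by
    rw [qe, Fermat.Agent.S28.qExpansion_discriminant, Fermat.Agent.S28.DC, map_mul,
      PowerSeries.map_X]
  have hS : ∀ n ≤ B, (u * R).coeff n ∈ J := by
    intro n hn
    have := h (n + 1) (by omega)
    rwa [hD, mul_assoc, PowerSeries.coeff_succ_X_mul] at this
  have hR : R = v * (u * R) := by rw [← mul_assoc, hvu, one_mul]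
  intro n hn
  rw [hR, PowerSeries.coeff_mul]
  refine J.sum_mem fun x hx => ?_
  obtain ⟨z, hz⟩ := isInt_map dedekindEtaUnitInv x.1
  rw [hv, hz]
  have hx2 : x.2 ≤ n := by
    have := Finset.HasAntidiagonal.mem_antidiagonal.mp hx
    omega
  exact int_mul_mem z (hS x.2 (hx2.trans hn))

theorem sturm_levelOne_aux (J : AddSubgroup ℂ) : ∀ (N : ℕ) (k : ℤ), k < N →
    ∀ f : ModularForm 𝒮ℒ k, (∀ n : ℕ, 12 * (n : ℤ) ≤ k → (qe f).coeff n ∈ J) →
      CoeffIn J (qe f) := by
  intro N
  induction N using Nat.strong_induction_on with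
  | _ N ih =>
  intro k hkN f hf
  have hzero' : (⇑f : ℍ → ℂ) = 0 → CoeffIn J (qe f) := by
    intro h
    rw [h, qe, qExpansion_zero]
    exact CoeffIn.zero J
  have hzero : f = 0 → CoeffIn J (qe f) := by
    intro h
    apply hzero'
    rw [h, FunLike.coe_zero]
  rcases lt_or_ge k 0 with hk | hk
  · exact hzero' (ModularFormClass.levelOne_neg_weight_eq_zero hk f)
  obtain ⟨m, rfl⟩ : ∃ m : ℕ, k = m := ⟨k.toNat, (Int.toNat_of_nonneg hk).symm⟩
  rcases Nat.even_or_odd m with hm | hm
  swap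
  · exact hzero (ModularForm.levelOne_odd_weight_eq_zero (by exact_mod_cast hm) f)
  by_cases hm2 : m = 2
  · subst hm2
    exact hzero ((rank_zero_iff_forall_zero.1 levelOne_weight_two_rank_zero) f)
  obtain ⟨G, hG, hG0⟩ := exists_monic_int m hm hm2
  set a : ℂ := (qe f).coeff 0 with ha
  have haJ : a ∈ J := hf 0 (by simp)
  obtain ⟨g, hg⟩ : ∃ g : ModularForm 𝒮ℒ (m : ℤ), g = f - a • G := ⟨_, rfl⟩
  have hqg : qe g = qe f - a • qe G := by
    rw [hg, qe, FunLike.coe_sub, ModularForm.qExpansion_sub one_pos one_mem_strictPeriods_SL,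
      FunLike.coe_smul, ModularForm.qExpansion_smul one_pos one_mem_strictPeriods_SL]
  have hcusp : (qExpansion 1 g).coeff 0 = 0 := by
    change (qe g).coeff 0 = 0
    rw [hqg, map_sub, PowerSeries.coeff_smul, hG0, smul_eq_mul, mul_one, ha, sub_self]
  obtain ⟨f', hf'⟩ : ∃ f' : ModularForm 𝒮ℒ ((m : ℤ) - 12),
      f' = CuspForm.discriminantEquiv (toCuspForm g hcusp) := ⟨_, rfl⟩
  have hfac : qe g = qe ModularForm.discriminant * qe f' := by
    rw [hf']
    exact qExpansion_eq_qExpansion_discriminant_mul g hcusp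
  have haG : CoeffIn J (a • qe G) := CoeffIn.smul_isInt haJ hG
  have hIH : CoeffIn J (qe f') := by
    have hmN : m < N := by exact_mod_cast hkN
    refine ih m hmN _ (by omega) f' fun n hn => ?_
    refine coeff_mem_of_discriminant_mul n (fun i hi => ?_) n le_rfl
    rw [← hfac, hqg, map_sub]
    refine J.sub_mem (hf i ?_) (haG i)
    have : (i : ℤ) ≤ n + 1 := by exact_mod_cast hi
    omega
  have hfin : qe f = qe ModularForm.discriminant * qe f' + a • qe G := by
    rw [← hfac, hqg]; abel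
  rw [hfin]
  exact (CoeffIn.isInt_mul isInt_discriminant hIH).add haG

end SturmOne

/-- **(S1) Level one Sturm bound modulo any additive subgroup `J` of `ℂ`.** -/
theorem sturm_levelOne (J : AddSubgroup ℂ) {k : ℤ} (f : ModularForm 𝒮ℒ k)
    (hf : ∀ n : ℕ, 12 * (n : ℤ) ≤ k → (qExpansion 1 f).coeff n ∈ J) (n : ℕ) :
    (qExpansion 1 f).coeff n ∈ J :=
  SturmOne.sturm_levelOne_aux J (k.toNat + 1) k (by have := Int.self_le_toNat k; push_cast; omega) f hf n

end Fermat.Agent.S16
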