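import Fermat.Agent.S16.Basic
import Fermat.Agent.S16.SturmOne

/-!
# S16/LevelOneQ: `q`-expansions of `E₄`, `E₆`, `Δ`
-/

set_option autoImplicit false

namespace Fermat.Agent.S16

open UpperHalfPlane ModularForm Fermat.Agent.S23
open scoped MatrixGroups Manifold ModularForm ArithmeticFunction.sigma

theorem coeff_E4 (n : ℕ) : (qe E4f).coeff n = if n = 0 then 1 else 240 * (σ 3 n : ℂ) := by
  rw [qe, EisensteinSeries.E_qExpansion_coeff (by norm_num) (by decide) n]
  have hb : bernoulli 4 = -1 / 30 := by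
    rw [bernoulli_eq_bernoulli'_of_ne_one (by norm_num), bernoulli'_four]
  split_ifs with h
  · rfl
  · rw [hb]
    push_cast
    norm_num

theorem coeff_E6 (n : ℕ) : (qe E6f).coeff n = if n = 0 then 1 else -504 * (σ 5 n : ℂ) := by
  rw [qe, EisensteinSeries.E_qExpansion_coeff (by norm_num) (by decide) n]
  have hb : bernoulli 6 = 1 / 42 := by decide +kernel
  split_ifs with h
  · rfl
  · rw [hb]
    push_cast
    norm_num

/-- `8 ∣ σ₅(n) - σ₃(n)` (`d³(d²-1) ≡ 0 mod 8`). -/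
theorem eight_dvd_sigma (n : ℕ) : (8 : ℤ) ∣ (σ 5 n : ℤ) - σ 3 n := by
  rw [ArithmeticFunction.sigma_apply, ArithmeticFunction.sigma_apply]
  push_cast
  rw [← Finset.sum_sub_distrib]
  refine Finset.dvd_sum fun d _ => ?_
  have key : ∀ r : ZMod 8, r ^ 5 - r ^ 3 = 0 := by decide
  have := key (d : ZMod 8)
  have h8 : (((d : ℤ) ^ 5 - (d : ℤ) ^ 3 : ℤ) : ZMod 8) = 0 := by
    push_cast
    exact this
  exact (ZMod.intCast_zmod_eq_zero_iff_dvd _ 8).mp h8

/-- Pointwise `1728 Δ = E₄³ - E₆²` (Mathlib `discriminant_eq_E₄_cube_sub_E₆_sq`). -/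
theorem D_eq : (1728 : ℂ) • Df = E4f ^ 3 - E6f ^ 2 := by
  funext z
  have := ModularForm.discriminant_eq_E₄_cube_sub_E₆_sq z
  simp only [Pi.smul_apply, Pi.sub_apply, Pi.pow_apply, smul_eq_mul]
  change 1728 * discriminant z = E₄ z ^ 3 - E₆ z ^ 2
  rw [this]
  ring

/-- `Δ` has integral `q`-expansion. -/
theorem isInt_D : IsInt (qe Df) := SturmOne.isInt_discriminant

theorem coeff_D_zero : (qe Df).coeff 0 = 0 := by
  rw [qe, Fermat.Agent.S28.qExpansion_discriminant, Fermat.Agent.S28.DC, map_mul,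
    PowerSeries.map_X, PowerSeries.coeff_zero_X_mul]

theorem coeff_D_one : (qe Df).coeff 1 = 1 := by
  rw [qe, Fermat.Agent.S28.qExpansion_discriminant, Fermat.Agent.S28.DC, map_mul,
    PowerSeries.map_X, show (1 : ℕ) = 0 + 1 from rfl, PowerSeries.coeff_succ_X_mul,
    PowerSeries.coeff_map, PowerSeries.coeff_zero_eq_constantCoeff_apply,
    ModularCurve.constantCoeff_dedekindEtaUnit]
  simp

theorem isInt_E4 : IsInt (qe E4f) := SturmOne.isInt_E4

theorem isInt_E6 : IsInt (qe E6f) := SturmOne.isInt_E6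

/-- `sturm_levelOne` in `IsMF` form. -/
theorem sturm_levelOne' (J : AddSubgroup ℂ) {k : ℤ} {T : ℍ → ℂ} (hT : IsMF 𝒮ℒ k T)
    (h : ∀ n : ℕ, 12 * (n : ℤ) ≤ k → (qe T).coeff n ∈ J) (n : ℕ) : (qe T).coeff n ∈ J := by
  obtain ⟨f, rfl⟩ := hT
  exact sturm_levelOne J f h n

end Fermat.Agent.S16
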