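import Fermat.Agent.S16.VpQ
import Fermat.Agent.S16.LevelOneQ

/-!
# S16/IntQ: calculus of integral `q`-expansions

`HasQ F P` : `F` is nice and `qe F` is the image of `P : ℤ⟦q⟧`.  All congruence arguments of Part B
are then computations in `ℤ⟦q⟧` (or in `(ZMod m)⟦q⟧` via `PowerSeries.map`).
-/

set_option autoImplicit false

namespace Fermat.Agent.S16

open UpperHalfPlane ModularForm Fermat.Agent.S23 PowerSeries
open scoped MatrixGroups Manifold ModularForm ArithmeticFunction.sigma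

/-- `ℤ⟦q⟧ → ℂ⟦q⟧`. -/
noncomputable abbrev toC : PowerSeries ℤ →+* PowerSeries ℂ := PowerSeries.map (Int.castRingHom ℂ)

/-- `F` is nice with integral `q`-expansion `P`. -/
structure HasQ (F : ℍ → ℂ) (P : PowerSeries ℤ) : Prop where
  nice : Nice F
  eq : qe F = toC P

/-- Formal `U_p`. -/
noncomputable def Uf {R : Type} [Semiring R] (p : ℕ) (P : PowerSeries R) : PowerSeries R :=
  PowerSeries.mk fun n => P.coeff (n * p)

/-- Formal `V_p`. -/
noncomputable def Vf {R : Type} [Semiring R] (p : ℕ) (P : PowerSeries R) : PowerSeries R :=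
  PowerSeries.mk fun n => if p ∣ n then P.coeff (n / p) else 0

section formal

variable {R : Type} [CommRing R] (p : ℕ) (P Q : PowerSeries R)

@[simp] theorem coeff_Uf (n : ℕ) : (Uf p P).coeff n = P.coeff (n * p) := by simp [Uf]

@[simp] theorem coeff_Vf (n : ℕ) : (Vf p P).coeff n = if p ∣ n then P.coeff (n / p) else 0 := by
  simp [Vf]

theorem Uf_add : Uf p (P + Q) = Uf p P + Uf p Q := by ext n; simp

theorem Uf_sub : Uf p (P - Q) = Uf p P - Uf p Q := by ext n; simp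

theorem Uf_C_mul (c : R) : Uf p (C c * P) = C c * Uf p P := by ext n; simp

theorem IntQ.Vf_eq_expand (hp : p ≠ 0) : Vf p P = PowerSeries.expand p hp P := by
  ext n
  rw [coeff_Vf, coeff_expand]

theorem Uf_C (hp : p ≠ 0) (c : R) : Uf p (C c) = C c := by
  ext n
  rw [coeff_Uf, coeff_C, coeff_C]
  simp [hp]

theorem Vf_add : Vf p (P + Q) = Vf p P + Vf p Q := by
  ext n
  simp only [coeff_Vf, map_add]
  split_ifs <;> simp

theorem Vf_sub : Vf p (P - Q) = Vf p P - Vf p Q := by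
  ext n
  simp only [coeff_Vf, map_sub]
  split_ifs <;> simp

theorem Vf_C_mul (c : R) : Vf p (C c * P) = C c * Vf p P := by
  ext n
  simp only [coeff_Vf, coeff_C_mul]
  split_ifs <;> simp

theorem Vf_C (hp : p ≠ 0) (c : R) : Vf p (C c) = C c := by
  rw [IntQ.Vf_eq_expand p _ hp, expand_C]

theorem Vf_mul (hp : p ≠ 0) : Vf p (P * Q) = Vf p P * Vf p Q := by
  rw [IntQ.Vf_eq_expand p _ hp, IntQ.Vf_eq_expand p _ hp, IntQ.Vf_eq_expand p _ hp, map_mul]

theorem Uf_Vf (hp : p ≠ 0) : Uf p (Vf p P) = P := by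
  ext n
  rw [coeff_Uf, coeff_Vf, if_pos (dvd_mul_left p n), Nat.mul_div_cancel _ (Nat.pos_of_ne_zero hp)]

theorem Vf_injective (hp : p ≠ 0) : Function.Injective (Vf (R := R) p) := by
  intro P Q h
  rw [← Uf_Vf p P hp, ← Uf_Vf p Q hp, h]

theorem Uf_map {S : Type} [CommRing S] (φ : R →+* S) :
    Uf p (PowerSeries.map φ P) = PowerSeries.map φ (Uf p P) := by
  ext n; simp

theorem Vf_map {S : Type} [CommRing S] (φ : R →+* S) :
    Vf p (PowerSeries.map φ P) = PowerSeries.map φ (Vf p P) := by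
  ext n
  simp only [coeff_Vf, coeff_map]
  split_ifs <;> simp

end formal

/-- Divisibility in `ℤ⟦q⟧` is vanishing in `(ZMod m)⟦q⟧`. -/
theorem map_zmod_eq_zero_iff (m : ℕ) (P : PowerSeries ℤ) :
    PowerSeries.map (Int.castRingHom (ZMod m)) P = 0 ↔ ∃ R : PowerSeries ℤ, P = C (m : ℤ) * R := by
  constructor
  · intro h
    have h1 : ∀ n, (m : ℤ) ∣ P.coeff n := by
      intro n
      have := congrArg (fun S => S.coeff n) h
      simp only [coeff_map, map_zero] at this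
      exact (ZMod.intCast_zmod_eq_zero_iff_dvd _ _).mp this
    choose r hr using h1
    refine ⟨PowerSeries.mk r, ?_⟩
    ext n
    rw [coeff_C_mul, coeff_mk, hr n]
  · rintro ⟨R, rfl⟩
    ext n
    rw [map_mul, PowerSeries.map_C, coeff_C_mul]
    simp

variable {F G : ℍ → ℂ} {P Q : PowerSeries ℤ}

theorem toC_injective : Function.Injective toC := by
  exact PowerSeries.map_injective _ Int.cast_injective

theorem HasQ.coeff (h : HasQ F P) (n : ℕ) : (qe F).coeff n = (P.coeff n : ℂ) := by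
  rw [h.eq]; simp

theorem HasQ.isInt (h : HasQ F P) : IsInt (qe F) := fun n => ⟨P.coeff n, h.coeff n⟩

theorem HasQ.of_isInt (hF : Nice F) (h : IsInt (qe F)) : ∃ P, HasQ F P := by
  choose z hz using h
  refine ⟨PowerSeries.mk z, hF, ?_⟩
  ext n
  rw [hz n]
  simp

theorem HasQ.unique (h : HasQ F P) (h' : HasQ F Q) : P = Q := by
  exact toC_injective (h.eq.symm.trans h'.eq)

/-- Two nice functions with the same `q`-expansion are equal. -/
theorem HasQ.ext (h : HasQ F P) (h' : HasQ G P) : F = G := by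
  have hsub : Nice (F + (-1 : ℂ) • G) := h.nice.add (h'.nice.smul _)
  have h0 : qe (F + (-1 : ℂ) • G) = 0 := by
    rw [Nice.qe_add h.nice (h'.nice.smul _), Nice.qe_smul _ h'.nice, h.eq, h'.eq]
    simp
  have := (Nice.qe_eq_zero_iff hsub).mp h0
  funext τ
  have h2 := congrFun this τ
  simp only [Pi.add_apply, Pi.smul_apply, smul_eq_mul, Pi.zero_apply] at h2
  linear_combination h2

theorem HasQ.add (hF : HasQ F P) (hG : HasQ G Q) : HasQ (F + G) (P + Q) := by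
  exact ⟨hF.nice.add hG.nice, by rw [Nice.qe_add hF.nice hG.nice, hF.eq, hG.eq, map_add]⟩

theorem HasQ.neg (hF : HasQ F P) : HasQ (-F) (-P) := by
  have h1 : -F = (-1 : ℂ) • F := by simp
  rw [h1]
  refine ⟨hF.nice.smul _, ?_⟩
  rw [Nice.qe_smul _ hF.nice, hF.eq, map_neg]
  simp

theorem HasQ.sub (hF : HasQ F P) (hG : HasQ G Q) : HasQ (F - G) (P - Q) := by
  rw [sub_eq_add_neg, sub_eq_add_neg]
  exact hF.add hG.neg

theorem HasQ.mul (hF : HasQ F P) (hG : HasQ G Q) : HasQ (F * G) (P * Q) := by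
  exact ⟨hF.nice.mul hG.nice, by rw [Nice.qe_mul hF.nice hG.nice, hF.eq, hG.eq, map_mul]⟩

theorem HasQ.pow (hF : HasQ F P) (n : ℕ) : HasQ (F ^ n) (P ^ n) := by
  exact ⟨hF.nice.pow n, by rw [Nice.qe_pow hF.nice, hF.eq, map_pow]⟩

theorem HasQ.smul_int (c : ℤ) (hF : HasQ F P) : HasQ ((c : ℂ) • F) (C c * P) := by
  refine ⟨hF.nice.smul _, ?_⟩
  rw [Nice.qe_smul _ hF.nice, hF.eq, map_mul, PowerSeries.smul_eq_C_mul]
  simp

theorem HasQ.div_int {m : ℤ} (hm : m ≠ 0) (hF : HasQ F (C m * P)) : HasQ ((m : ℂ)⁻¹ • F) P := by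
  refine ⟨hF.nice.smul _, ?_⟩
  have hm' : (m : ℂ) ≠ 0 := by exact_mod_cast hm
  rw [Nice.qe_smul _ hF.nice, hF.eq, map_mul, PowerSeries.smul_eq_C_mul, ← mul_assoc]
  have : (C (m : ℂ)⁻¹ : PowerSeries ℂ) * toC (C m) = 1 := by
    rw [show toC (C m) = C (m : ℂ) by simp, ← map_mul, inv_mul_cancel₀ hm', map_one]
  rw [this, one_mul]

theorem HasQ.Vp {p : ℕ} (hp : p ≠ 0) (hF : HasQ F P) : HasQ (Vp p F) (Vf p P) := by
  refine ⟨nice_Vp hp hF.nice, ?_⟩
  ext n
  rw [coeff_Vp hp hF.nice, hF.eq]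
  simp only [coeff_map, coeff_Vf]
  split_ifs <;> simp

theorem HasQ.heckeU {N r : ℕ} [NeZero N] {k : ℤ} (hrN : r ∣ N) (hM : IsMF (G0 N) k F)
    (hF : HasQ F P) : HasQ (heckeU k r F) (Uf r P) := by
  have hr : r ≠ 0 := fun h => NeZero.ne N (by simpa [h] using hrN)
  refine ⟨(isMF_heckeU hrN hM).nice, ?_⟩
  ext n
  rw [coeff_heckeU hr hM, hF.eq]
  simp

theorem HasQ.heckeT {N r : ℕ} {k : ℕ} (hk : 1 ≤ k) (hr : r.Prime) (hrN : ¬ r ∣ N)
    (hM : IsMF (G0 N) (k : ℤ) F) (hF : HasQ F P) :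
    HasQ (heckeT (k : ℤ) r F) (Uf r P + C ((r : ℤ) ^ (k - 1)) * Vf r P) := by
  refine ⟨(isMF_heckeT hr hrN hM).nice, ?_⟩
  ext n
  rw [coeff_heckeT hr.ne_zero hM, hF.eq]
  have hk' : ((k : ℤ) - 1) = ((k - 1 : ℕ) : ℤ) := by omega
  simp only [coeff_map, map_add, coeff_Uf, coeff_C_mul, coeff_Vf, hk', zpow_natCast]
  split_ifs <;> simp

theorem HasQ.dvdQ_iff (hF : HasQ F P) (m : ℤ) :
    DvdQ m (qe F) ↔ ∃ R : PowerSeries ℤ, P = C m * R := by
  constructor
  · intro h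
    choose z hz using h
    refine ⟨PowerSeries.mk z, ?_⟩
    ext n
    have h1 := hz n
    rw [hF.coeff] at h1
    rw [coeff_C_mul, coeff_mk]
    exact_mod_cast h1
  · rintro ⟨R, rfl⟩ n
    exact ⟨R.coeff n, by rw [hF.coeff, coeff_C_mul]⟩

theorem HasQ.congConst_iff (hF : HasQ F P) (m A : ℤ) :
    CongConst m A (qe F) ↔ ∃ R : PowerSeries ℤ, P = C A + C m * R := by
  constructor
  · intro h
    choose z hz using h
    refine ⟨PowerSeries.mk z, ?_⟩
    ext n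
    have h1 := hz n
    rw [hF.coeff] at h1
    rw [map_add, coeff_C_mul, coeff_mk, coeff_C]
    exact_mod_cast h1
  · rintro ⟨R, rfl⟩ n
    exact ⟨R.coeff n, by rw [hF.coeff, map_add, coeff_C_mul, coeff_C]⟩

theorem exists_hasQ_of_congConst (hF : Nice F) {m A : ℤ} (h : CongConst m A (qe F)) :
    ∃ R : PowerSeries ℤ, HasQ F (C A + C m * R) := by
  obtain ⟨P, hP⟩ := HasQ.of_isInt hF (fun n => by
    obtain ⟨z, hz⟩ := h n
    exact ⟨_, hz⟩)
  obtain ⟨R, rfl⟩ := (hP.congConst_iff m A).mp h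
  exact ⟨R, hP⟩

theorem exists_hasQ_of_dvdQ (hF : Nice F) {m : ℤ} (h : DvdQ m (qe F)) :
    ∃ R : PowerSeries ℤ, HasQ F (C m * R) := by
  obtain ⟨P, hP⟩ := HasQ.of_isInt hF (fun n => by
    obtain ⟨z, hz⟩ := h n
    exact ⟨_, hz⟩)
  obtain ⟨R, rfl⟩ := (hP.dvdQ_iff m).mp h
  exact ⟨R, hP⟩

/-- `∑ σ₃(n) qⁿ`, `∑ σ₅(n) qⁿ`. -/
noncomputable def e4q : PowerSeries ℤ := PowerSeries.mk fun n => if n = 0 then 0 else (σ 3 n : ℤ)
noncomputable def e6q : PowerSeries ℤ := PowerSeries.mk fun n => if n = 0 then 0 else (σ 5 n : ℤ)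

theorem hasQ_E4 : HasQ E4f (1 + C 240 * e4q) := by
  refine ⟨isMF_E4.nice_one, ?_⟩
  ext n
  rw [coeff_E4]
  simp only [coeff_map, map_add, coeff_one, coeff_C_mul, e4q, coeff_mk]
  split_ifs <;> simp

theorem hasQ_E6 : HasQ E6f (1 - C 504 * e6q) := by
  refine ⟨isMF_E6.nice_one, ?_⟩
  ext n
  rw [coeff_E6]
  simp only [coeff_map, map_sub, coeff_one, coeff_C_mul, e6q, coeff_mk]
  split_ifs <;> simp

/-- `e6q - e4q = 8 * (…)`. -/
theorem exists_e6q_sub_e4q : ∃ R : PowerSeries ℤ, e6q - e4q = C 8 * R := by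
  choose r hr using eight_dvd_sigma
  refine ⟨PowerSeries.mk fun n => if n = 0 then 0 else r n, ?_⟩
  ext n
  simp only [map_sub, e6q, e4q, coeff_mk, coeff_C_mul]
  split_ifs
  · simp
  · exact hr n

/-- The `q`-expansion of `Δ`. -/
theorem exists_hasQ_D : ∃ Dq : PowerSeries ℤ, HasQ Df Dq ∧ Dq.coeff 0 = 0 ∧ Dq.coeff 1 = 1 := by
  obtain ⟨Dq, hD⟩ := HasQ.of_isInt isMF_D.nice_one isInt_D
  refine ⟨Dq, hD, ?_, ?_⟩
  · have := hD.coeff 0
    rw [coeff_D_zero] at this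
    exact_mod_cast this.symm
  · have := hD.coeff 1
    rw [coeff_D_one] at this
    exact_mod_cast this.symm

end Fermat.Agent.S16
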