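import Fermat.Agent.S21.Basic
import Fermat.Agent.S23.Nice
import Fermat.Agent.Gamma0Comb.Basic
import Fermat.Prelude.Def_ModularForm_HeckeOperator
import Fermat.Prelude.Thm_UpperHalfPlane_qCoeff_heckeU
import Fermat.Prelude.Thm_UpperHalfPlane_qCoeff_heckeT
import Fermat.Prelude.Thm_ModularForm_periodic_heckeU_comp_ofComplex
import Fermat.Prelude.Thm_ModularForm_mdifferentiable_heckeU
import Fermat.Prelude.Thm_ModularForm_isBoundedAtImInfty_heckeU
import Fermat.Prelude.Thm_ModularForm_periodic_heckeT_comp_ofComplex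
import Fermat.Prelude.Thm_ModularForm_mdifferentiable_heckeT
import Fermat.Prelude.Thm_ModularForm_isBoundedAtImInfty_heckeT
import Fermat.Agent.S21.LevelOne

/-!
# S16, Part C: the other cusp of `Γ₀(p)` and the trace to level one

`flat p k F τ = (F ∣[k] S) (p τ)` (the Fricke operator up to a power of `p`), `trP p k F = F + p U_p (flat F)`.
-/

set_option autoImplicit false

namespace Fermat.Agent.S16.TraceCore

open UpperHalfPlane ModularForm CongruenceSubgroup Filter Topology ModularGroup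
open scoped MatrixGroups ModularForm Manifold
open Fermat.Agent.S21 (MF CF mem_MF_iff mem_CF_iff)
open Fermat.Agent.S23 (Nice qe)

/-! ### coset representatives -/

/-- Every element of `SL(2,ℤ)` lies in `Γ₀(p)` or in `Γ₀(p) S T^j` for some `0 ≤ j < p`. -/
theorem coset_cases (p : ℕ) [Fact p.Prime] (δ : SL(2, ℤ)) :
    δ ∈ Gamma0 p ∨ ∃ γ ∈ Gamma0 p, ∃ j : ℕ, j < p ∧ δ = γ * S * T ^ j := by
  by_cases h : δ ∈ Gamma0 p
  · exact Or.inl h
  refine Or.inr ?_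
  have hc : ((δ 1 0 : ℤ) : ZMod p) ≠ 0 := fun h' => h (Gamma0_mem.mpr h')
  set j : ℕ := (((δ 1 1 : ℤ) : ZMod p) * ((δ 1 0 : ℤ) : ZMod p)⁻¹).val with hj
  have hjp : j < p := ZMod.val_lt _
  refine ⟨δ * (S * T ^ j)⁻¹, ?_, j, hjp, by group⟩
  rw [Gamma0_mem]
  have hT : (T ^ j : SL(2, ℤ)) = T ^ (j : ℤ) := by simp
  have e : ((δ * (S * T ^ j)⁻¹ : SL(2, ℤ)) 1 0 : ℤ) = δ 1 0 * j - δ 1 1 := by
    rw [hT, Matrix.SpecialLinearGroup.coe_mul, Matrix.SpecialLinearGroup.coe_inv,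
      Matrix.SpecialLinearGroup.coe_mul, coe_T_zpow, coe_S, Matrix.adjugate_fin_two]
    simp [Matrix.mul_apply, Fin.sum_univ_two]
    ring
  rw [e]
  push_cast
  rw [hj, ZMod.natCast_val, ZMod.cast_id', id]
  field_simp
  ring

/-- The expansion of `F` at the cusp `0`, renormalised to be `1`-periodic:
`flat p k F τ = (F ∣[k] S) (p τ)`. -/
noncomputable def flat (p : ℕ) (k : ℤ) (F : ℍ → ℂ) : ℍ → ℂ :=
  fun τ => (F ∣[k] S) (heckeDiagMatrix p • τ)

theorem flat_apply (p : ℕ) (k : ℤ) (F : ℍ → ℂ) (τ : ℍ) :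
    flat p k F τ = (F ∣[k] S) (heckeDiagMatrix p • τ) := rfl

theorem slash_diag_eq_flat {p : ℕ} (hp : p ≠ 0) (k : ℤ) (F : ℍ → ℂ) :
    (F ∣[k] S) ∣[k] heckeDiagMatrix p = (p : ℂ) ^ (k - 1) • flat p k F := by
  ext τ
  rw [slash_heckeDiagMatrix_apply k hp]
  rfl

theorem flat_eq {p : ℕ} (hp : p ≠ 0) (k : ℤ) (F : ℍ → ℂ) :
    flat p k F = (p : ℂ) ^ (1 - k) • ((F ∣[k] S) ∣[k] heckeDiagMatrix p) := by
  have hp' : (p : ℂ) ≠ 0 := by exact_mod_cast hp
  rw [slash_diag_eq_flat hp, smul_smul, ← zpow_add₀ hp']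
  simp

theorem exists_SL2 (a b c d : ℤ) (h : a * d - b * c = 1) :
    ∃ g : SL(2, ℤ), g 0 0 = a ∧ g 0 1 = b ∧ g 1 0 = c ∧ g 1 1 = d :=
  ⟨⟨!![a, b; c, d], by rw [Matrix.det_fin_two_of]; exact h⟩, rfl, rfl, rfl, rfl⟩

/-- the Fricke conjugate of an element of `Γ₀(p)` -/
theorem fricke_conj {p : ℕ} (hp : p ≠ 0) (γ : SL(2, ℤ)) (hγ : γ ∈ Gamma0 p) :
    ∃ γ' ∈ Gamma0 p, ((S : SL(2, ℤ)) : GL (Fin 2) ℝ) * heckeDiagMatrix p * (γ : GL (Fin 2) ℝ) =
      (γ' : GL (Fin 2) ℝ) * ((S : SL(2, ℤ)) : GL (Fin 2) ℝ) * heckeDiagMatrix p := by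
  obtain ⟨c, hc⟩ := (Gamma0Comb.mem_Gamma0_iff_dvd γ).mp hγ
  have hdet := Gamma0Comb.det_eq γ
  obtain ⟨γ', h00, h01, h10, h11⟩ := exists_SL2 (γ 1 1) (-c) (-p * γ 0 1) (γ 0 0) (by
    rw [hc] at hdet
    linear_combination hdet)
  refine ⟨γ', ?_, ?_⟩
  · rw [Gamma0Comb.mem_Gamma0_iff_dvd, h10]
    simp
  · ext i j
    have hc' : ((γ 1 0 : ℤ) : ℝ) = p * c := by rw [hc]; push_cast; ring
    fin_cases i <;> fin_cases j <;>
      simp [Matrix.mul_apply, Fin.sum_univ_two, val_heckeDiagMatrix hp, hc', h00, h01, h10, h11] <;>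
      ring

theorem flat_slash_of_mem {p : ℕ} (hp : p ≠ 0) {k : ℤ} {F : ℍ → ℂ}
    (hF : ∀ γ ∈ Gamma0 p, F ∣[k] γ = F) (γ : SL(2, ℤ)) (hγ : γ ∈ Gamma0 p) :
    flat p k F ∣[k] γ = flat p k F := by
  obtain ⟨γ', hγ', e⟩ := fricke_conj hp γ hγ
  rw [flat_eq hp, SL_smul_slash]
  congr 1
  have h1 := hF γ' hγ'
  rw [SL_slash] at h1 ⊢
  rw [SL_slash, ← SlashAction.slash_mul, ← SlashAction.slash_mul, ← mul_assoc, e,
    SlashAction.slash_mul, SlashAction.slash_mul, h1]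

theorem S_diag_S {p : ℕ} (hp : p ≠ 0) :
    ((S : SL(2, ℤ)) : GL (Fin 2) ℝ) * heckeDiagMatrix p * ((S : SL(2, ℤ)) : GL (Fin 2) ℝ) =
      ((-1 : SL(2, ℤ)) : GL (Fin 2) ℝ) * heckeMatrix p 0 := by
  ext i j
  fin_cases i <;> fin_cases j <;>
    simp [Matrix.mul_apply, Fin.sum_univ_two, val_heckeDiagMatrix hp, val_heckeMatrix hp]

theorem coe_T_pow (j : ℕ) :
    ((T ^ j : SL(2, ℤ)) : Matrix (Fin 2) (Fin 2) ℤ) = !![1, (j : ℤ); 0, 1] := by
  have hT : (T ^ j : SL(2, ℤ)) = T ^ (j : ℤ) := by simp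
  rw [hT, coe_T_zpow]

theorem heckeMatrix_zero_mul_T {p : ℕ} (hp : p ≠ 0) (j : ℕ) :
    heckeMatrix p 0 * ((T ^ j : SL(2, ℤ)) : GL (Fin 2) ℝ) = heckeMatrix p j := by
  have h := coe_T_pow j
  generalize (T ^ j : SL(2, ℤ)) = g at h ⊢
  have h00 : g 0 0 = 1 := by rw [h]; rfl
  have h01 : g 0 1 = j := by rw [h]; rfl
  have h10 : g 1 0 = 0 := by rw [h]; rfl
  have h11 : g 1 1 = 1 := by rw [h]; rfl
  ext a b
  fin_cases a <;> fin_cases b <;>
    simp [h00, h01, h10, h11, Matrix.mul_apply, Fin.sum_univ_two, val_heckeMatrix hp]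

theorem flat_slash_S {p : ℕ} (hp : p ≠ 0) {k : ℤ} {F : ℍ → ℂ}
    (hF : ∀ γ ∈ Gamma0 p, F ∣[k] γ = F) :
    flat p k F ∣[k] S = (p : ℂ) ^ (1 - k) • (F ∣[k] heckeMatrix p 0) := by
  rw [flat_eq hp, SL_smul_slash]
  congr 1
  have h1 := hF (-1) (S21.neg_one_mem_Gamma0 p)
  rw [SL_slash] at h1 ⊢
  rw [SL_slash, ← SlashAction.slash_mul, ← SlashAction.slash_mul, ← mul_assoc, S_diag_S hp,
    SlashAction.slash_mul, h1]

theorem flat_slash_S_T {p : ℕ} (hp : p ≠ 0) {k : ℤ} {F : ℍ → ℂ}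
    (hF : ∀ γ ∈ Gamma0 p, F ∣[k] γ = F) (j : ℕ) :
    flat p k F ∣[k] (S * T ^ j) = (p : ℂ) ^ (1 - k) • (F ∣[k] heckeMatrix p j) := by
  rw [SlashAction.slash_mul, flat_slash_S hp hF, SL_smul_slash, SL_slash,
    ← SlashAction.slash_mul, heckeMatrix_zero_mul_T hp]

theorem flat_slash_S_apply {p : ℕ} (hp : p ≠ 0) {k : ℤ} {F : ℍ → ℂ}
    (hF : ∀ γ ∈ Gamma0 p, F ∣[k] γ = F) (τ : ℍ) :
    (flat p k F ∣[k] S) τ = (p : ℂ) ^ (-k) * F (heckeMatrix p 0 • τ) := by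
  have hp' : (p : ℂ) ≠ 0 := by exact_mod_cast hp
  rw [flat_slash_S hp hF, Pi.smul_apply, slash_heckeMatrix_apply k hp, smul_eq_mul, ← mul_assoc,
    ← zpow_neg_one, ← zpow_add₀ hp']
  congr 2
  ring

theorem heckeMatrix_smul_diag_smul {p : ℕ} (hp : p ≠ 0) (τ : ℍ) :
    heckeMatrix p 0 • heckeDiagMatrix p • τ = τ := by
  have hp' : (p : ℂ) ≠ 0 := by exact_mod_cast hp
  apply UpperHalfPlane.ext
  rw [coe_heckeMatrix_smul hp, coe_heckeDiagMatrix_smul hp]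
  field_simp
  simp

theorem diag_smul_heckeMatrix_smul {p : ℕ} (hp : p ≠ 0) (j : ℕ) (τ : ℍ) :
    heckeDiagMatrix p • heckeMatrix p j • τ = (T ^ j : SL(2, ℤ)) • τ := by
  have hp' : (p : ℂ) ≠ 0 := by exact_mod_cast hp
  have hT : (T ^ j : SL(2, ℤ)) = T ^ (j : ℤ) := by simp
  apply UpperHalfPlane.ext
  rw [coe_heckeDiagMatrix_smul hp, coe_heckeMatrix_smul hp, hT, modular_T_zpow_smul]
  simp
  field_simp
  ring

/-- `flat` is an involution up to the factor `p ^ (-k)`. -/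
theorem flat_flat {p : ℕ} (hp : p ≠ 0) {k : ℤ} {F : ℍ → ℂ}
    (hF : ∀ γ ∈ Gamma0 p, F ∣[k] γ = F) :
    flat p k (flat p k F) = (p : ℂ) ^ (-k) • F := by
  ext τ
  rw [flat_apply, flat_slash_S_apply hp hF, heckeMatrix_smul_diag_smul hp]
  rfl

theorem flat_add (p : ℕ) (k : ℤ) (F G : ℍ → ℂ) :
    flat p k (F + G) = flat p k F + flat p k G := by
  ext τ
  simp [flat_apply, SlashAction.add_slash]

theorem flat_smul (p : ℕ) (k : ℤ) (c : ℂ) (F : ℍ → ℂ) :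
    flat p k (c • F) = c • flat p k F := by
  ext τ
  simp [flat_apply, SL_smul_slash]

theorem flat_neg (p : ℕ) (k : ℤ) (F : ℍ → ℂ) : flat p k (-F) = -flat p k F := by
  ext τ
  simp [flat_apply, SlashAction.neg_slash]

theorem flat_sub (p : ℕ) (k : ℤ) (F G : ℍ → ℂ) :
    flat p k (F - G) = flat p k F - flat p k G := by
  rw [sub_eq_add_neg, flat_add, flat_neg, ← sub_eq_add_neg]

theorem flat_mul (p : ℕ) (k l : ℤ) (F G : ℍ → ℂ) :
    flat p (k + l) (F * G) = flat p k F * flat p l G := by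
  ext τ
  simp [flat_apply, mul_slash_SL2]

/-! ### behaviour at `i∞` -/

theorem tendsto_heckeMatrix_smul {p : ℕ} (hp : p ≠ 0) (j : ℕ) :
    Tendsto (fun τ : ℍ => heckeMatrix p j • τ) atImInfty atImInfty := by
  have hp' : (0 : ℝ) < p := by exact_mod_cast Nat.pos_of_ne_zero hp
  rw [atImInfty, tendsto_comap_iff]
  have : (UpperHalfPlane.im ∘ fun τ : ℍ => heckeMatrix p j • τ) = fun τ : ℍ => τ.im / p := by
    ext τ
    have h := congrArg Complex.im (coe_heckeMatrix_smul hp j τ)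
    rw [Function.comp_apply, ← UpperHalfPlane.coe_im, h]
    have : (((τ : ℂ) + j) / p) = (((τ : ℂ) + j) / ((p : ℝ) : ℂ)) := by simp
    rw [this, Complex.div_ofReal_im]
    simp
  rw [this]
  exact (tendsto_comap (f := UpperHalfPlane.im)).atTop_div_const hp'

theorem tendsto_heckeDiagMatrix_smul {p : ℕ} (hp : p ≠ 0) :
    Tendsto (fun τ : ℍ => heckeDiagMatrix p • τ) atImInfty atImInfty := by
  have hp' : (0 : ℝ) < p := by exact_mod_cast Nat.pos_of_ne_zero hp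
  rw [atImInfty, tendsto_comap_iff]
  have : (UpperHalfPlane.im ∘ fun τ : ℍ => heckeDiagMatrix p • τ) = fun τ : ℍ => p * τ.im := by
    ext τ
    have h := congrArg Complex.im (coe_heckeDiagMatrix_smul hp τ)
    rw [Function.comp_apply, ← UpperHalfPlane.coe_im, h]
    simp
  rw [this]
  exact (tendsto_comap (f := UpperHalfPlane.im)).const_mul_atTop hp'

theorem isBoundedAtImInfty_slash_heckeMatrix {p : ℕ} (hp : p ≠ 0) (k : ℤ) (j : ℕ) {F : ℍ → ℂ}
    (hF : IsBoundedAtImInfty F) : IsBoundedAtImInfty (F ∣[k] heckeMatrix p j) := by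
  have h : F ∣[k] heckeMatrix p j = (p : ℂ)⁻¹ • (F ∘ fun τ : ℍ => heckeMatrix p j • τ) := by
    ext τ
    rw [slash_heckeMatrix_apply k hp]
    rfl
  rw [h]
  exact Asymptotics.IsBigO.const_smul_left (hF.comp_tendsto (tendsto_heckeMatrix_smul hp j)) _

theorem isZeroAtImInfty_slash_heckeMatrix {p : ℕ} (hp : p ≠ 0) (k : ℤ) (j : ℕ) {F : ℍ → ℂ}
    (hF : IsZeroAtImInfty F) : IsZeroAtImInfty (F ∣[k] heckeMatrix p j) := by
  have h : F ∣[k] heckeMatrix p j = (p : ℂ)⁻¹ • (F ∘ fun τ : ℍ => heckeMatrix p j • τ) := by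
    ext τ
    rw [slash_heckeMatrix_apply k hp]
    rfl
  rw [h]
  exact ZeroAtFilter.smul _ (Tendsto.comp hF (tendsto_heckeMatrix_smul hp j))

theorem isBoundedAtImInfty_flat {p : ℕ} (hp : p ≠ 0) (k : ℤ) {F : ℍ → ℂ}
    (hF : IsBoundedAtImInfty (F ∣[k] S)) : IsBoundedAtImInfty (flat p k F) :=
  hF.comp_tendsto (tendsto_heckeDiagMatrix_smul hp)

theorem isZeroAtImInfty_flat {p : ℕ} (hp : p ≠ 0) (k : ℤ) {F : ℍ → ℂ}
    (hF : IsZeroAtImInfty (F ∣[k] S)) : IsZeroAtImInfty (flat p k F) :=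
  Tendsto.comp hF (tendsto_heckeDiagMatrix_smul hp)

theorem mdiff_flat {p : ℕ} (hp : p ≠ 0) (k : ℤ) {F : ℍ → ℂ} (hF : MDiff F) :
    MDiff (flat p k F) := by
  rw [flat_eq hp]
  exact ((S21.mdiff_slash hF k S).slash k _).const_smul _

/-- `flat` maps `M_k(Γ₀(p))` to itself (it is the Fricke involution up to a scalar). -/
theorem flat_mem_MF {p : ℕ} [Fact p.Prime] {k : ℤ} {F : ℍ → ℂ} (hF : F ∈ MF (Gamma0 p) k) :
    flat p k F ∈ MF (Gamma0 p) k := by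
  have hp : p ≠ 0 := (Fact.out : p.Prime).ne_zero
  obtain ⟨h1, h2, h3⟩ := mem_MF_iff.mp hF
  refine mem_MF_iff.mpr ⟨mdiff_flat hp k h1, flat_slash_of_mem hp h2, fun δ => ?_⟩
  rcases coset_cases p δ with hδ | ⟨γ, hγ, j, -, rfl⟩
  · rw [flat_slash_of_mem hp h2 δ hδ]
    exact isBoundedAtImInfty_flat hp k (h3 S)
  · rw [mul_assoc, SlashAction.slash_mul, flat_slash_of_mem hp h2 γ hγ, flat_slash_S_T hp h2]
    refine Asymptotics.IsBigO.const_smul_left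
      (isBoundedAtImInfty_slash_heckeMatrix hp k j ?_) _
    simpa using h3 1

theorem flat_mem_CF {p : ℕ} [Fact p.Prime] {k : ℤ} {F : ℍ → ℂ} (hF : F ∈ CF (Gamma0 p) k) :
    flat p k F ∈ CF (Gamma0 p) k := by
  have hp : p ≠ 0 := (Fact.out : p.Prime).ne_zero
  obtain ⟨h1, h2, h3⟩ := mem_CF_iff.mp hF
  refine mem_CF_iff.mpr ⟨mdiff_flat hp k h1, flat_slash_of_mem hp h2, fun δ => ?_⟩
  rcases coset_cases p δ with hδ | ⟨γ, hγ, j, -, rfl⟩
  · rw [flat_slash_of_mem hp h2 δ hδ]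
    exact isZeroAtImInfty_flat hp k (h3 S)
  · rw [mul_assoc, SlashAction.slash_mul, flat_slash_of_mem hp h2 γ hγ, flat_slash_S_T hp h2]
    refine ZeroAtFilter.smul _ (isZeroAtImInfty_slash_heckeMatrix hp k j ?_)
    simpa using h3 1

/-- forms on `Γ₀(N)` are nice -/
theorem nice_of_mem_MF {N : ℕ} {k : ℤ} {F : ℍ → ℂ} (hF : F ∈ MF (Gamma0 N) k) : Nice F := by
  obtain ⟨h1, h2, h3⟩ := mem_MF_iff.mp hF
  refine ⟨?_, h1, by simpa using h3 1⟩
  have hT := h2 T (S21.T_mem_Gamma0 N)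
  intro z
  simp only [Function.comp_apply]
  by_cases hz : 0 < z.im
  · have hz' : 0 < (z + 1).im := by simpa using hz
    rw [ofComplex_apply_of_im_pos hz, ofComplex_apply_of_im_pos hz']
    have h3 := congrFun hT ⟨z, hz⟩
    rw [SL_slash_apply, modular_T_smul] at h3
    have hd : denom ((T : SL(2, ℤ)) : GL (Fin 2) ℝ) (⟨z, hz⟩ : ℍ) = 1 := by
      rw [ModularGroup.denom_apply, ModularGroup.coe_T]
      simp
    rw [hd] at h3
    simp only [one_zpow, mul_one] at h3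
    rw [← h3]
    refine congrArg _ (UpperHalfPlane.ext ?_)
    simp [add_comm]
  · have hz' : ¬ 0 < (z + 1).im := by simpa using hz
    rw [ofComplex_apply_of_im_nonpos (not_lt.mp hz), ofComplex_apply_of_im_nonpos (not_lt.mp hz')]

theorem nice_flat {p : ℕ} [Fact p.Prime] {k : ℤ} {F : ℍ → ℂ} (hF : F ∈ MF (Gamma0 p) k) :
    Nice (flat p k F) := nice_of_mem_MF (flat_mem_MF hF)

/-! ### the trace to level one -/

/-- The trace of `F` from `Γ₀(p)` to `SL(2,ℤ)`, written as `F + p U_p (flat F)`. -/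
noncomputable def trP (p : ℕ) (k : ℤ) (F : ℍ → ℂ) : ℍ → ℂ :=
  F + (p : ℂ) • heckeU k p (flat p k F)

theorem slash_T_pow_apply (k : ℤ) (G : ℍ → ℂ) (j : ℕ) (τ : ℍ) :
    (G ∣[k] (T ^ j : SL(2, ℤ))) τ = G ((T ^ j : SL(2, ℤ)) • τ) := by
  rw [SL_slash_apply]
  have hd : denom ((T ^ j : SL(2, ℤ)) : GL (Fin 2) ℝ) τ = 1 := by
    rw [ModularGroup.denom_apply, coe_T_pow]
    simp
  rw [hd]
  simp

theorem smul_heckeU_flat {p : ℕ} (hp : p ≠ 0) (k : ℤ) (F : ℍ → ℂ) :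
    (p : ℂ) • heckeU k p (flat p k F) = ∑ j ∈ Finset.range p, F ∣[k] (S * T ^ j) := by
  have hp' : (p : ℂ) ≠ 0 := by exact_mod_cast hp
  ext τ
  rw [Pi.smul_apply, heckeU_apply k hp, smul_eq_mul, ← mul_assoc, mul_inv_cancel₀ hp', one_mul,
    Finset.sum_apply]
  refine Finset.sum_congr rfl fun j _ => ?_
  rw [flat_apply, diag_smul_heckeMatrix_smul hp, SlashAction.slash_mul, slash_T_pow_apply]

theorem ST_inv_col (j : ℕ) :
    ((S * T ^ j)⁻¹ : SL(2, ℤ)) 0 0 = j ∧ ((S * T ^ j)⁻¹ : SL(2, ℤ)) 1 0 = -1 := by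
  rw [Matrix.SpecialLinearGroup.coe_inv, Matrix.SpecialLinearGroup.coe_mul, coe_T_pow, coe_S,
    Matrix.adjugate_fin_two]
  simp [Matrix.mul_apply, Fin.sum_univ_two]

/-- representatives of `SL(2,ℤ) ⧸ Γ₀(p)` -/
noncomputable def cosetRep (p : ℕ) : Option (Fin p) → SL(2, ℤ)
  | none => 1
  | some j => (S * T ^ (j : ℕ))⁻¹

theorem cosetRep_bijective (p : ℕ) [Fact p.Prime] :
    Function.Bijective (fun o => (QuotientGroup.mk (cosetRep p o) : S21.X (Gamma0 p))) := by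
  have hp1 : ¬ (p : ℤ) ∣ 1 := by
    intro h
    have := Int.eq_one_of_dvd_one (by positivity) h
    have h2 := (Fact.out : p.Prime).one_lt
    omega
  constructor
  · intro a b hab
    simp only at hab
    rw [Gamma0Comb.mk_eq_mk_iff] at hab
    rcases a with _ | i <;> rcases b with _ | j
    · rfl
    · exfalso
      simp only [cosetRep, (ST_inv_col j).1, (ST_inv_col j).2] at hab
      simp at hab
      exact hp1 hab
    · exfalso
      simp only [cosetRep, (ST_inv_col i).1, (ST_inv_col i).2] at hab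
      simp at hab
      exact hp1 hab
    · simp only [cosetRep, (ST_inv_col j).1, (ST_inv_col j).2, (ST_inv_col i).1,
        (ST_inv_col i).2] at hab
      congr 1
      apply Fin.ext
      have hi := i.2
      have hj := j.2
      obtain ⟨c, hc⟩ := hab
      have : c = 0 := by
        by_contra hc0
        rcases lt_or_gt_of_ne hc0 with h | h
        · have : (p : ℤ) * c ≤ (p : ℤ) * (-1) := by
            apply mul_le_mul_of_nonneg_left (by omega) (by positivity)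
          omega
        · have : (p : ℤ) * 1 ≤ (p : ℤ) * c := by
            apply mul_le_mul_of_nonneg_left (by omega) (by positivity)
          omega
      rw [this] at hc
      omega
  · intro x
    induction x using QuotientGroup.induction_on with
    | H h =>
      rcases coset_cases p h⁻¹ with hδ | ⟨γ, hγ, j, hj, e⟩
      · refine ⟨none, ?_⟩
        simp only [cosetRep]
        rw [QuotientGroup.eq]
        simpa using (Gamma0 p).inv_mem hδ
      · refine ⟨some ⟨j, hj⟩, ?_⟩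
        simp only [cosetRep]
        rw [QuotientGroup.eq]
        have : ((S * T ^ j)⁻¹)⁻¹ * h = γ⁻¹ := by
          have : h = (γ * S * T ^ j)⁻¹ := by rw [← e]; simp
          rw [this]
          group
        rw [this]
        exact (Gamma0 p).inv_mem hγ

theorem trP_eq_sum_vec {p : ℕ} [Fact p.Prime] {k : ℤ} {F : ℍ → ℂ}
    (hF : ∀ γ ∈ Gamma0 p, F ∣[k] γ = F) :
    trP p k F = ∑ x : S21.X (Gamma0 p), S21.vec (Gamma0 p) k F x := by
  have hp : p ≠ 0 := (Fact.out : p.Prime).ne_zero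
  rw [← (cosetRep_bijective p).sum_comp (fun x => S21.vec (Gamma0 p) k F x), Fintype.sum_option,
    trP, smul_heckeU_flat hp, S21.vec_mk hF, Finset.sum_range]
  congr 1
  · simp [cosetRep]
  · refine Finset.sum_congr rfl fun j _ => ?_
    rw [S21.vec_mk hF]
    simp [cosetRep]

theorem trP_mem_MF {p : ℕ} [Fact p.Prime] {k : ℤ} {F : ℍ → ℂ} (hF : F ∈ MF (Gamma0 p) k) :
    trP p k F ∈ MF ⊤ k := by
  obtain ⟨h1, h2, h3⟩ := mem_MF_iff.mp hF
  rw [trP_eq_sum_vec h2]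
  have hinv : ∀ γ : SL(2, ℤ), (∑ x, S21.vec (Gamma0 p) k F x) ∣[k] γ =
      ∑ x, S21.vec (Gamma0 p) k F x := by
    intro γ
    rw [SlashAction.sum_slash]
    simp_rw [S21.vec_slash h2]
    exact Equiv.sum_comp (MulAction.toPerm γ⁻¹) (fun x => S21.vec (Gamma0 p) k F x)
  refine mem_MF_iff.mpr ⟨?_, fun γ _ => hinv γ, fun δ => ?_⟩
  · exact Finset.sum_induction _ (fun f : ℍ → ℂ => MDiff f) (fun _ _ ha hb => ha.add hb)
      mdifferentiable_const fun x _ => S21.vec_mdiff h1 k x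
  · rw [hinv δ]
    exact Finset.sum_induction _ (fun f : ℍ → ℂ => IsBoundedAtImInfty f)
      (fun _ _ ha hb => ha.add hb) zero_form_isBoundedAtImInfty
      fun x _ => S21.vec_isBoundedAtImInfty hF x

/-! ### `q`-expansions -/

theorem nice_heckeU {G : ℍ → ℂ} (hG : Nice G) (k : ℤ) (p : ℕ) : Nice (heckeU k p G) :=
  ⟨periodic_heckeU_comp_ofComplex hG.per k p, mdifferentiable_heckeU hG.hol k p,
    isBoundedAtImInfty_heckeU hG.bdd k p⟩

theorem nice_heckeT {G : ℍ → ℂ} (hG : Nice G) (k : ℤ) (p : ℕ) : Nice (heckeT k p G) :=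
  ⟨periodic_heckeT_comp_ofComplex hG.per k p, mdifferentiable_heckeT hG.hol k p,
    isBoundedAtImInfty_heckeT hG.bdd k p⟩

theorem coeff_qe_heckeU {G : ℍ → ℂ} (hG : Nice G) (k : ℤ) {p : ℕ} (hp : p ≠ 0) (n : ℕ) :
    (qe (heckeU k p G)).coeff n = (qe G).coeff (n * p) :=
  UpperHalfPlane.qCoeff_heckeU hG.per hG.hol hG.bdd k hp n

theorem coeff_qe_heckeT {G : ℍ → ℂ} (hG : Nice G) (k : ℤ) {p : ℕ} (hp : p ≠ 0) (n : ℕ) :
    (qe (heckeT k p G)).coeff n =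
      (qe G).coeff (n * p) + if p ∣ n then (p : ℂ) ^ (k - 1) * (qe G).coeff (n / p) else 0 :=
  UpperHalfPlane.qCoeff_heckeT hG.per hG.hol hG.bdd k hp n

theorem Nice.neg {G : ℍ → ℂ} (hG : Nice G) : Nice (-G) := by
  have := hG.smul (-1)
  simpa using this

theorem Nice.sub {F G : ℍ → ℂ} (hF : Nice F) (hG : Nice G) : Nice (F - G) := by
  rw [sub_eq_add_neg]
  exact hF.add (Nice.neg hG)

theorem Nice.qe_sub {F G : ℍ → ℂ} (hF : Nice F) (hG : Nice G) : qe (F - G) = qe F - qe G :=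
  qExpansion_sub hF.analytic hG.analytic

theorem Nice.qe_neg {G : ℍ → ℂ} (hG : Nice G) : qe (-G) = -qe G :=
  qExpansion_neg hG.analytic

/-- a nice function tends to its constant coefficient -/
theorem Nice.tendsto {G : ℍ → ℂ} (hG : Nice G) : Tendsto G atImInfty (𝓝 ((qe G).coeff 0)) := by
  have h0 : (qe G).coeff 0 = cuspFunction 1 G 0 := by
    simp [qe, qExpansion_coeff]
  rw [h0]
  have : (cuspFunction 1 G ∘ fun τ : ℍ => Function.Periodic.qParam 1 τ : ℍ → ℂ) = G := by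
    funext τ
    simpa using eq_cuspFunction τ one_ne_zero hG.per
  simpa [this] using hG.analytic.continuousAt.tendsto.comp (qParam_tendsto_atImInfty one_pos)

/-- `V_p G (τ) = G (p τ)` -/
noncomputable def vP (p : ℕ) (G : ℍ → ℂ) : ℍ → ℂ := fun τ => G (heckeDiagMatrix p • τ)

theorem vP_apply (p : ℕ) (G : ℍ → ℂ) (τ : ℍ) : vP p G τ = G (heckeDiagMatrix p • τ) := rfl

theorem vP_eq {p : ℕ} (hp : p ≠ 0) (G : ℍ → ℂ) : vP p G = heckeT 1 p G - heckeU 1 p G := by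
  rw [heckeT_eq_heckeU_add, add_sub_cancel_left]
  ext τ
  rw [slash_heckeDiagMatrix_apply 1 hp]
  simp [vP_apply]

theorem nice_vP {G : ℍ → ℂ} (hG : Nice G) {p : ℕ} (hp : p ≠ 0) : Nice (vP p G) := by
  rw [vP_eq hp]
  exact Nice.sub (nice_heckeT hG 1 p) (nice_heckeU hG 1 p)

theorem coeff_qe_vP {G : ℍ → ℂ} (hG : Nice G) {p : ℕ} (hp : p ≠ 0) (n : ℕ) :
    (qe (vP p G)).coeff n = if p ∣ n then (qe G).coeff (n / p) else 0 := by
  rw [vP_eq hp, Nice.qe_sub (nice_heckeT hG 1 p) (nice_heckeU hG 1 p), map_sub,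
    coeff_qe_heckeT hG 1 hp, coeff_qe_heckeU hG 1 hp]
  simp

theorem flat_of_levelOne (p : ℕ) {k : ℤ} {G : ℍ → ℂ} (hG : G ∈ MF ⊤ k) :
    flat p k G = vP p G := by
  ext τ
  rw [flat_apply, (mem_MF_iff.mp hG).2.1 S trivial]
  rfl

theorem vP_add (p : ℕ) (F G : ℍ → ℂ) : vP p (F + G) = vP p F + vP p G := rfl

theorem vP_mul (p : ℕ) (F G : ℍ → ℂ) : vP p (F * G) = vP p F * vP p G := rfl

theorem vP_smul (p : ℕ) (c : ℂ) (F : ℍ → ℂ) : vP p (c • F) = c • vP p F := rfl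

theorem coeff_qe_trP {p : ℕ} [Fact p.Prime] {k : ℤ} {F : ℍ → ℂ} (hF : F ∈ MF (Gamma0 p) k)
    (n : ℕ) :
    (qe (trP p k F)).coeff n = (qe F).coeff n + p * (qe (flat p k F)).coeff (n * p) := by
  have hp : p ≠ 0 := (Fact.out : p.Prime).ne_zero
  have h1 := nice_of_mem_MF hF
  have h2 := nice_heckeU (nice_flat hF) k p
  rw [trP, h1.qe_add (h2.smul _), h2.qe_smul, map_add, PowerSeries.coeff_smul,
    coeff_qe_heckeU (nice_flat hF) k hp, smul_eq_mul]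

/-! ### weight two -/

theorem trP_two_eq_zero {p : ℕ} [Fact p.Prime] {F : ℍ → ℂ} (hF : F ∈ MF (Gamma0 p) 2) :
    trP p 2 F = 0 := by
  have := trP_mem_MF hF
  rwa [S21.MFtop_two_eq_bot, Submodule.mem_bot] at this

/-- In weight two the expansion at the other cusp is `-p⁻¹ U_p F`. -/
theorem flat_two_eq {p : ℕ} [Fact p.Prime] {F : ℍ → ℂ} (hF : F ∈ MF (Gamma0 p) 2) :
    flat p 2 F = -((p : ℂ)⁻¹ • heckeU 2 p F) := by
  have hp : p ≠ 0 := (Fact.out : p.Prime).ne_zero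
  have hp' : (p : ℂ) ≠ 0 := by exact_mod_cast hp
  have h := trP_two_eq_zero (flat_mem_MF hF)
  rw [trP, flat_flat hp (mem_MF_iff.mp hF).2.1, heckeU_smul, smul_smul] at h
  have e : (p : ℂ) * (p : ℂ) ^ (-2 : ℤ) = (p : ℂ)⁻¹ := by
    rw [zpow_neg]
    field_simp
  rw [e] at h
  exact eq_neg_of_add_eq_zero_left h

theorem coeff_qe_flat_two {p : ℕ} [Fact p.Prime] {F : ℍ → ℂ} (hF : F ∈ MF (Gamma0 p) 2)
    (n : ℕ) : (qe (flat p 2 F)).coeff n = -((p : ℂ)⁻¹ * (qe F).coeff (n * p)) := by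
  have hp : p ≠ 0 := (Fact.out : p.Prime).ne_zero
  have h1 := nice_of_mem_MF hF
  have h2 := nice_heckeU h1 2 p
  rw [flat_two_eq hF, Nice.qe_neg (h2.smul _), h2.qe_smul, map_neg, PowerSeries.coeff_smul,
    coeff_qe_heckeU h1 2 hp, smul_eq_mul]

/-- A weight two form on `Γ₀(p)` whose constant term vanishes is a cusp form. -/
theorem mem_CF_of_coeff_zero {p : ℕ} [Fact p.Prime] {F : ℍ → ℂ} (hF : F ∈ MF (Gamma0 p) 2)
    (h0 : (qe F).coeff 0 = 0) : F ∈ CF (Gamma0 p) 2 := by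
  have hp : p ≠ 0 := (Fact.out : p.Prime).ne_zero
  obtain ⟨h1, h2, h3⟩ := mem_MF_iff.mp hF
  have hz : IsZeroAtImInfty F := by
    have := Nice.tendsto (nice_of_mem_MF hF)
    rwa [h0] at this
  have hz' : IsZeroAtImInfty (flat p 2 F) := by
    have := Nice.tendsto (nice_flat hF)
    rwa [coeff_qe_flat_two hF, zero_mul, h0, mul_zero, neg_zero] at this
  have hp2 : (p : ℂ) ^ (-2 : ℤ) ≠ 0 := zpow_ne_zero _ (by exact_mod_cast hp)
  have hFF : F = ((p : ℂ) ^ (-2 : ℤ))⁻¹ • flat p 2 (flat p 2 F) := by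
    rw [flat_flat hp h2, smul_smul, inv_mul_cancel₀ hp2, one_smul]
  refine mem_CF_iff.mpr ⟨h1, h2, fun δ => ?_⟩
  rcases coset_cases p δ with hδ | ⟨γ, hγ, j, -, rfl⟩
  · rwa [h2 δ hδ]
  · rw [mul_assoc, SlashAction.slash_mul, h2 γ hγ, hFF, SL_smul_slash,
      flat_slash_S_T hp (mem_MF_iff.mp (flat_mem_MF hF)).2.1]
    exact ZeroAtFilter.smul _ (ZeroAtFilter.smul _ (isZeroAtImInfty_slash_heckeMatrix hp 2 j hz'))

end Fermat.Agent.S16.TraceCore
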