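import Fermat.Agent.S16.Fricke
import Fermat.Agent.S16.Cosets
import Fermat.Agent.S16.TraceCore

/-!
# S16/Trace: the trace from `Γ₀(p)` to level one in terms of `U_p` and the Fricke operator

`(F^w) ∣ [[1,j],[0,p]] = (F ∣ S) ∣ (p T^j) = p^(k-2) F ∣ S T^j`, hence
`p^(k-2) Tr F = p^(k-2) F + U_p (F^w)`.
-/

set_option autoImplicit false

namespace Fermat.Agent.S16

open UpperHalfPlane ModularForm Fermat.Agent.S23
open scoped MatrixGroups Manifold ModularForm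

variable {p : ℕ} {k : ℤ} {F G : ℍ → ℂ}

namespace Trace

/-- comparison with the normalisation of `TraceCore` -/
theorem fricke_eq_flat (hp : p ≠ 0) (k : ℤ) (F : ℍ → ℂ) :
    fricke p k F = (p : ℂ) ^ (k - 1) • TraceCore.flat p k F :=
  TraceCore.slash_diag_eq_flat hp k F

theorem mem_MF_of_isMF [NeZero p] (hF : IsMF (G0 p) k F) :
    F ∈ S21.MF (CongruenceSubgroup.Gamma0 p) k :=
  S21.mem_MF_iff_exists.mpr hF

theorem isMF_top_of_mem (hF : F ∈ S21.MF ⊤ k) : IsMF 𝒮ℒ k F :=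
  S21.mem_MF_top_iff_exists.mp hF

end Trace

open Trace

theorem heckeU_fricke (hp : p ≠ 0) (k : ℤ) (F : ℍ → ℂ) :
    heckeU k p (fricke p k F) = (p : ℂ) ^ (k - 2) • ∑ j ∈ Finset.range p, trans k F j := by
  have hp' : (p : ℂ) ≠ 0 := by exact_mod_cast hp
  have h := TraceCore.smul_heckeU_flat hp k F
  unfold trans
  rw [← h, fricke_eq_flat hp, heckeU_smul, smul_smul, ← zpow_add_one₀ hp']
  congr 2
  ring

/-- `p^(k-2) F + U_p(F^w)` is of level one. -/
theorem isMF_trace_fricke (hp : p.Prime) (hF : IsMF (G0 p) k F) :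
    IsMF 𝒮ℒ k ((p : ℂ) ^ (k - 2) • F + heckeU k p (fricke p k F)) := by
  rw [heckeU_fricke hp.ne_zero, ← smul_add]
  exact isMF_smul _ (isMF_trace hp hF)

/-- Weight two: `G^w = - U_p G` (because `M_2(SL₂(ℤ)) = 0`). -/
theorem fricke_two (hp : p.Prime) (hG : IsMF (G0 p) 2 G) : fricke p 2 G = - heckeU 2 p G := by
  have : Fact p.Prime := ⟨hp⟩
  have : NeZero p := ⟨hp.ne_zero⟩
  have hp' : (p : ℂ) ≠ 0 := by exact_mod_cast hp.ne_zero
  rw [fricke_eq_flat hp.ne_zero, TraceCore.flat_two_eq (mem_MF_of_isMF hG), smul_neg, smul_smul]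
  congr 1
  have : (p : ℂ) ^ ((2 : ℤ) - 1) * (p : ℂ)⁻¹ = 1 := by
    norm_num [hp']
  rw [this, one_smul]

/-- A weight two form on `Γ₀(p)` vanishing at `∞` is a cusp form. -/
theorem isCF_of_coeff_zero (hp : p.Prime) (hG : IsMF (G0 p) 2 G) (h0 : (qe G).coeff 0 = 0) :
    IsCF (G0 p) 2 G := by
  have : Fact p.Prime := ⟨hp⟩
  have : NeZero p := ⟨hp.ne_zero⟩
  exact S21.mem_CF_iff_exists.mp (TraceCore.mem_CF_of_coeff_zero (mem_MF_of_isMF hG) h0)

end Fermat.Agent.S16
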