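import Fermat.Agent.S16.SturmTwo
import Fermat.Agent.S16.FrickeHecke
import Fermat.Agent.S16.Trace
import Fermat.Agent.S16.IntQ

/-!
# S16/HeckeTrick: a weight two form `g ≡ A (mod ℓ^s)`, `ℓ ∤ A`, forces `ℓ^s ∣ r² - 1`
See the blueprint (board topic S16), item (H).
-/

set_option autoImplicit false

namespace Fermat.Agent.S16

open UpperHalfPlane ModularForm Fermat.Agent.S23 PowerSeries
open scoped MatrixGroups Manifold ModularForm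

namespace HeckeTrick

/-- `D(g, Δ) = T_r^{(14)}(g Δ) - g T_r^{(12)}(Δ)`. -/
noncomputable def DD (r : ℕ) (g Δ : ℍ → ℂ) : ℍ → ℂ :=
  heckeT 14 r (g * Δ) - g * heckeT 12 r Δ

variable {p r : ℕ}

theorem isMF_DD (hr : r.Prime) (hrp : ¬ r ∣ p) {g Δ : ℍ → ℂ} (hg : IsMF (G0 p) 2 g)
    (hΔ : IsMF (G0 p) 12 Δ) : IsMF (G0 p) 14 (DD r g Δ) :=
  isMF_sub (isMF_heckeT hr hrp (isMF_mul' hg hΔ (by norm_num)))
    (isMF_mul' hg (isMF_heckeT hr hrp hΔ) (by norm_num))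

theorem hasQ_DD (hr : r.Prime) (hrp : ¬ r ∣ p) {g Δ : ℍ → ℂ} (hg : IsMF (G0 p) 2 g)
    (hΔ : IsMF (G0 p) 12 Δ) {A m : ℤ} {R Q : PowerSeries ℤ} (hgQ : HasQ g (C A + C m * R))
    (hΔQ : HasQ Δ Q) :
    ∃ X : PowerSeries ℤ,
      HasQ (DD r g Δ) (C (A * (r : ℤ) ^ 11 * ((r : ℤ) ^ 2 - 1)) * Vf r Q + C m * X) := by
  have h14 : IsMF (G0 p) ((14 : ℕ) : ℤ) (g * Δ) := isMF_mul' hg hΔ (by norm_num)
  have h12 : IsMF (G0 p) ((12 : ℕ) : ℤ) Δ := hΔ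
  have h1 := HasQ.heckeT (k := 14) (by norm_num) hr hrp h14 (hgQ.mul hΔQ)
  have h2 := HasQ.heckeT (k := 12) (by norm_num) hr hrp h12 hΔQ
  have h3 := h1.sub (hgQ.mul h2)
  refine ⟨Uf r (R * Q) + C ((r : ℤ) ^ 13) * Vf r (R * Q) - R * (Uf r Q + C ((r : ℤ) ^ 11) * Vf r Q),
    ?_⟩
  have e : (C A + C m * R) * Q = C A * Q + C m * (R * Q) := by ring
  have h4 : HasQ (DD r g Δ) _ := h3
  convert h4 using 1
  rw [e, Uf_add, Vf_add, Uf_C_mul, Uf_C_mul, Vf_C_mul, Vf_C_mul]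
  simp only [map_mul, map_sub, map_pow, map_one]
  norm_num
  ring

theorem fricke_DD (hp : p.Prime) (hr : r.Prime) (hrp : r ≠ p) {g : ℍ → ℂ}
    (hg : IsMF (G0 p) 2 g) :
    fricke p 14 (DD r g Df) = (-(p : ℂ) ^ 12) • DD r (heckeU 2 p g) (Vp p Df) := by
  have hD12 : IsMF (G0 p) 12 Df := IsMF.of_levelOne p isMF_D
  have h14 : IsMF (G0 p) 14 (g * Df) := isMF_mul' hg hD12 (by norm_num)
  have hfD : fricke p 12 Df = (p : ℂ) ^ 11 • Vp p Df := by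
    have := fricke_levelOne (p := p) hp.ne_zero isMF_D
    rw [this]
    norm_num
  have e1 : fricke p 14 (g * Df) = (-(p : ℂ) ^ 12) • (heckeU 2 p g * Vp p Df) := by
    rw [show (14 : ℤ) = 2 + 12 by norm_num, fricke_mul hp.ne_zero, fricke_two hp hg, hfD]
    ext τ
    simp only [Pi.smul_apply, Pi.mul_apply, Pi.neg_apply, smul_eq_mul]
    ring
  have e2 : fricke p 14 (g * heckeT 12 r Df) =
      (-(p : ℂ) ^ 12) • (heckeU 2 p g * heckeT 12 r (Vp p Df)) := by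
    rw [show (14 : ℤ) = 2 + 12 by norm_num, fricke_mul hp.ne_zero, fricke_two hp hg,
      fricke_heckeT hp hr hrp hD12, hfD, heckeT_smul]
    ext τ
    simp only [Pi.smul_apply, Pi.mul_apply, Pi.neg_apply, smul_eq_mul]
    ring
  unfold DD
  rw [fricke_sub, fricke_heckeT hp hr hrp h14, e1, e2, heckeT_smul, smul_sub]

theorem coeff_Vf_lt {Q : PowerSeries ℤ} (hQ0 : Q.coeff 0 = 0) {a n : ℕ} (hn : n < a) :
    (Vf a Q).coeff n = 0 := by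
  rw [coeff_Vf]
  split_ifs with hd
  · rcases Nat.eq_zero_or_pos n with rfl | hpos
    · simpa using hQ0
    · exact absurd (Nat.le_of_dvd hpos hd) (not_le.2 hn)
  · rfl

theorem coeff_Vf_self {Q : PowerSeries ℤ} {a : ℕ} (ha : 0 < a) :
    (Vf a Q).coeff a = Q.coeff 1 := by
  rw [coeff_Vf, if_pos dvd_rfl, Nat.div_self ha]

theorem coeff_Vf_Vf_lt {Q : PowerSeries ℤ} (hQ0 : Q.coeff 0 = 0) {a b n : ℕ}
    (hn : n < a * b) : (Vf a (Vf b Q)).coeff n = 0 := by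
  rw [coeff_Vf]
  split_ifs with hd
  · apply coeff_Vf_lt hQ0
    exact Nat.div_lt_of_lt_mul hn
  · rfl

theorem coeff_Vf_Vf_self {Q : PowerSeries ℤ} {a b : ℕ} (ha : 0 < a) (hb : 0 < b) :
    (Vf a (Vf b Q)).coeff (a * b) = Q.coeff 1 := by
  rw [coeff_Vf, if_pos (dvd_mul_right a b), Nat.mul_div_cancel_left _ ha, coeff_Vf_self hb]

end HeckeTrick

open HeckeTrick in
theorem hecke_trick {p ℓ r : ℕ} (hp : p.Prime) (hℓ : ℓ.Prime) (hr : r.Prime) (hrp : r ≠ p)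
    (hrℓ : r ≠ ℓ) (s : ℕ) {g : ℍ → ℂ} (hg : IsMF (G0 p) 2 g) (A : ℤ) (hA : ¬ (ℓ : ℤ) ∣ A)
    (hcong : CongConst ((ℓ : ℤ) ^ s) A (qe g)) : (ℓ : ℤ) ^ s ∣ (r : ℤ) ^ 2 - 1 := by
  by_contra hnd
  have : NeZero p := ⟨hp.ne_zero⟩
  have hrp' : ¬ r ∣ p := fun h => hrp ((Nat.prime_dvd_prime_iff_eq hr hp).1 h)
  have hℓZ : Prime (ℓ : ℤ) := Nat.prime_iff_prime_int.1 hℓ
  obtain ⟨R, hgQ⟩ := exists_hasQ_of_congConst hg.nice hcong
  obtain ⟨Dq, hD, hD0, hD1⟩ := exists_hasQ_D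
  have hD12 : IsMF (G0 p) 12 Df := IsMF.of_levelOne p isMF_D
  -- factor `r ^ 2 - 1`
  obtain ⟨t, u, hu, hfac⟩ : ∃ (t : ℕ) (u : ℤ), ¬ (ℓ : ℤ) ∣ u ∧ (r : ℤ) ^ 2 - 1 = (ℓ : ℤ) ^ t * u := by
    have hN : r ^ 2 - 1 ≠ 0 := by
      have : 2 ^ 2 ≤ r ^ 2 := Nat.pow_le_pow_left hr.two_le 2
      omega
    obtain ⟨t, u, hu, hfac⟩ := Nat.exists_eq_pow_mul_and_not_dvd hN ℓ hℓ.ne_one
    refine ⟨t, u, by exact_mod_cast hu, ?_⟩
    have h1 : 1 ≤ r ^ 2 := Nat.one_le_pow _ _ hr.pos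
    have : ((r ^ 2 - 1 : ℕ) : ℤ) = (r : ℤ) ^ 2 - 1 := by push_cast [h1]; ring
    rw [← this, hfac]
    push_cast
    ring
  have hts : t < s := by
    by_contra hst
    apply hnd
    rw [hfac]
    exact Dvd.dvd.mul_right (pow_dvd_pow _ (not_lt.1 hst)) u
  obtain ⟨e, rfl⟩ : ∃ e, s = t + 1 + e := ⟨s - (t + 1), by omega⟩
  set c : ℤ := A * (r : ℤ) ^ 11 * u with hc
  have hcℓ : ¬ (ℓ : ℤ) ∣ c := by
    intro h
    rcases hℓZ.dvd_or_dvd h with h | h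
    · rcases hℓZ.dvd_or_dvd h with h | h
      · exact hA h
      · have h2 := hℓZ.dvd_of_dvd_pow h
        have h3 : ℓ ∣ r := by exact_mod_cast h2
        exact hrℓ ((Nat.prime_dvd_prime_iff_eq hℓ hr).1 h3).symm
    · exact hu h
  set g' := heckeU 2 p g with hg'def
  have hg' : IsMF (G0 p) 2 g' := isMF_heckeU dvd_rfl hg
  have hg'Q : HasQ g' (C A + C ((ℓ : ℤ) ^ (t + 1 + e)) * Uf p R) := by
    have := HasQ.heckeU (k := 2) (dvd_refl p) hg hgQ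
    rwa [Uf_add, Uf_C p hp.ne_zero, Uf_C_mul] at this
  obtain ⟨X, hX⟩ := hasQ_DD hr hrp' hg hD12 hgQ hD
  obtain ⟨X0, hX0⟩ := hasQ_DD hr hrp' hg' (isMF_Vp isMF_D) hg'Q (hD.Vp hp.ne_zero)
  have hrew : ∀ V Z : PowerSeries ℤ,
      C (A * (r : ℤ) ^ 11 * ((r : ℤ) ^ 2 - 1)) * V + C ((ℓ : ℤ) ^ (t + 1 + e)) * Z =
        C ((ℓ : ℤ) ^ t) * (C c * V + C (ℓ : ℤ) * (C ((ℓ : ℤ) ^ e) * Z)) := by
    intro V Z
    rw [hfac, hc]
    simp only [map_mul, map_pow, pow_add, pow_one]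
    ring
  rw [hrew] at hX hX0
  have hℓt : (ℓ : ℤ) ^ t ≠ 0 := pow_ne_zero _ hℓZ.ne_zero
  have hY := hX.div_int hℓt
  have hY0 := hX0.div_int hℓt
  have hκ : (-(p : ℂ) ^ 12) ≠ 0 := neg_ne_zero.2 (pow_ne_zero _ (by exact_mod_cast hp.ne_zero))
  have key := two_cusp_sturm hp hℓ (w := 14) ((isMF_DD hr hrp' hg hD12).smul _) hY0.nice hκ
    (by rw [fricke_smul, fricke_DD hp hr hrp hg, smul_comm]) _ _ hY.coeff hY0.coeff r (r * p)
    (by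
      rw [map_add, coeff_C_mul, coeff_C_mul, coeff_Vf_self hr.pos, hD1, mul_one]
      intro h
      exact hcℓ ((dvd_add_left (dvd_mul_right _ _)).1 h))
    (by
      intro n hn
      rw [map_add, coeff_C_mul, coeff_C_mul, coeff_Vf_lt hD0 hn, mul_zero, zero_add]
      exact dvd_mul_right _ _)
    (by
      rw [map_add, coeff_C_mul, coeff_C_mul, coeff_Vf_Vf_self hr.pos hp.pos, hD1, mul_one]
      intro h
      exact hcℓ ((dvd_add_left (dvd_mul_right _ _)).1 h))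
    (by
      intro n hn
      rw [map_add, coeff_C_mul, coeff_C_mul, coeff_Vf_Vf_lt hD0 hn, mul_zero, zero_add]
      exact dvd_mul_right _ _)
  have hr2 : (2 : ℤ) ≤ r := by exact_mod_cast hr.two_le
  have hp0 : (0 : ℤ) < p := by exact_mod_cast hp.pos
  push_cast at key
  nlinarith

end Fermat.Agent.S16
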