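import Fermat.Agent.S16.Trace
import Fermat.Agent.S16.Eis
import Fermat.Prelude.Def_ModularCurve_ModularUnit

/-!
# S16/PartA: existence of a cusp form congruent to the Eisenstein series modulo `n`

`r = gcd(p-1,12) = 12 x + (p-1) y`, `H₀ = x H + y E` has constant term `r/24` and integral higher
coefficients; `f = E - n H₀` has constant term `(p-1)/24 - n r/24 = 0`, so it is a cusp form.
For `p = 2`, `n = 1` and `f = 0` works.
-/

set_option autoImplicit false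

namespace Fermat.Agent.S16

open UpperHalfPlane ModularForm Fermat.Agent.S23
open scoped MatrixGroups Manifold ModularForm

theorem partA {p : ℕ} (hp : p.Prime)
    (hH : p ≠ 2 → ∃ H : ℍ → ℂ, IsMF (G0 p) 2 H ∧ (qe H).coeff 0 = 1 / 2 ∧
      ∀ n : ℕ, 1 ≤ n → ∃ m : ℤ, (qe H).coeff n = (m : ℂ)) :
    ∃ f : ℍ → ℂ, IsCF (G0 p) 2 f ∧ ∀ j : ℕ, 1 ≤ j → ∃ m : ℤ,
      (qe f).coeff j = ((sigmaP p j + ModularCurve.eisensteinNumerator p * m : ℤ) : ℂ) := by
  by_cases hp2 : p = 2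
  · subst hp2
    refine ⟨0, ⟨0, rfl⟩, fun j _ => ⟨-(sigmaP 2 j : ℤ), ?_⟩⟩
    have h0 : qe (0 : ℍ → ℂ) = 0 := (Nice.qe_eq_zero_iff Nice.zero).2 rfl
    have h1 : ModularCurve.eisensteinNumerator 2 = 1 := by decide
    rw [h0, h1]
    simp
  obtain ⟨H, hHM, hH0, hHn⟩ := hH hp2
  have hE := isMF_Efun hp
  set n := ModularCurve.eisensteinNumerator p with hn
  set r := Nat.gcd (p - 1) 12 with hr
  set x : ℤ := Nat.gcdA (p - 1) 12 with hx
  set y : ℤ := Nat.gcdB (p - 1) 12 with hy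
  have hbez : (r : ℤ) = ((p - 1 : ℕ) : ℤ) * x + ((12 : ℕ) : ℤ) * y := Nat.gcd_eq_gcd_ab _ _
  have hnr : n * r = p - 1 := Nat.div_mul_cancel (Nat.gcd_dvd_left _ _)
  set f : ℍ → ℂ := Efun p + (-(n : ℂ)) • ((x : ℂ) • Efun p + (y : ℂ) • H) with hf
  have hH0M : IsMF (G0 p) 2 ((x : ℂ) • Efun p + (y : ℂ) • H) :=
    isMF_add (isMF_smul _ hE) (isMF_smul _ hHM)
  have hfM : IsMF (G0 p) 2 f := isMF_add hE (isMF_smul _ hH0M)
  have hcoef : ∀ j, (qe f).coeff j = (qe (Efun p)).coeff j -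
      n * (x * (qe (Efun p)).coeff j + y * (qe H).coeff j) := by
    intro j
    rw [hf, Nice.qe_add hE.nice (isMF_smul _ hH0M).nice, Nice.qe_smul _ hH0M.nice,
      Nice.qe_add (isMF_smul _ hE).nice (isMF_smul _ hHM).nice, Nice.qe_smul _ hE.nice,
      Nice.qe_smul _ hHM.nice]
    simp
    ring
  refine ⟨f, isCF_of_coeff_zero hp hfM ?_, fun j hj => ?_⟩
  · rw [hcoef, coeff_Efun hp, hH0]
    simp only [if_true]
    have h1 : ((p : ℂ) - 1) = (n : ℂ) * r := by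
      have : ((p - 1 : ℕ) : ℂ) = (n : ℂ) * r := by rw [← hnr]; push_cast; ring
      rw [← this, Nat.cast_sub hp.one_le]; simp
    have h2 : (r : ℂ) = ((p : ℂ) - 1) * x + 12 * y := by
      have := congrArg (fun t : ℤ => (t : ℂ)) hbez
      push_cast [Nat.cast_sub hp.one_le] at this
      exact this
    have h3 : (n : ℂ) * (x * (((p : ℂ) - 1) / 24) + y * (1 / 2)) = n * r / 24 := by
      rw [h2]; ring
    rw [h3, h1]
    ring
  · obtain ⟨m, hm⟩ := hHn j hj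
    refine ⟨-(x * sigmaP p j + y * m), ?_⟩
    rw [hcoef, coeff_Efun hp, hm, if_neg (by omega)]
    push_cast
    ring

end Fermat.Agent.S16
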