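import Fermat.Agent.S16.Trace
import Fermat.Agent.S16.IntQ

/-!
# S16/QPrinciple: the `q`-expansion principle for `Γ₀(p)` at a prime `ℓ ≠ p`, by traces only
See the blueprint (board topic S16), item (Q).
-/

set_option autoImplicit false

namespace Fermat.Agent.S16

open UpperHalfPlane ModularForm Fermat.Agent.S23 PowerSeries
open scoped MatrixGroups Manifold ModularForm

namespace QPrinciple

/-- reduction mod `ℓ` of integral power series -/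
noncomputable abbrev red (ℓ : ℕ) : PowerSeries ℤ →+* PowerSeries (ZMod ℓ) :=
  PowerSeries.map (Int.castRingHom (ZMod ℓ))

theorem red_C_mul (ℓ : ℕ) (R : PowerSeries ℤ) : red ℓ (C (ℓ : ℤ) * R) = 0 := by
  rw [map_mul, PowerSeries.map_C]
  simp

/-- `φ` is the reduction of `F^w` for a form `F ≡ 0 mod ℓ` with `F^w` integral. -/
def QP (p ℓ : ℕ) (k : ℤ) (φ : PowerSeries (ZMod ℓ)) : Prop :=
  ∃ (F : ℍ → ℂ) (R P : PowerSeries ℤ), IsMF (G0 p) k F ∧ HasQ F (C (ℓ : ℤ) * R) ∧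
    HasQ (fricke p k F) P ∧ red ℓ P = φ

/-- `φ` is the reduction of an integral level one form of weight `k`. -/
def L1 (ℓ : ℕ) (k : ℤ) (φ : PowerSeries (ZMod ℓ)) : Prop :=
  ∃ (T : ℍ → ℂ) (P : PowerSeries ℤ), IsMF 𝒮ℒ k T ∧ HasQ T P ∧ red ℓ P = φ

variable {p ℓ : ℕ}

theorem step (hp : p.Prime) (hℓ : ℓ.Prime) (hℓp : ℓ ≠ p) (k' : ℕ) {φ : PowerSeries (ZMod ℓ)}
    (h : QP p ℓ ((k' : ℤ) + 2) φ) : L1 ℓ ((k' : ℤ) + 2) φ ∧ QP p ℓ ((k' : ℤ) + 2) (Vf p φ) := by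
  have : NeZero p := ⟨hp.ne_zero⟩
  have : Fact ℓ.Prime := ⟨hℓ⟩
  obtain ⟨F, R, P, hF, hFQ, hF'Q, hred⟩ := h
  set k : ℤ := (k' : ℤ) + 2 with hk
  have hpC : (p : ℂ) ≠ 0 := by exact_mod_cast hp.ne_zero
  have hk2 : (p : ℂ) ^ (k - 2) = (((p : ℤ) ^ k' : ℤ) : ℂ) := by
    rw [hk, add_sub_cancel_right, zpow_natCast]; push_cast; rfl
  have hk1 : (p : ℂ) ^ (k - 1) = (((p : ℤ) ^ (k' + 1) : ℤ) : ℂ) := by
    rw [hk, show (k' : ℤ) + 2 - 1 = ((k' + 1 : ℕ) : ℤ) by push_cast; ring, zpow_natCast]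
    push_cast; rfl
  set F' := fricke p k F with hF'def
  have hF' : IsMF (G0 p) k F' := isMF_fricke hF
  set UF := heckeU k p F with hUFdef
  have hUF : IsMF (G0 p) k UF := isMF_heckeU dvd_rfl hF
  have hUFQ : HasQ UF (C (ℓ : ℤ) * Uf p R) := by
    have := HasQ.heckeU (k := k) (dvd_refl p) hF hFQ
    rwa [Uf_C_mul] at this
  set T := F' + UF with hTdef
  have hTQ : HasQ T (P + C (ℓ : ℤ) * Uf p R) := hF'Q.add hUFQ
  have hTred : red ℓ (P + C (ℓ : ℤ) * Uf p R) = φ := by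
    rw [map_add, red_C_mul, add_zero, hred]
  have hT : IsMF 𝒮ℒ k T := by
    have h1 := isMF_trace_fricke hp hF'
    rw [fricke_fricke hF, heckeU_smul, ← smul_add] at h1
    have h2 := h1.smul ((p : ℂ) ^ (k - 2))⁻¹
    rwa [smul_smul, inv_mul_cancel₀ (zpow_ne_zero _ hpC), one_smul] at h2
  refine ⟨⟨T, _, hT, hTQ, hTred⟩, ?_⟩
  -- the next form
  have hpl : ((p : ZMod ℓ)) ≠ 0 := by
    intro h0
    rw [ZMod.natCast_eq_zero_iff] at h0
    exact hℓp ((Nat.prime_dvd_prime_iff_eq hℓ hp).1 h0)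
  obtain ⟨c0, hc0⟩ := ZMod.intCast_surjective (((p : ZMod ℓ) ^ (k' + 1))⁻¹)
  refine ⟨(c0 : ℂ) • UF, C c0 * Uf p R,
    C c0 * (C ((p : ℤ) ^ (k' + 1)) * Vf p (P + C (ℓ : ℤ) * Uf p R) -
      C ((p : ℤ) ^ k') * (C (ℓ : ℤ) * R)), hUF.smul _, ?_, ?_, ?_⟩
  · have := hUFQ.smul_int c0
    rwa [mul_left_comm] at this
  · have hUFeq : UF = T - F' := by rw [hTdef]; abel
    have h1 : fricke p k UF = (p : ℂ) ^ (k - 1) • Vp p T - (p : ℂ) ^ (k - 2) • F := by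
      rw [hUFeq, fricke_sub, fricke_levelOne hp.ne_zero hT, fricke_fricke hF]
    rw [fricke_smul, h1, hk1, hk2]
    exact (((hTQ.Vp hp.ne_zero).smul_int _).sub (hFQ.smul_int _)).smul_int c0
  · rw [map_mul, map_sub, map_mul, map_mul, red_C_mul, mul_zero, sub_zero, ← Vf_map, hTred,
      PowerSeries.map_C, PowerSeries.map_C, ← mul_assoc, ← map_mul]
    have : (Int.castRingHom (ZMod ℓ)) c0 * (Int.castRingHom (ZMod ℓ)) ((p : ℤ) ^ (k' + 1)) = 1 := by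
      simp only [eq_intCast, hc0]
      push_cast
      exact inv_mul_cancel₀ (pow_ne_zero _ hpl)
    rw [this, map_one, one_mul]

theorem iterate (hp : p.Prime) (hℓ : ℓ.Prime) (hℓp : ℓ ≠ p) (k' : ℕ) {φ : PowerSeries (ZMod ℓ)}
    (h : QP p ℓ ((k' : ℤ) + 2) φ) (i : ℕ) : QP p ℓ ((k' : ℤ) + 2) ((Vf p)^[i] φ) := by
  induction i with
  | zero => exact h
  | succ i ih =>
    rw [Function.iterate_succ_apply']
    exact (step hp hℓ hℓp k' ih).2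

theorem coeff_iterate_Vf {R : Type} [CommRing R] (hp : p ≠ 0) (φ : PowerSeries R) (i n : ℕ) :
    ((Vf p)^[i] φ).coeff n = if p ^ i ∣ n then φ.coeff (n / p ^ i) else 0 := by
  induction i generalizing n with
  | zero => simp
  | succ i ih =>
    rw [Function.iterate_succ_apply', coeff_Vf]
    by_cases h1 : p ∣ n
    · obtain ⟨m, rfl⟩ := h1
      rw [if_pos (dvd_mul_right p m), Nat.mul_div_cancel_left _ (Nat.pos_of_ne_zero hp), ih,
        pow_succ']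
      by_cases h2 : p ^ i ∣ m
      · rw [if_pos h2, if_pos (Nat.mul_dvd_mul_left p h2),
          Nat.mul_div_mul_left _ _ (Nat.pos_of_ne_zero hp)]
      · rw [if_neg h2, if_neg]
        intro h3
        exact h2 (Nat.dvd_of_mul_dvd_mul_left (Nat.pos_of_ne_zero hp) h3)
    · rw [if_neg h1, if_neg]
      intro h3
      exact h1 (dvd_trans (dvd_pow_self p (Nat.succ_ne_zero i)) h3)

/-- If all `V_p^i φ` are reductions of level one forms of weight `k`, then `φ = V_p φ`. -/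
theorem eq_Vf_of_L1 (hp : p.Prime) (k : ℤ) {φ : PowerSeries (ZMod ℓ)}
    (h : ∀ i, L1 ℓ k ((Vf p)^[i] φ)) : φ = Vf p φ := by
  -- choose `i` with `k < 12 * p ^ i`
  set i := k.toNat with hi
  have hbig : k < (p : ℤ) ^ i := by
    have h1 : i < p ^ i := Nat.lt_pow_self hp.one_lt
    have h2 : k ≤ (i : ℤ) := Int.self_le_toNat k
    have h3 : (i : ℤ) < (p : ℤ) ^ i := by exact_mod_cast h1
    omega
  obtain ⟨T1, P1, hT1, hQ1, hr1⟩ := h i
  obtain ⟨T2, P2, hT2, hQ2, hr2⟩ := h (i + 1)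
  have hT : IsMF 𝒮ℒ k (T1 - T2) := isMF_sub hT1 hT2
  have hQ : HasQ (T1 - T2) (P1 - P2) := hQ1.sub hQ2
  have key : ∀ n, (qe (T1 - T2)).coeff n ∈ AddSubgroup.zmultiples (ℓ : ℂ) := by
    apply sturm_levelOne' _ hT
    intro n hn
    have hnlt : n < p ^ i := by
      have : (n : ℤ) < (p : ℤ) ^ i := by omega
      exact_mod_cast this
    have h0 : (red ℓ (P1 - P2)).coeff n = 0 := by
      rw [map_sub, hr1, hr2, map_sub, coeff_iterate_Vf hp.ne_zero, coeff_iterate_Vf hp.ne_zero]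
      rcases Nat.eq_zero_or_pos n with rfl | hpos
      · simp
      · rw [if_neg (fun hd => absurd (Nat.le_of_dvd hpos hd) (not_le.2 hnlt)), if_neg, sub_zero]
        intro hd
        exact absurd (Nat.le_of_dvd hpos (dvd_trans (pow_dvd_pow p (Nat.le_succ i)) hd))
          (not_le.2 hnlt)
    rw [PowerSeries.coeff_map, eq_intCast, ZMod.intCast_zmod_eq_zero_iff_dvd] at h0
    obtain ⟨z, hz⟩ := h0
    rw [hQ.coeff, hz, AddSubgroup.mem_zmultiples_iff]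
    exact ⟨z, by push_cast; simp [mul_comm]⟩
  have heq : (Vf p)^[i] φ = (Vf p)^[i + 1] φ := by
    rw [← hr1, ← hr2, ← sub_eq_zero, ← map_sub]
    ext n
    rw [PowerSeries.coeff_map, eq_intCast, map_zero, ZMod.intCast_zmod_eq_zero_iff_dvd]
    have h1 := key n
    rw [hQ.coeff, AddSubgroup.mem_zmultiples_iff] at h1
    obtain ⟨z, hz⟩ := h1
    refine ⟨z, ?_⟩
    have : (((P1 - P2).coeff n : ℤ) : ℂ) = (((ℓ : ℤ) * z : ℤ) : ℂ) := by
      rw [← hz]; push_cast; simp [mul_comm]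
    exact_mod_cast this
  rw [Function.iterate_succ_apply] at heq
  exact (Vf_injective p hp.ne_zero).iterate i heq

theorem coeff_eq_zero_of_eq_Vf {R : Type} [CommRing R] (hp : p.Prime) {φ : PowerSeries R}
    (h : φ = Vf p φ) (n : ℕ) (hn : 1 ≤ n) : φ.coeff n = 0 := by
  induction n using Nat.strong_induction_on with
  | _ n ih =>
    rw [h, coeff_Vf]
    split_ifs with hd
    · exact ih (n / p) (Nat.div_lt_self hn hp.one_lt) (Nat.div_pos (Nat.le_of_dvd hn hd) hp.pos)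
    · rfl

/-- `QP` forces `φ` to be constant. -/
theorem coeff_eq_zero (hp : p.Prime) (hℓ : ℓ.Prime) (hℓp : ℓ ≠ p) (k' : ℕ)
    {φ : PowerSeries (ZMod ℓ)} (h : QP p ℓ ((k' : ℤ) + 2) φ) (n : ℕ) (hn : 1 ≤ n) :
    φ.coeff n = 0 :=
  coeff_eq_zero_of_eq_Vf hp
    (eq_Vf_of_L1 hp _ fun i => (step hp hℓ hℓp k' (iterate hp hℓ hℓp k' h i)).1) n hn

/-- multiply by `V_p Δ`. -/
theorem mul_delta (hp : p.Prime) (k : ℤ) {φ : PowerSeries (ZMod ℓ)} (h : QP p ℓ k φ)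
    {Dq : PowerSeries ℤ} (hD : HasQ Df Dq) : QP p ℓ (k + 12) (φ * red ℓ Dq) := by
  have : NeZero p := ⟨hp.ne_zero⟩
  obtain ⟨F, R, P, hF, hFQ, hF'Q, hred⟩ := h
  have hpC : (p : ℂ) ≠ 0 := by exact_mod_cast hp.ne_zero
  refine ⟨F * Vp p Df, R * Vf p Dq, P * Dq, isMF_mul hF (isMF_Vp isMF_D), ?_, ?_, ?_⟩
  · have := hFQ.mul (hD.Vp hp.ne_zero)
    rwa [mul_assoc] at this
  · have h1 : fricke p (k + 12) (F * Vp p Df) = fricke p k F * Df := by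
      rw [fricke_mul hp.ne_zero, fricke_Vp isMF_D, mul_smul_comm, smul_smul,
        mul_inv_cancel₀ hpC, one_smul]
    rw [h1]
    exact hF'Q.mul hD
  · rw [map_mul, hred]

theorem eq_zero (hp : p.Prime) (hℓ : ℓ.Prime) (hℓp : ℓ ≠ p) (k' : ℕ)
    {φ : PowerSeries (ZMod ℓ)} (h : QP p ℓ ((k' : ℤ) + 2) φ) : φ = 0 := by
  obtain ⟨Dq, hD, hD0, hD1⟩ := exists_hasQ_D
  have h1 := coeff_eq_zero hp hℓ hℓp k' h
  have h2 : QP p ℓ (((k' + 12 : ℕ) : ℤ) + 2) (φ * red ℓ Dq) := by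
    have := mul_delta hp _ h hD
    convert this using 1
    push_cast
    ring
  have h3 := coeff_eq_zero hp hℓ hℓp (k' + 12) h2 1 le_rfl
  rw [PowerSeries.coeff_mul, Finset.Nat.antidiagonal_succ] at h3
  simp only [Finset.Nat.antidiagonal_zero, Finset.map_singleton, Finset.sum_cons,
    Finset.sum_singleton, Function.Embedding.prodMap, Function.Embedding.coeFn_mk, Prod.map,
    Function.Embedding.refl_apply, PowerSeries.coeff_map, hD0, hD1] at h3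
  have h4 : φ.coeff 0 = 0 := by simpa using h3
  ext n
  rcases Nat.eq_zero_or_pos n with rfl | hn
  · simpa using h4
  · simpa using h1 n hn

end QPrinciple

theorem qexp_principle {p ℓ : ℕ} (hp : p.Prime) (hℓ : ℓ.Prime) (hℓp : ℓ ≠ p) {k : ℤ} (hk : 2 ≤ k)
    {F : ℍ → ℂ} (hF : IsMF (G0 p) k F) (hint : IsInt (qe (fricke p k F)))
    (hdvd : DvdQ ℓ (qe F)) : DvdQ ℓ (qe (fricke p k F)) := by
  have : NeZero p := ⟨hp.ne_zero⟩
  obtain ⟨k', rfl⟩ : ∃ k' : ℕ, k = (k' : ℤ) + 2 := ⟨(k - 2).toNat, by omega⟩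
  obtain ⟨R, hR⟩ := exists_hasQ_of_dvdQ hF.nice hdvd
  obtain ⟨P, hP⟩ := HasQ.of_isInt (isMF_fricke hF).nice hint
  have h0 : QPrinciple.red ℓ P = 0 := QPrinciple.eq_zero hp hℓ hℓp k' ⟨F, R, P, hF, hR, hP, rfl⟩
  exact (hP.dvdQ_iff _).2 ((map_zmod_eq_zero_iff ℓ P).1 h0)

theorem qexp_principle_pow {p ℓ : ℕ} (hp : p.Prime) (hℓ : ℓ.Prime) (hℓp : ℓ ≠ p) {k : ℤ}
    (hk : 2 ≤ k) (s : ℕ) {F : ℍ → ℂ} (hF : IsMF (G0 p) k F) (hint : IsInt (qe (fricke p k F)))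
    (hdvd : DvdQ ((ℓ : ℤ) ^ s) (qe F)) : DvdQ ((ℓ : ℤ) ^ s) (qe (fricke p k F)) := by
  have : NeZero p := ⟨hp.ne_zero⟩
  have hℓ0 : (ℓ : ℤ) ≠ 0 := by exact_mod_cast hℓ.ne_zero
  induction s generalizing F with
  | zero =>
    intro n
    obtain ⟨z, hz⟩ := hint n
    exact ⟨z, by rw [hz]; simp⟩
  | succ s ih =>
    obtain ⟨R, hR⟩ := exists_hasQ_of_dvdQ hF.nice hdvd
    have hR' : HasQ F (C (ℓ : ℤ) * (C ((ℓ : ℤ) ^ s) * R)) := by
      rwa [← mul_assoc, ← map_mul, ← pow_succ']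
    have h1 : DvdQ ℓ (qe (fricke p k F)) :=
      qexp_principle hp hℓ hℓp hk hF hint ((hR'.dvdQ_iff _).2 ⟨_, rfl⟩)
    obtain ⟨P, hP⟩ := exists_hasQ_of_dvdQ (isMF_fricke hF).nice h1
    have hF1 : IsMF (G0 p) k (((ℓ : ℤ) : ℂ)⁻¹ • F) := hF.smul _
    have hF1Q : HasQ (((ℓ : ℤ) : ℂ)⁻¹ • F) (C ((ℓ : ℤ) ^ s) * R) := hR'.div_int hℓ0
    have hF1'Q : HasQ (fricke p k (((ℓ : ℤ) : ℂ)⁻¹ • F)) P := by
      rw [fricke_smul]
      exact hP.div_int hℓ0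
    have h2 := ih hF1 hF1'Q.isInt ((hF1Q.dvdQ_iff _).2 ⟨_, rfl⟩)
    obtain ⟨R2, hR2⟩ := (hF1'Q.dvdQ_iff _).1 h2
    refine (hP.dvdQ_iff _).2 ⟨R2, ?_⟩
    rw [hR2, ← mul_assoc, ← map_mul, ← pow_succ']

end Fermat.Agent.S16
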